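import Fermat.Agent.CFT.Flat.Digits

/-!
# The tame field of level `p ^ 2 - 1`
-/

set_option autoImplicit false
set_option linter.style.haveILetI false
set_option linter.unusedSectionVars false

noncomputable section

namespace Fermat.Agent.CFT.Flat

open Fermat.Agent.Arith Polynomial

variable (p : ℕ) [hp : Fact p.Prime]

/-- The tame exponent. -/
def e₀ (p : ℕ) : ℕ := p ^ 2 - 1

theorem e₀_pos : 0 < e₀ p :=
  Nat.sub_pos_of_lt (Nat.one_lt_pow two_ne_zero hp.out.one_lt)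

theorem not_dvd_e₀ : ¬ p ∣ e₀ p := by
  intro h
  have := Nat.dvd_sub (dvd_pow_self p two_ne_zero : p ∣ p ^ 2) h
  rw [e₀, Nat.sub_sub_self (Nat.one_le_pow 2 p hp.out.pos)] at this
  exact hp.out.not_dvd_one this

theorem e₀_eq : e₀ p = (p + 1) * (p - 1) := by
  rw [e₀, ← one_pow 2, Nat.sq_sub_sq, one_pow]

/-- A fixed `(p ^ 2 - 1)`-st root of `p`. -/
def rad : QBar := (IsAlgClosed.exists_pow_nat_eq (p : QBar) (e₀_pos p)).choose

theorem rad_pow : rad p ^ e₀ p = (p : QBar) :=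
  (IsAlgClosed.exists_pow_nat_eq (p : QBar) (e₀_pos p)).choose_spec

theorem rad_ne_zero : rad p ≠ 0 := fun h => hp.out.ne_zero (by
  have := rad_pow p
  rw [h, zero_pow (e₀_pos p).ne'] at this
  exact_mod_cast this.symm)

theorem nrm_rad_pow : nrm p (rad p) ^ e₀ p = (p : ℝ)⁻¹ := by
  rw [← nrm_pow, rad_pow, nrm_natCast_self]

/-- Tame inertia of level `p ^ 2 - 1`. -/
def tame : Subgroup GQ := fixer p (rad p)

theorem mem_tame {g : GQ} : g ∈ tame p ↔ g ∈ inG p ∧ g (rad p) = rad p := mem_fixer p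

theorem isUnif_rad : IsUnif (p := p) (tame p) (rad p) := by
  refine ⟨isLevel_fixer _, fun g hg => ((mem_fixer p).mp hg).2, ?_⟩
  have hle : (orb p (rad p)).card ≤ e₀ p := by
    classical
    refine (Finset.card_le_card (t := (nthRoots (e₀ p) (p : QBar)).toFinset) fun y hy => ?_).trans
      ((Multiset.toFinset_card_le _).trans (card_nthRoots _ _))
    obtain ⟨g, -, rfl⟩ := mem_orb.mp hy
    rw [Multiset.mem_toFinset, mem_nthRoots (e₀_pos p), ← map_pow, rad_pow, map_natCast]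
  rw [card_orb] at hle
  set m := (tame p).relIndex (inG p)
  change m ≤ e₀ p at hle
  obtain ⟨k, hk⟩ := (isLevel_fixer (p := p) (rad p)).nrm_pow_relIndex (rad_ne_zero p)
    fun g hg => ((mem_fixer p).mp hg).2
  change nrm p (rad p) ^ m = _ at hk
  have hr := nrm_rad_pow p
  have hpos : 0 < nrm p (rad p) := nrm_pos p (rad_ne_zero p)
  have hlt : nrm p (rad p) < 1 := by
    by_contra h
    have := one_le_pow₀ (n := e₀ p) (not_lt.mp h)
    rw [hr] at this
    exact absurd this (not_le.mpr (inv_cast_lt_one p))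
  rw [← hr, ← zpow_natCast, ← zpow_natCast, ← zpow_mul] at hk
  have h1 := zpow_right_injective₀ hpos hlt.ne hk
  have hm : m ≠ 0 := (isLevel_fixer (p := p) (rad p)).relIndex_ne_zero
  have hdvd : e₀ p ∣ m := Int.natCast_dvd_natCast.mp ⟨k, h1⟩
  rw [le_antisymm hle (Nat.le_of_dvd (Nat.pos_of_ne_zero hm) hdvd)]
  exact hr

theorem card_orb_rad : (orb p (rad p)).card = e₀ p := by
  have h1 := (isUnif_rad p).pow_eq
  rw [← nrm_rad_pow p, ← zpow_natCast, ← zpow_natCast] at h1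
  have h2 := zpow_right_injective₀ (nrm_pos p (rad_ne_zero p)) (isUnif_rad p).lt_one.ne h1
  rw [(isUnif_rad p).card_orb_eq]
  exact_mod_cast h2

/-- The tame character. -/
def theta (g : GQ) : QBar := g (rad p) / rad p

theorem map_rad (g : GQ) : g (rad p) = theta p g * rad p :=
  (div_mul_cancel₀ _ (rad_ne_zero p)).symm

theorem theta_pow (g : GQ) : theta p g ^ e₀ p = 1 := by
  rw [theta, div_pow, ← map_pow, rad_pow, map_natCast,
    div_self (Nat.cast_ne_zero.mpr hp.out.ne_zero)]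

theorem map_theta {g : GQ} (hg : g ∈ inG p) (h : GQ) : g (theta p h) = theta p h :=
  inG_fix_root p hg (theta_pow p h) (not_dvd_e₀ p)

theorem theta_one : theta p 1 = 1 := div_self (rad_ne_zero p)

theorem theta_mul {g : GQ} (hg : g ∈ inG p) (h : GQ) :
    theta p (g * h) = theta p g * theta p h := by
  rw [theta, AlgEquiv.mul_apply, map_rad p h, map_mul, map_theta p hg, map_rad p g]
  field_simp [rad_ne_zero p]

theorem theta_pow_apply {τ : GQ} (hτ : τ ∈ inG p) :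
    ∀ i : ℕ, theta p (τ ^ i) = theta p τ ^ i
  | 0 => by rw [pow_zero, pow_zero, theta_one]
  | i + 1 => by rw [pow_succ', pow_succ', theta_mul p hτ, theta_pow_apply hτ i]

theorem theta_eq_one_iff {g : GQ} (hg : g ∈ inG p) : theta p g = 1 ↔ g ∈ tame p := by
  rw [theta, div_eq_one_iff_eq (rad_ne_zero p), mem_tame]
  exact ⟨fun h => ⟨hg, h⟩, fun h => h.2⟩

theorem exists_theta_eq {ζ : QBar} (hζ : ζ ^ e₀ p = 1) : ∃ g ∈ inG p, theta p g = ζ := by
  classical
  haveI : NeZero (e₀ p) := ⟨(e₀_pos p).ne'⟩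
  have hall : orb p (rad p) = (nthRoots (e₀ p) (p : QBar)).toFinset := by
    refine Finset.eq_of_subset_of_card_le (fun y hy => ?_)
      (((Multiset.toFinset_card_le _).trans (card_nthRoots _ _)).trans_eq (card_orb_rad p).symm)
    obtain ⟨g, -, rfl⟩ := mem_orb.mp hy
    rw [Multiset.mem_toFinset, mem_nthRoots (e₀_pos p), ← map_pow, rad_pow, map_natCast]
  have hmem : ζ * rad p ∈ orb p (rad p) := by
    rw [hall, Multiset.mem_toFinset, mem_nthRoots (e₀_pos p), mul_pow, hζ, rad_pow, one_mul]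
  obtain ⟨g, hg, hgr⟩ := mem_orb.mp hmem
  exact ⟨g, hg, by rw [theta, hgr, mul_div_cancel_right₀ _ (rad_ne_zero p)]⟩

/-- A generator of tame inertia. -/
theorem exists_tame_generator :
    ∃ τ ∈ inG p, IsPrimitiveRoot (theta p τ) (e₀ p) ∧
      ∀ g ∈ inG p, ∃ i : ℕ, (τ ^ i)⁻¹ * g ∈ tame p := by
  haveI : NeZero (e₀ p) := ⟨(e₀_pos p).ne'⟩
  haveI : NeZero (e₀ p : QBar) := ⟨Nat.cast_ne_zero.mpr (e₀_pos p).ne'⟩
  obtain ⟨w, hw⟩ := HasEnoughRootsOfUnity.exists_primitiveRoot QBar (e₀ p)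
  obtain ⟨τ, hτ, hτw⟩ := exists_theta_eq p hw.pow_eq_one
  refine ⟨τ, hτ, hτw ▸ hw, fun g hg => ?_⟩
  obtain ⟨i, -, hi⟩ := hw.eq_pow_of_pow_eq_one (theta_pow p g)
  have hpow : ∀ i : ℕ, theta p (τ ^ i) = w ^ i := fun i => by rw [theta_pow_apply p hτ, hτw]
  refine ⟨i, (theta_eq_one_iff p ((inG p).mul_mem ((inG p).inv_mem ((inG p).pow_mem hτ i)) hg)).mp ?_⟩
  have h1 : theta p (τ ^ i) * theta p ((τ ^ i)⁻¹ * g) = theta p (τ ^ i) := by
    rw [← theta_mul p ((inG p).pow_mem hτ i), mul_inv_cancel_left, hpow, hi]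
  rwa [mul_eq_left₀ (by rw [hpow]; exact pow_ne_zero _ (hw.ne_zero (e₀_pos p).ne'))] at h1

/-- Frobenius fixing the radical. -/
theorem exists_frobenius_rad :
    ∃ φ ∈ decG p, φ (rad p) = rad p ∧ ∀ x, nrm p x ≤ 1 → nrm p (φ x - x ^ p) < 1 := by
  obtain ⟨φ, hφ, hcongr⟩ := exists_frobenius p
  obtain ⟨τ, hτ, hτθ⟩ := exists_theta_eq p (ζ := (theta p φ)⁻¹) (by rw [inv_pow, theta_pow, inv_one])
  refine ⟨τ * φ, (decG p).mul_mem (inG_le_decG p hτ) hφ, ?_, fun x hx => ?_⟩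
  · rw [AlgEquiv.mul_apply, map_rad p φ, map_mul, map_theta p hτ, map_rad p τ, hτθ, ← mul_assoc,
      mul_inv_cancel₀ (show theta p φ ≠ 0 by
        rw [theta]; exact div_ne_zero ((_root_.map_ne_zero φ).mpr (rad_ne_zero p)) (rad_ne_zero p)),
      one_mul]
  · rw [AlgEquiv.mul_apply, show τ (φ x) - x ^ p = (τ (φ x) - φ x) + (φ x - x ^ p) by ring]
    exact nrm_add_lt_of_lt p (nrm_sub_lt_one_of_mem_inG p hτ ((nrm_map p hφ x).trans_le hx))
      (hcongr x hx)

theorem map_root_of_frobenius {φ : GQ} (h : ∀ x, nrm p x ≤ 1 → nrm p (φ x - x ^ p) < 1)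
    {ζ : QBar} {m : ℕ} (hm : 0 < m) (hζ : ζ ^ m = 1) (hpm : ¬ p ∣ m) : φ ζ = ζ ^ p := by
  refine root_congr (Local.padicPlace_liesOverPrime p) hp.out (m := m)
    (by rw [← map_pow, hζ, map_one]) (by rw [← pow_mul, mul_comm, pow_mul, hζ, one_pow]) hpm
    ((mem_nonunits_iff p).mpr (h ζ (nrm_root p hm hζ).le))

/-! ### Tameness of characters of order dividing `p ^ 2 - 1` -/

/-- The tame quotient of inertia at a finite level, through the action on a uniformiser. -/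
theorem exists_tame_char {H : Subgroup GQ} (hH : IsLevel p H)
    (hnorm : ∀ g ∈ inG p, ∀ h ∈ H, g⁻¹ * h * g ∈ H) :
    ∃ (π : QBar) (z : inG p →* QBar), IsUnif (p := p) H π ∧
      (∀ g, ∃ m, 0 < m ∧ ¬ p ∣ m ∧ z g ^ m = 1) ∧
      (∀ g : inG p, nrm p ((g : GQ) π / π - z g) < 1) ∧
      (∀ g : inG p, z g ^ H.relIndex (inG p) = 1) ∧
      (∀ g : inG p, (g : GQ) ∈ H → z g = 1) ∧
      (∀ g, z g = 1 → ∃ a : ℕ, ((g ^ p ^ a : inG p) : GQ) ∈ H) ∧
      (∀ φ ∈ decG p, (∀ x, nrm p x ≤ 1 → nrm p (φ x - x ^ p) < 1) → ∀ g h : inG p,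
        (h : GQ) = φ * g * φ⁻¹ → z h = z g ^ p) := by
  classical
  obtain ⟨π, u⟩ := hH.exists_unif
  have hconj : ∀ g ∈ inG p, ∀ h ∈ H, h (g π) = g π := fun g hg h hh => by
    have := congrArg g (u.fixed _ (hnorm g hg h hh))
    rwa [← AlgEquiv.mul_apply, mul_assoc g⁻¹, mul_inv_cancel_left, AlgEquiv.mul_apply] at this
  -- the residue of `g π / π`
  have hz : ∀ g : inG p, ∃ z : QBar, (∃ m, 0 < m ∧ ¬ p ∣ m ∧ z ^ m = 1) ∧
      nrm p ((g : GQ) π / π - z) < 1 := fun g => by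
    obtain ⟨z, m, h0, h1, h2, h3⟩ := exists_rootOfUnity p (x := (g : GQ) π / π)
      (by rw [nrm_div, nrm_map_of_mem_inG p g.2, div_self u.pos.ne'])
    exact ⟨z, ⟨m, h0, h1, h2⟩, h3⟩
  choose z hzroot hzlt using hz
  have hzmul : ∀ g h : inG p, z (g * h) = z g * z h := by
    intro g h
    obtain ⟨m, hm, hpm, hg1⟩ := hzroot g
    obtain ⟨m', hm', hpm', hh1⟩ := hzroot h
    refine root_unique p (hzroot _) ⟨m * m', Nat.mul_pos hm hm', hp.out.not_dvd_mul hpm hpm', by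
      rw [mul_pow, pow_mul, hg1, one_pow, one_mul, mul_comm m, pow_mul, hh1, one_pow]⟩ ?_
    rw [show z (g * h) - z g * z h = -(((g * h : inG p) : GQ) π / π - z (g * h)) +
        (((g : GQ) π / π - z g) * z h + ((g : GQ) π / π) * ((g : GQ) ((h : GQ) π / π - z h))) by
      rw [map_sub, map_div₀, inG_fix_root p g.2 hh1 hpm', Subgroup.coe_mul, AlgEquiv.mul_apply]
      field_simp [(_root_.map_ne_zero (g : GQ)).mpr u.ne_zero, u.ne_zero]
      ring]
    refine nrm_add_lt_of_lt p (by rw [nrm_neg]; exact hzlt _) (nrm_add_lt_of_lt p ?_ ?_)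
    · rw [nrm_mul, nrm_root p hm' hh1, mul_one]; exact hzlt g
    · rw [nrm_mul, nrm_map_of_mem_inG p g.2, nrm_div, nrm_map_of_mem_inG p g.2,
        div_self u.pos.ne', one_mul]
      exact hzlt h
  have hzH : ∀ g : inG p, (g : GQ) ∈ H → z g = 1 := fun g hg =>
    root_unique p (hzroot g) ⟨1, one_pos, hp.out.not_dvd_one, one_pow 1⟩ (by
      have := hzlt g
      rw [u.fixed _ hg, div_self u.ne_zero] at this
      rwa [nrm_sub_comm])
  -- bounded torsion
  set N := H.relIndex (inG p)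
  haveI : (H.subgroupOf (inG p)).Normal := ⟨fun h hh g => by
    have := hnorm ((g⁻¹ : inG p) : GQ) (g⁻¹).2 _ hh
    rwa [Subgroup.coe_inv, inv_inv] at this⟩
  have hN : ∀ g : inG p, ((g ^ N : inG p) : GQ) ∈ H := fun g =>
    Subgroup.pow_index_mem (H.subgroupOf (inG p)) g
  have hN0 : 0 < N := Nat.pos_of_ne_zero hH.relIndex_ne_zero
  let zh : inG p →* QBar := { toFun := z, map_one' := hzH 1 (one_mem _), map_mul' := hzmul }
  have hzN : ∀ g, z g ^ N = 1 := fun g => by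
    show zh g ^ N = 1
    rw [← map_pow]; exact hzH _ (hN g)
  have hwild : ∀ g : inG p, z g = 1 → ∃ a : ℕ, ((g ^ p ^ a : inG p) : GQ) ∈ H := by
    intro g hg
    obtain ⟨a, m, hpm, hNm⟩ : ∃ a m, ¬ p ∣ m ∧ N = p ^ a * m :=
      Nat.exists_eq_pow_mul_and_not_dvd hN0.ne' p hp.out.ne_one
    refine ⟨a, ?_⟩
    show ((g ^ p ^ a : inG p) : GQ) ∈ H
    set f : inG p := g ^ p ^ a
    have hf1 : z f = 1 := by show zh f = 1; rw [map_pow]; show z g ^ _ = 1; rw [hg, one_pow]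
    have hfm : ((f ^ m : inG p) : GQ) ∈ H := by rw [← pow_mul, ← hNm]; exact hN g
    refine u.fixer_eq ▸ (mem_fixer p).mpr ⟨f.2, ?_⟩
    by_contra hne
    set δ := (f : GQ) π - π with hδ
    have hδ0 : δ ≠ 0 := sub_ne_zero.mpr hne
    -- `f` moves `δ` by less than `δ`
    obtain ⟨k, hk⟩ := u.exists_zpow hδ0 fun h hh => by
      rw [map_sub, u.fixed h hh, hconj _ f.2 h hh]
    have hπk : π ^ k ≠ 0 := zpow_ne_zero _ u.ne_zero
    have hw : nrm p (δ / π ^ k) ≤ 1 := by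
      rw [nrm_div, hk, nrm_zpow,
        div_self (zpow_pos u.pos k).ne']
    have hstep : nrm p ((f : GQ) δ - δ) < nrm p δ := by
      have hone : nrm p ((f : GQ) π / π - 1) < 1 := by have := hzlt f; rwa [hf1] at this
      have hunit : nrm p (((f : GQ) π / π) ^ k - 1) < 1 := (nrm_zpow_sub_one_le (by
        rw [nrm_div, nrm_map_of_mem_inG p f.2, div_self u.pos.ne']) k).trans_lt hone
      rw [show (f : GQ) δ - δ = π ^ k * ((((f : GQ) π / π) ^ k - 1) * (f : GQ) (δ / π ^ k) +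
          ((f : GQ) (δ / π ^ k) - δ / π ^ k)) by
        rw [map_div₀, map_zpow₀, div_zpow]
        field_simp [hπk, zpow_ne_zero k ((_root_.map_ne_zero (f : GQ)).mpr u.ne_zero)]
        ring, nrm_mul]
      refine (mul_lt_mul_of_pos_left ?_ (nrm_pos p hπk)).trans_eq ?_ (b := nrm p (π ^ k) * 1)
      · refine nrm_add_lt_of_lt p ?_ (nrm_sub_lt_one_of_mem_inG p f.2 hw)
        rw [nrm_mul]
        exact (mul_le_of_le_one_right (nrm_nonneg p _)
          ((nrm_map_of_mem_inG p f.2 _).trans_le hw)).trans_lt hunit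
      · rw [mul_one, hk, nrm_zpow]
    have hiter : ∀ i : ℕ, nrm p (((f : GQ) ^ i) δ - δ) < nrm p δ := by
      intro i
      induction i with
      | zero => rw [pow_zero, AlgEquiv.one_apply, sub_self, nrm_zero]; exact nrm_pos p hδ0
      | succ i ih =>
        rw [pow_succ', AlgEquiv.mul_apply, show (f : GQ) (((f : GQ) ^ i) δ) - δ =
          (f : GQ) (((f : GQ) ^ i) δ - δ) + ((f : GQ) δ - δ) by
            rw [map_sub (f : GQ) (((f : GQ) ^ i) δ) δ]; ring]
        exact nrm_add_lt_of_lt p ((nrm_map_of_mem_inG p f.2 _).trans_lt ih) hstep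
    have hsum : ∀ i : ℕ, ((f : GQ) ^ i) π - π = ∑ j ∈ Finset.range i, ((f : GQ) ^ j) δ := by
      intro i
      induction i with
      | zero => simp
      | succ i ih =>
        rw [Finset.sum_range_succ, ← ih, pow_succ, AlgEquiv.mul_apply, hδ, map_sub]
        ring
    have h0 := hsum m
    rw [show ((f : GQ) ^ m) π = π from u.fixed _ (by rw [← Subgroup.coe_pow]; exact hfm),
      sub_self, show ∑ j ∈ Finset.range m, ((f : GQ) ^ j) δ =
        (m : QBar) * δ + ∑ j ∈ Finset.range m, (((f : GQ) ^ j) δ - δ) by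
        rw [Finset.sum_sub_distrib, Finset.sum_const, Finset.card_range, nsmul_eq_mul]; ring] at h0
    have hlt : nrm p (∑ j ∈ Finset.range m, (((f : GQ) ^ j) δ - δ)) < nrm p δ :=
      Finset.sum_induction _ (fun y => nrm p y < nrm p δ)
        (fun _ _ h1 h2 => nrm_add_lt_of_lt p h1 h2) (by simpa using nrm_pos p hδ0)
        fun j _ => hiter j
    have h2 : nrm p ((m : QBar) * δ) = nrm p δ := by
      rw [nrm_mul, nrm_natCast_eq_one p hpm, one_mul]
    have h3 := nrm_add_eq_of_lt p (x := (m : QBar) * δ) (h2.symm ▸ hlt)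
    rw [← h0, nrm_zero, h2] at h3
    exact (nrm_pos p hδ0).ne h3
  refine ⟨π, zh, u, hzroot, hzlt, hzN, hzH, hwild, fun φ hφ hfrob g h hgh => ?_⟩
  show z h = z g ^ p
  obtain ⟨m, hm, hpm, hg1⟩ := hzroot g
  refine root_unique p (hzroot h) ⟨m, hm, hpm, by rw [← pow_mul, mul_comm, pow_mul, hg1, one_pow]⟩ ?_
  -- replace the uniformiser by its preimage under Frobenius
  set π' := φ⁻¹ π with hπ'
  have hπn : nrm p π' = nrm p π := nrm_map p ((decG p).inv_mem hφ) π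
  have hπ'0 : π' ≠ 0 := (_root_.map_ne_zero φ⁻¹).mpr u.ne_zero
  set w := π' / π with hw
  have hw0 : w ≠ 0 := div_ne_zero hπ'0 u.ne_zero
  have hw1 : nrm p w = 1 := by rw [nrm_div, hπn, div_self u.pos.ne']
  have hg' : nrm p ((g : GQ) π' / π' - z g) < 1 := by
    rw [show (g : GQ) π' / π' - z g = ((g : GQ) π / π) * (((g : GQ) w - w) / w) +
        ((g : GQ) π / π - z g) by
      rw [hw, map_div₀]
      field_simp [hπ'0, u.ne_zero, (_root_.map_ne_zero (g : GQ)).mpr u.ne_zero]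
      ring]
    refine nrm_add_lt_of_lt p ?_ (hzlt g)
    rw [nrm_mul, nrm_div, nrm_map_of_mem_inG p g.2, div_self u.pos.ne', one_mul, nrm_div, hw1,
      div_one]
    exact nrm_sub_lt_one_of_mem_inG p g.2 hw1.le
  have hhπ : (h : GQ) π / π = φ ((g : GQ) π' / π') := by
    rw [map_div₀, hπ', hgh, AlgEquiv.mul_apply, AlgEquiv.mul_apply,
      ← AlgEquiv.mul_apply φ φ⁻¹ π, mul_inv_cancel, AlgEquiv.one_apply]
  rw [show z h - z g ^ p = -((h : GQ) π / π - z h) + (φ ((g : GQ) π' / π' - z g) +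
      (φ (z g) - z g ^ p)) by rw [hhπ, map_sub]; ring]
  refine nrm_add_lt_of_lt p (by rw [nrm_neg]; exact hzlt h) (nrm_add_lt_of_lt p ?_
    (hfrob _ (nrm_root p hm hg1).le))
  rw [nrm_map p hφ]
  exact hg'

/-- A homomorphism of finite level from inertia whose exponent divides `p ^ 2 - 1` is trivial on
tame inertia of that level. -/
theorem eq_one_of_mem_tame {A : Type*} [Monoid A] (χ : inG p →* A) {H : Subgroup GQ}
    (hH : IsLevel p H) (hnorm : ∀ g ∈ inG p, ∀ h ∈ H, g⁻¹ * h * g ∈ H)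
    (hker : ∀ (h : GQ) (hh : h ∈ H), χ ⟨h, hH.le hh⟩ = 1) (hexp : ∀ g, χ g ^ e₀ p = 1)
    {τ : GQ} (hτ : τ ∈ tame p) : χ ⟨τ, ((mem_tame p).mp hτ).1⟩ = 1 := by
  classical
  -- shrink the level below tame inertia
  set H' := H ⊓ tame p with hH'def
  have hH' : IsLevel p H' := hH.inf (isLevel_fixer _)
  have hnorm' : ∀ g ∈ inG p, ∀ h ∈ H', g⁻¹ * h * g ∈ H' := by
    intro g hg h hh
    refine ⟨hnorm g hg h hh.1, ?_⟩
    have hhI := hH'.le hh
    refine (theta_eq_one_iff p ((inG p).mul_mem ((inG p).mul_mem ((inG p).inv_mem hg) hhI) hg)).mp ?_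
    rw [theta_mul p ((inG p).mul_mem ((inG p).inv_mem hg) hhI), theta_mul p ((inG p).inv_mem hg),
      (theta_eq_one_iff p hhI).mpr hh.2, mul_one, ← theta_mul p ((inG p).inv_mem hg),
      inv_mul_cancel, theta_one]
  obtain ⟨π, zh, u, hzroot, hzlt, hzN, hzH, hwild', -⟩ := exists_tame_char p hH' hnorm'
  set z : inG p → QBar := ⇑zh with hzdef
  set N := H'.relIndex (inG p)
  have hN0 : 0 < N := Nat.pos_of_ne_zero hH'.relIndex_ne_zero
  have hwild : ∀ g : inG p, z g = 1 → χ g = 1 := by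
    intro g hg
    obtain ⟨a, hh⟩ := hwild' g hg
    have h1 : χ g ^ p ^ a = 1 := by rw [← map_pow]; exact hker _ hh.1
    have hcop : Nat.Coprime (p ^ a) (e₀ p) :=
      ((hp.out.coprime_iff_not_dvd).mpr (not_dvd_e₀ p)).pow_left a
    have := Nat.coprime_iff_gcd_eq_one.mp hcop
    have hg1 := orderOf_dvd_of_pow_eq_one h1
    have hg2 := orderOf_dvd_of_pow_eq_one (hexp g)
    exact orderOf_eq_one_iff.mp (Nat.eq_one_of_dvd_one (this ▸ Nat.dvd_gcd hg1 hg2))
  -- `θ` is a power of `z`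
  obtain ⟨k, hk⟩ : ∃ k : ℕ, nrm p (rad p) = nrm p π ^ k := by
    obtain ⟨k, hk⟩ := u.exists_zpow (rad_ne_zero p) fun g hg => ((mem_fixer p).mp hg.2).2
    have : 0 ≤ k := by
      by_contra hneg
      have h1 := (isUnif_rad p).lt_one
      rw [hk] at h1
      exact absurd h1 (not_lt.mpr (one_le_zpow_of_nonpos₀ u.pos u.lt_one.le (by omega)))
    obtain ⟨k', rfl⟩ := Int.eq_ofNat_of_zero_le this
    exact ⟨k', by rw [hk, zpow_natCast]⟩
  have hθz : ∀ g : inG p, theta p g = z g ^ k := by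
    intro g
    obtain ⟨m, hm, hpm, hm1⟩ := hzroot g
    refine root_unique p ⟨e₀ p, e₀_pos p, not_dvd_e₀ p, theta_pow p g⟩
      ⟨m, hm, hpm, by rw [← pow_mul, mul_comm, pow_mul, hm1, one_pow]⟩ ?_
    set w := rad p / π ^ k with hw
    have hw0 : w ≠ 0 := div_ne_zero (rad_ne_zero p) (pow_ne_zero _ u.ne_zero)
    have hw1 : nrm p w = 1 := by
      rw [nrm_div, hk, Flat.nrm_pow, div_self (pow_ne_zero _ u.pos.ne')]
    have hR1 : nrm p ((g : GQ) π / π) = 1 := by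
      rw [nrm_div, nrm_map_of_mem_inG p g.2, div_self u.pos.ne']
    rw [show theta p g - z g ^ k = ((g : GQ) π / π) ^ k * (((g : GQ) w - w) / w) +
        (((g : GQ) π / π) ^ k - z g ^ k) by
      rw [theta, hw, map_div₀, map_pow, div_pow]
      field_simp [rad_ne_zero p, pow_ne_zero k u.ne_zero,
        pow_ne_zero k ((_root_.map_ne_zero (g : GQ)).mpr u.ne_zero)]
      ring]
    refine nrm_add_lt_of_lt p ?_ ?_
    · rw [nrm_mul, Flat.nrm_pow, hR1, one_pow, one_mul, nrm_div, hw1, div_one]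
      exact nrm_sub_lt_one_of_mem_inG p g.2 hw1.le
    · rw [← geom_sum₂_mul, nrm_mul]
      refine (mul_le_of_le_one_left (nrm_nonneg p _) (nrm_sum_le p _ _ zero_le_one
        fun j _ => ?_)).trans_lt (hzlt g)
      rw [nrm_mul, Flat.nrm_pow, Flat.nrm_pow, hR1, nrm_root p hm hm1, one_pow, one_pow, one_mul]
  -- a generator of the image of `z`
  let Z : Subgroup QBarˣ := (MonoidHom.toHomUnits zh).range
  haveI : NeZero N := ⟨hN0.ne'⟩
  haveI : Finite Z := by
    refine Finite.of_injective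
      (fun x : Z => (⟨(x : QBarˣ), ?_⟩ : rootsOfUnity N QBar)) fun a b hab => ?_
    · obtain ⟨g, hg⟩ := x.2
      rw [← hg, mem_rootsOfUnity]
      refine Units.ext ?_
      rw [Units.val_pow_eq_pow_val]
      exact hzN g
    · exact Subtype.ext (congrArg (fun y : rootsOfUnity N QBar => (y : QBarˣ)) hab)
  obtain ⟨⟨c, g₀, rfl⟩, hgen⟩ := IsCyclic.exists_generator (α := Z)
  have hτI := ((mem_tame p).mp hτ).1
  obtain ⟨i, hi⟩ := Submonoid.mem_powers_iff _ _ |>.mp ((mem_powers_iff_mem_zpowers).mpr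
    (hgen ⟨_, ⟨⟨τ, hτI⟩, rfl⟩⟩))
  have hzi : z g₀ ^ i = z ⟨τ, hτI⟩ :=
    congrArg (fun x : Z => ((x : QBarˣ) : QBar)) hi
  -- the exponent is divisible by `e₀`
  have hdvd : e₀ p ∣ i := by
    obtain ⟨σ, hσ, hprim, -⟩ := exists_tame_generator p
    have hσz := hθz ⟨σ, hσ⟩
    obtain ⟨j, hj⟩ := Submonoid.mem_powers_iff _ _ |>.mp ((mem_powers_iff_mem_zpowers).mpr
      (hgen ⟨_, ⟨⟨σ, hσ⟩, rfl⟩⟩))
    have hzj : z g₀ ^ j = z ⟨σ, hσ⟩ := congrArg (fun x : Z => ((x : QBarˣ) : QBar)) hj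
    have h1 : (z g₀ ^ k) ^ i = 1 := by
      rw [← pow_mul, mul_comm, pow_mul, hzi, ← hθz ⟨τ, hτI⟩]
      exact (theta_eq_one_iff p hτI).mpr hτ
    rw [← hzj, ← pow_mul, mul_comm, pow_mul] at hσz
    refine hprim.dvd_of_pow_eq_one i ?_
    rw [hσz, ← pow_mul, mul_comm, pow_mul, h1, one_pow]
  obtain ⟨l, rfl⟩ := hdvd
  have hz1 : z ((g₀ ^ (e₀ p * l))⁻¹ * ⟨τ, hτI⟩) = 1 := by
    show zh _ = 1
    rw [map_mul]
    have hmul : zh ((g₀ ^ (e₀ p * l))⁻¹) * zh (g₀ ^ (e₀ p * l)) = 1 := by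
      rw [← map_mul, inv_mul_cancel, map_one]
    rw [map_pow] at hmul
    change zh ((g₀ ^ (e₀ p * l))⁻¹) * z g₀ ^ (e₀ p * l) = 1 at hmul
    rw [hzi] at hmul
    exact hmul
  have hχ1 := hwild _ hz1
  have hgl : χ (g₀ ^ (e₀ p * l)) = 1 := by rw [map_pow, pow_mul, hexp, one_pow]
  have : χ (g₀ ^ (e₀ p * l)) * χ ((g₀ ^ (e₀ p * l))⁻¹ * ⟨τ, hτI⟩) = 1 := by
    rw [hgl, hχ1, one_mul]
  rwa [← map_mul, mul_inv_cancel_left] at this

/-! ### The cyclotomic character -/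

theorem nrm_root_sub_one {ε : QBar} (hε : IsPrimitiveRoot ε p) :
    nrm p (ε - 1) = nrm p (rad p) ^ (p + 1) := by
  classical
  haveI : NeZero p := ⟨hp.out.ne_zero⟩
  set lam := nrm p (ε - 1)
  have hεle : nrm p ε = 1 := nrm_root p hp.out.pos hε.pow_eq_one
  have hpow := fun (η : QBar) (i : ℕ) (hη : nrm p η = 1) => nrm_npow_sub_one_le p hη i
  have heach : ∀ i ∈ Finset.Ico 1 p, nrm p (1 - ε ^ i) = lam := by
    intro i hi
    rw [Finset.mem_Ico] at hi
    rw [nrm_sub_comm]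
    refine le_antisymm (hpow ε i hεle) ?_
    have hprim : IsPrimitiveRoot (ε ^ i) p :=
      hε.pow_of_coprime i (Nat.coprime_of_lt_prime (by omega) hi.2 hp.out).symm
    obtain ⟨j, -, hj⟩ := hprim.eq_pow_of_pow_eq_one hε.pow_eq_one
    conv_lhs => rw [show lam = nrm p (ε - 1) from rfl, ← hj]
    exact hpow _ j (by rw [nrm_pow, hεle, one_pow])
  have hprod : ∏ i ∈ Finset.Ico 1 p, (1 - ε ^ i) = (p : QBar) := by
    obtain ⟨q, hq⟩ : ∃ q, p = q + 1 := ⟨p - 1, by have := hp.out.pos; omega⟩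
    subst hq
    have := hε.prod_one_sub_pow_eq_order
    rw [Finset.prod_Ico_eq_prod_range]
    simpa [add_comm] using this
  have h1 := congrArg (nrm p) hprod
  rw [nrm_prod, Finset.prod_congr rfl heach, Finset.prod_const, Nat.card_Ico,
    nrm_natCast_self] at h1
  refine (pow_left_inj₀ (nrm_nonneg p _) (pow_nonneg (nrm_nonneg p _) _)
    (by have := hp.out.two_le; omega : p - 1 ≠ 0)).mp ?_
  rw [h1, ← pow_mul, ← e₀_eq, nrm_rad_pow]

/-- On inertia the cyclotomic character is `θ ^ (p + 1)`. -/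
theorem cyclo_congr {ε : QBar} (hε : IsPrimitiveRoot ε p) {g : GQ} (hg : g ∈ inG p) {a : ℕ}
    (ha : g ε = ε ^ a) : nrm p ((a : QBar) - theta p g ^ (p + 1)) < 1 := by
  set w := (ε - 1) / rad p ^ (p + 1) with hw
  have hne : ε - 1 ≠ 0 := sub_ne_zero.mpr (hε.ne_one hp.out.one_lt)
  have hw0 : w ≠ 0 := div_ne_zero hne (pow_ne_zero _ (rad_ne_zero p))
  have hw1 : nrm p w = 1 := by
    rw [nrm_div, nrm_root_sub_one p hε, nrm_pow,
      div_self (pow_ne_zero _ (nrm_pos p (rad_ne_zero p)).ne')]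
  have hsum : g (ε - 1) / (ε - 1) = ∑ i ∈ Finset.range a, ε ^ i := by
    rw [map_sub, map_one, ha, ← geom_sum_mul, mul_div_cancel_right₀ _ hne]
  have hθ1 : nrm p (theta p g) = 1 := nrm_root p (e₀_pos p) (theta_pow p g)
  have h1 : nrm p (g (ε - 1) / (ε - 1) - theta p g ^ (p + 1)) < 1 := by
    rw [show g (ε - 1) / (ε - 1) - theta p g ^ (p + 1) =
        theta p g ^ (p + 1) * ((g w - w) / w) by
      rw [hw, map_div₀, map_pow, map_rad p g, mul_pow]
      have hθ0 : theta p g ≠ 0 := fun h => by rw [h, nrm_zero] at hθ1; exact zero_ne_one hθ1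
      field_simp [hne, rad_ne_zero p, hθ0], nrm_mul, nrm_pow, hθ1, one_pow, one_mul, nrm_div, hw1, div_one]
    exact nrm_sub_lt_one_of_mem_inG p hg hw1.le
  rw [hsum] at h1
  have h2 : nrm p ((a : QBar) - ∑ i ∈ Finset.range a, ε ^ i) < 1 := by
    have hlam : nrm p (ε - 1) < 1 := by
      rw [nrm_root_sub_one p hε]
      exact pow_lt_one₀ (nrm_nonneg p _) (isUnif_rad p).lt_one (by omega)
    rw [nrm_sub_comm, show (∑ i ∈ Finset.range a, ε ^ i) - (a : QBar) =
      ∑ i ∈ Finset.range a, (ε ^ i - 1) by simp [Finset.sum_sub_distrib]]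
    refine Finset.sum_induction _ (fun y => nrm p y < 1)
      (fun _ _ h3 h4 => nrm_add_lt_of_lt p h3 h4) (by simp) fun i _ => ?_
    exact (nrm_npow_sub_one_le p (nrm_root p hp.out.pos hε.pow_eq_one) i).trans_lt hlam
  rw [show (a : QBar) - theta p g ^ (p + 1) = ((a : QBar) - ∑ i ∈ Finset.range a, ε ^ i) +
    ((∑ i ∈ Finset.range a, ε ^ i) - theta p g ^ (p + 1)) by ring]
  exact nrm_add_lt_of_lt p h2 h1

theorem tame_fixes_zeta {ε : QBar} (hε : IsPrimitiveRoot ε p) {g : GQ} (hg : g ∈ tame p) :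
    g ε = ε := by
  obtain ⟨hgI, -⟩ := (mem_tame p).mp hg
  haveI : NeZero p := ⟨hp.out.ne_zero⟩
  obtain ⟨a, -, ha⟩ := hε.eq_pow_of_pow_eq_one (ξ := g ε) (by rw [← map_pow, hε.pow_eq_one, map_one])
  have h1 := cyclo_congr p hε hgI ha.symm
  rw [(theta_eq_one_iff p hgI).mpr hg, one_pow] at h1
  rw [← ha]
  rcases Nat.eq_zero_or_pos a with rfl | hapos
  · rw [Nat.cast_zero, zero_sub, nrm_neg, nrm_one] at h1
    exact absurd h1 (lt_irrefl 1)
  have hdvd : p ∣ a - 1 := by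
    by_contra hnd
    have := nrm_natCast_eq_one p hnd
    rw [Nat.cast_sub hapos, Nat.cast_one] at this
    exact h1.ne this
  rw [show a = (a - 1) + 1 by omega, pow_succ, (hε.pow_eq_one_iff_dvd _).mpr hdvd, one_mul]

end Fermat.Agent.CFT.Flat
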