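import Fermat.Agent.CFT.Flat.Congruent
import Fermat.Agent.CFT.Flat.Kummer
import Fermat.Agent.CFT.Tangent.Dictionary
import Fermat.Agent.RT.Glue.FlatDescent

/-!
# The order of a flat first order deformation
-/

set_option autoImplicit false
set_option linter.style.haveILetI false
set_option linter.unusedSectionVars false

noncomputable section

namespace Fermat.Agent.CFT.Flat

open Fermat.Agent.Arith Fermat.Agent.FiniteFlat Fermat.Agent.Deform Fermat.Agent.CFT.Tangent
open Fermat.Agent.Mazur.Eisenstein (pieceOp)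
open Module Matrix

section MatMod

variable {A : Type} [CommRing A]

/-- Column vectors acted on through a matrix representation. -/
def MatMod (U : GQ →* M2 A) : Type := (fun _ => Fin 2 → A) U

variable (U : GQ →* M2 A)

instance : AddCommGroup (MatMod U) := inferInstanceAs (AddCommGroup (Fin 2 → A))

instance [Finite A] : Finite (MatMod U) := inferInstanceAs (Finite (Fin 2 → A))

/-- The vectors. -/
def MatMod.of : (Fin 2 → A) ≃+ MatMod U := AddEquiv.refl _

instance : DistribMulAction GQ (MatMod U) where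
  smul g v := MatMod.of U (U g *ᵥ (MatMod.of U).symm v)
  one_smul v := by
    show MatMod.of U (U 1 *ᵥ _) = v
    rw [map_one, one_mulVec, AddEquiv.apply_symm_apply]
  mul_smul g h v := by
    show MatMod.of U (U (g * h) *ᵥ _) =
      MatMod.of U (U g *ᵥ (MatMod.of U).symm (MatMod.of U (U h *ᵥ _)))
    rw [map_mul, ← mulVec_mulVec, AddEquiv.symm_apply_apply]
  smul_zero g := (congrArg (MatMod.of U) (mulVec_zero _)).trans (map_zero _)
  smul_add g v w := (congrArg (MatMod.of U) (mulVec_add _ _ _)).trans (map_add _ _ _)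

theorem MatMod.smul_of (g : GQ) (v : Fin 2 → A) :
    g • MatMod.of U v = MatMod.of U (U g *ᵥ v) := rfl

variable {U}

theorem eq_one_of_fixed {g : GQ} (h : ∀ m : MatMod U, g • m = m) : U g = 1 := by
  refine Matrix.ext_of_mulVec_single fun i => ?_
  rw [one_mulVec]
  exact h (MatMod.of U (Pi.single i 1))

theorem matMod_nsmul (n : ℕ) (v : Fin 2 → A) :
    (n : ℕ) • MatMod.of U v = MatMod.of U ((n : M2 A) *ᵥ v) := by
  rw [← map_nsmul, ← Nat.smul_one_eq_cast, smul_mulVec, one_mulVec]

theorem matMod_kill {p : ℕ} [CharP A p] (m : MatMod U) : p • m = 0 := by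
  obtain ⟨v, rfl⟩ := (MatMod.of U).surjective m
  rw [← map_nsmul, show p • v = 0 from funext fun i => by
    rw [Pi.smul_apply, Pi.zero_apply, nsmul_eq_mul, CharP.cast_eq_zero, zero_mul], map_zero]

theorem pieceOp_matMod (g : GQ) (c : ℕ) (v : Fin 2 → A) :
    pieceOp (MatMod U) g (c : ℤ) (MatMod.of U v) =
      MatMod.of U (((U g - 1) * (U g - (c : M2 A))) *ᵥ v) := by
  show g • (g • MatMod.of U v) - g • MatMod.of U v - (c : ℤ) • (g • MatMod.of U v) +
    (c : ℤ) • MatMod.of U v = _
  rw [natCast_zsmul, natCast_zsmul, MatMod.smul_of, MatMod.smul_of, matMod_nsmul, matMod_nsmul,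
    ← map_sub, ← map_sub, ← map_add, mulVec_mulVec, mulVec_mulVec, ← sub_mulVec, ← sub_mulVec,
    ← add_mulVec]
  congr 2
  rw [sub_mul, mul_sub, mul_sub, one_mul, one_mul, ← (Nat.cast_commute c (U g)).eq]
  abel

end MatMod

variable {p : ℕ} [hp : Fact p.Prime]

section Bdd

variable {A : Type} [CommRing A] [Finite A] [CharP A p] {U : GQ →* M2 A}

/-- The ramification bound for a matrix representation carrying an order. -/
theorem exists_bdd_level (O : GalOrder p (MatMod U)) :
    ∃ H : Subgroup GQ, IsLevel p H ∧ H ≤ tame p ∧ IsBdd p H ∧ ∀ h ∈ H, U h = 1 := by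
  refine ⟨fixM p (MatMod U) ⊓ tame p, (isLevel_fixM O).inf (isLevel_fixer _), inf_le_right,
    isBdd_of_galOrder p O matMod_kill, fun h hh => eq_one_of_fixed fun m => ?_⟩
  exact ((mem_fixM p _).mp hh.1).2 m

end Bdd

variable {k : Type} [Field k] [Finite k] [CharP k p]

instance finite_dualNumber : Finite (DualNumber k) := inferInstanceAs (Finite (k × k))

instance charP_dualNumber : CharP (DualNumber k) p :=
  charP_of_injective_algebraMap (algebraMap k (DualNumber k)).injective p

/-- A flat deformation over the dual numbers carries an order. -/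
theorem nonempty_galOrder {ρ : GaloisRepAdic (DualNumber k)}
    (B : Basis (Fin 2) (DualNumber k) ρ.V) (hflat : ρ.IsFlatAt p) :
    Nonempty (GalOrder p (MatMod (matOf ρ B))) := by
  obtain ⟨H, _, _, _, _, _, e, he, heσ⟩ := hflat.2 ⊥ (Finite.of_surjective _ Ideal.Quotient.mk_surjective)
  let : DistribMulAction GQ (ρ.V ⧸ ((⊥ : Ideal (DualNumber k)) • (⊤ : Submodule _ ρ.V))) :=
    EC.Rep.levelDistribMulAction ρ ⊥
  obtain ⟨O⟩ := RT.Glue.nonempty_galOrder_of_hopf e he heσ
  haveI : Finite ρ.V := Finite.of_equiv _ B.equivFun.symm.toEquiv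
  let i : MatMod (matOf ρ B) →+ ρ.V ⧸ ((⊥ : Ideal (DualNumber k)) • (⊤ : Submodule _ ρ.V)) :=
    (Submodule.mkQ ((⊥ : Ideal (DualNumber k)) • (⊤ : Submodule (DualNumber k) ρ.V))).toAddMonoidHom.comp
      (B.equivFun.symm.toAddEquiv.toAddMonoidHom.comp (MatMod.of _).symm.toAddMonoidHom)
  refine ⟨O.restrict i (fun x y h => (MatMod.of _).symm.injective (B.equivFun.symm.injective ?_))
    fun σ m => ?_⟩
  · have h' := (Submodule.Quotient.eq _).mp h
    rw [Submodule.bot_smul, Submodule.mem_bot, sub_eq_zero] at h'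
    exact h'
  · obtain ⟨v, rfl⟩ := (MatMod.of (matOf ρ B)).surjective m
    show Submodule.Quotient.mk (B.equivFun.symm (matOf ρ B σ *ᵥ v)) =
      Submodule.Quotient.mk (ρ.ρ σ (B.equivFun.symm v))
    congr 1
    refine B.equivFun.injective ?_
    rw [LinearEquiv.apply_symm_apply, B.equivFun_apply]
    conv_lhs => rw [show v = ⇑(B.repr (B.equivFun.symm v)) from
      (B.equivFun.apply_symm_apply v).symm]
    exact LinearMap.toMatrix_mulVec_repr B B (ρ.ρ σ) _

variable {r : GQ →* M2 k} {b : GQ → M2 k} {U : GQ →* M2 (DualNumber k)}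
  (hU : ∀ σ, U σ = (1 + epsM (b σ)) * inlM (r σ))

include hU

theorem fstM_of_lift (σ : GQ) : fstM (U σ) = r σ := by
  rw [hU]; simp

theorem sndM_of_lift (σ : GQ) : sndM (U σ) = b σ * r σ := by
  rw [hU]; simp

theorem eq_of_lift_eq_one {σ : GQ} (h : U σ = 1) : r σ = 1 ∧ b σ = 0 := by
  have h1 := congrArg fstM h
  have h2 := congrArg sndM h
  rw [fstM_of_lift hU, fstM_one] at h1
  rw [sndM_of_lift hU, sndM_one, h1, mul_one] at h2
  exact ⟨h1, h2⟩

/-- The relations from the connected part when inertia is admissible. -/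
theorem connected_relations (O : GalOrder p (MatMod U))
    (hcyc : ∀ (σ : GQ) (a : ℕ), (∀ μ : QBar, μ ^ p = 1 → σ μ = μ ^ a) → (r σ).det = (a : k))
    (hpiece : ∀ g ∈ inG p, (r g - 1) * (r g - (r g).det • 1) = 0)
    {τ : GQ} (hτ : τ ∈ inG p) {d : GQ} (hd : d ∈ decG p) :
    (r τ - (r τ).det • 1) * r d * (r τ - 1) = 0 ∧
      (r τ - (r τ).det • 1) * r d * (b τ * r τ) +
          (r τ - (r τ).det • 1) * (b d * r d) * (r τ - 1) +
          b τ * r τ * r d * (r τ - 1) = 0 := by
  haveI : NeZero p := ⟨hp.out.ne_zero⟩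
  have hcast : ∀ a : ℕ, fstM (a : M2 (DualNumber k)) = (a : k) • (1 : M2 k) ∧
      sndM (a : M2 (DualNumber k)) = 0 := fun a =>
    ⟨Matrix.ext fun i j => by by_cases h : i = j <;> simp [h, Matrix.natCast_apply],
      Matrix.ext fun i j => by by_cases h : i = j <;> simp [h, Matrix.natCast_apply]⟩
  have hop : ∀ g ∈ inG p, ∀ c : ℕ, (∀ μ : QBar, μ ^ p = 1 → g μ = μ ^ c) → ∀ m : MatMod U,
      ∃ n, (⇑(pieceOp (MatMod U) g (c : ℤ)))^[n] m = 0 := by
    intro g hg c hc m
    obtain ⟨v, rfl⟩ := (MatMod.of U).surjective m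
    refine ⟨2, ?_⟩
    have h0 : ∀ X Y : M2 (DualNumber k), fstM X = 0 → fstM Y = 0 → X * Y = 0 := fun X Y hX hY =>
      dualM_ext (by simp [hX]; rfl) (by simp [hX, hY]; rfl)
    have hz : fstM ((U g - 1) * (U g - (c : M2 (DualNumber k)))) = 0 := by
      rw [fstM_mul, fstM_sub, fstM_sub, fstM_one, (hcast c).1, fstM_of_lift hU, ← hcyc g c hc]
      exact hpiece g hg
    show pieceOp (MatMod U) g (c : ℤ) (pieceOp (MatMod U) g (c : ℤ) (MatMod.of U v)) = 0
    rw [pieceOp_matMod, pieceOp_matMod, mulVec_mulVec, h0 _ _ hz hz, zero_mulVec, map_zero]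
  obtain ⟨c, hc⟩ := exists_pow_eq_on_roots p τ
  haveI := Fintype.ofFinite (MatMod U)
  have hcong := fun v => smul_translate_eq O matMod_kill hop hτ hc hτ hd (MatMod.of U v)
  have hmat : (U τ - (c : M2 (DualNumber k))) * U d * (U τ - 1) = 0 := by
    refine Matrix.ext_of_mulVec_single fun i => ?_
    have h := hcong (Pi.single i 1)
    rw [MatMod.smul_of, ← map_sub, MatMod.smul_of, MatMod.smul_of, matMod_nsmul] at h
    have h' := (MatMod.of U).injective h
    rw [zero_mulVec, ← mulVec_mulVec, ← mulVec_mulVec, sub_mulVec (U τ) 1, one_mulVec, sub_mulVec,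
      sub_eq_zero]
    exact h'
  rw [hcyc τ c hc]
  refine ⟨?_, ?_⟩
  · have h := congrArg fstM hmat
    rw [fstM_mul, fstM_mul, fstM_sub, fstM_sub, fstM_one, (hcast c).1, fstM_of_lift hU,
      fstM_of_lift hU] at h
    exact h
  · have h := congrArg sndM hmat
    rw [sndM_mul, sndM_mul, fstM_mul, fstM_sub, fstM_sub, fstM_one, sndM_sub, sndM_sub, sndM_one,
      (hcast c).1, (hcast c).2, fstM_of_lift hU, fstM_of_lift hU, sndM_of_lift hU, sndM_of_lift hU,
      show sndM (0 : M2 (DualNumber k)) = 0 from rfl] at h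
    rw [← h, sub_zero, add_mul]
    abel

end Fermat.Agent.CFT.Flat
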