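import Fermat.Agent.CFT.Flat.Slots
import Fermat.Agent.CFT.TWPrimes.Irred
import Fermat.Agent.CFT.Tangent.LocalPlace
import Fermat.Agent.Deform.Matrix

/-!
# Normal forms of a residual representation on the decomposition group at `p`

Either a line is stable, or tame inertia acts through `diag (λ, λ ^ p)`.
-/

set_option autoImplicit false
set_option linter.style.haveILetI false
set_option linter.unusedSectionVars false

noncomputable section

namespace Fermat.Agent.CFT.Flat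

open Fermat.Agent.Arith Fermat.Agent.Deform Fermat.Agent.CFT.TWPrimes Matrix

variable {p : ℕ} [hp : Fact p.Prime]
variable {k : Type} [Field k] [Finite k] [CharP k p] {r : GQ →* M2 k}

omit [Finite k] [CharP k p] in
/-- A matrix with a given first column. -/
theorem exists_frame {w : Fin 2 → k} (hw : w ≠ 0) :
    ∃ P Pinv : M2 k, P * Pinv = 1 ∧ Pinv * P = 1 ∧ ∀ i, P i 0 = w i := by
  by_cases h0 : w 0 = 0
  · have h1 : w 1 ≠ 0 := fun h1 => hw (funext fun i => by fin_cases i <;> assumption)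
    have hd : IsUnit (!![w 0, 1; w 1, 0] : M2 k).det := by
      rw [det_fin_two_of, mul_zero, one_mul, zero_sub]
      exact (neg_ne_zero.2 h1).isUnit
    exact ⟨_, _, mul_nonsing_inv _ hd, nonsing_inv_mul _ hd,
      fun i => by fin_cases i <;> simp⟩
  · have hd : IsUnit (!![w 0, 0; w 1, 1] : M2 k).det := by
      rw [det_fin_two_of, mul_one, zero_mul, sub_zero]
      exact (Ne.isUnit h0)
    exact ⟨_, _, mul_nonsing_inv _ hd, nonsing_inv_mul _ hd,
      fun i => by fin_cases i <;> simp⟩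

omit [Finite k] [CharP k p] in
/-- An eigenvector gives an upper triangular form. -/
theorem conj_apply_one_zero {A P Pinv : M2 k} (hP : Pinv * P = 1) {w : Fin 2 → k}
    (hw : ∀ i, P i 0 = w i) {c : k} (hA : A *ᵥ w = c • w) : (Pinv * A * P) 1 0 = 0 := by
  have hcol : w = P *ᵥ _root_.Pi.single 0 1 := funext fun i => by simp [hw, Matrix.mulVec_single]
  have h1 : (Pinv * A * P) *ᵥ _root_.Pi.single 0 1 = c • _root_.Pi.single 0 1 := by
    rw [← mulVec_mulVec, ← hcol, ← mulVec_mulVec, hA, hcol, mulVec_smul, mulVec_mulVec, hP,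
      one_mulVec]
  simpa [Matrix.mulVec_single] using congrFun h1 1

omit [Finite k] [CharP k p] in
/-- An eigenvector of a matrix whose eigenvalues are given. -/
theorem exists_eigenvector {A : M2 k} {α β : k} (ht : A.trace = α + β) (hd : A.det = α * β) :
    ∃ w : Fin 2 → k, w ≠ 0 ∧ A *ᵥ w = α • w := by
  have h0 : (A - α • 1).det = 0 := by
    rw [trace_fin_two] at ht
    rw [det_fin_two] at hd
    simp [det_fin_two]
    linear_combination hd - α * ht
  obtain ⟨w, hw, h⟩ := Matrix.exists_mulVec_eq_zero_iff.mpr h0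
  refine ⟨w, hw, ?_⟩
  rwa [sub_mulVec, smul_mulVec, one_mulVec, sub_eq_zero] at h

omit [Finite k] [CharP k p] in
/-- Commuting with a diagonal matrix with distinct entries. -/
theorem eq_diag_of_commute {α β : k} (hαβ : α ≠ β) {A : M2 k}
    (h : A * !![α, 0; 0, β] = !![α, 0; 0, β] * A) : A = !![A 0 0, 0; 0, A 1 1] := by
  have h01 := congrFun (congrFun h 0) 1
  have h10 := congrFun (congrFun h 1) 0
  simp [Matrix.mul_apply, Fin.sum_univ_two] at h01 h10
  have e01 : A 0 1 = 0 :=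
    (mul_eq_zero.mp (show (β - α) * A 0 1 = 0 by linear_combination h01)).resolve_left
      (sub_ne_zero.2 hαβ.symm)
  have e10 : A 1 0 = 0 :=
    (mul_eq_zero.mp (show (α - β) * A 1 0 = 0 by linear_combination h10)).resolve_left
      (sub_ne_zero.2 hαβ)
  ext i j
  fin_cases i <;> fin_cases j <;> simp [e01, e10]

set_option maxHeartbeats 800000 in
/-- **The dichotomy on the decomposition group.** -/
theorem exists_line_or_torus (hr : GaloisFactorsThroughFiniteLevel r)
    (hsplit : ∀ g, ∃ α β : k, (r g).trace = α + β ∧ (r g).det = α * β)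
    {τ : GQ} (hτ : τ ∈ inG p) :
    (∃ P Pinv : M2 k, P * Pinv = 1 ∧ Pinv * P = 1 ∧ ∀ g ∈ decG p, (Pinv * r g * P) 1 0 = 0) ∨
      ∃ (P Pinv : M2 k) (l : k), P * Pinv = 1 ∧ Pinv * P = 1 ∧ (∀ g ∈ tame p, r g = 1) ∧
        l ^ e₀ p = 1 ∧ Pinv * r τ * P = !![l, 0; 0, l ^ p] := by
  classical
  by_cases hline : ∃ w : Fin 2 → k, w ≠ 0 ∧ ∀ g ∈ decG p, ∃ c : k, r g *ᵥ w = c • w
  · obtain ⟨w, hw, hg⟩ := hline
    obtain ⟨P, Pinv, h1, h2, h3⟩ := exists_frame hw
    exact Or.inl ⟨P, Pinv, h1, h2, fun g hgD => conj_apply_one_zero h2 h3 (hg g hgD).choose_spec⟩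
  refine Or.inr ?_
  obtain ⟨L, _, _, hL'⟩ := exists_normal_level hr
  have hL : ∀ g : GQ, (∀ x ∈ L, g x = x) → r g = 1 := fun g hg =>
    hL' g ((IntermediateField.mem_fixingSubgroup_iff _ _).mpr hg)
  obtain ⟨φ, hφ, -, hfrob⟩ := exists_frobenius_rad p
  have hF : (padicPlace p).IsFrobeniusAt φ p :=
    isFrobeniusAt_iff_forall_mem.mpr ⟨hφ, fun x hx =>
      (mem_nonunits_iff p).mpr (hfrob x ((mem_place_iff p).mp hx))⟩
  -- Frobenius and inertia have no common eigenvector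
  have hnoline : ∀ w : Fin 2 → k, w ≠ 0 → (∃ c : k, r φ *ᵥ w = c • w) →
      (∀ g ∈ inG p, ∃ c : k, r g *ᵥ w = c • w) → False := by
    rintro w hw ⟨cφ, hcφ⟩ hI
    refine hline ⟨w, hw, fun g hg => ?_⟩
    obtain ⟨i, t, ht, he⟩ := Idele.exists_frobenius_mul_inertia L hF hg
    obtain ⟨c, hc⟩ := hI t ht
    refine ⟨c * cφ ^ i, ?_⟩
    rw [Tangent.map_eq_of_agree hL he, map_mul, map_pow, ← mulVec_mulVec, hc, mulVec_smul, mul_smul]
    congr 1
    clear he
    induction i with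
    | zero => simp
    | succ i ih => rw [pow_succ', ← mulVec_mulVec, ih, mulVec_smul, hcφ, smul_smul, pow_succ]
  -- the tame quotient of the image of inertia
  set H := inG p ⊓ r.ker
  have hH : IsLevel p H := ⟨inf_le_left, L, inferInstance, fun g hg =>
    ⟨hg.1, hL g ((IntermediateField.mem_fixingSubgroup_iff _ _).mp hg.2)⟩⟩
  have hnorm : ∀ g ∈ inG p, ∀ h ∈ H, g⁻¹ * h * g ∈ H := fun g hg h hh =>
    ⟨(inG p).mul_mem ((inG p).mul_mem ((inG p).inv_mem hg) hh.1) hg,
      by simpa using (MonoidHom.normal_ker r).conj_mem h hh.2 g⁻¹⟩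
  obtain ⟨π, z, -, hzroot, -, -, hzH, hwild, hfr⟩ := exists_tame_char p hH hnorm
  have hz : ∀ (g : inG p) (a : ℕ), r (g : GQ) ^ p ^ a = 1 → z g = 1 := fun g a ha => by
    obtain ⟨m, -, hpm, hm⟩ := hzroot g
    have h1 : z g ^ p ^ a = 1 := by
      rw [← map_pow]
      exact hzH _ ⟨(g ^ p ^ a).2, show r _ = 1 by rw [SubgroupClass.coe_pow, map_pow, ha]⟩
    have h2 : z g ^ Nat.gcd (p ^ a) m = 1 := pow_gcd_eq_one.mpr ⟨h1, hm⟩
    rwa [Nat.Coprime.gcd_eq_one (Nat.Coprime.pow_left a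
      ((Nat.Prime.coprime_iff_not_dvd hp.out).2 hpm)), pow_one] at h2
  have hsq : ∀ g : inG p, z g = 1 → (r g - 1) * (r g - 1) = 0 := fun g hg => by
    obtain ⟨a, ha⟩ := hwild g hg
    have ha' : r g ^ p ^ a = 1 := by
      rw [← map_pow, ← SubgroupClass.coe_pow]; exact ha.2
    have hn : IsNilpotent (r g - 1) := ⟨p ^ a, by
      rw [sub_pow_char_pow_of_commute _ _ (Commute.one_right _), ha', one_pow, sub_self]⟩
    have htr : (r g - 1).trace = 0 := (Matrix.isNilpotent_trace_of_isNilpotent hn).eq_zero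
    refine sq_zero_of_trace_det htr ?_
    obtain ⟨N, hN⟩ := hn
    exact IsNilpotent.eq_zero (x := (r g - 1).det) ⟨N, by rw [← det_pow, hN, det_zero]⟩
  have hz1 : ∀ g : inG p, z g = 1 → r g = 1 := by
    intro g₀ hg₀
    by_contra hne
    have hN0 : r g₀ - 1 ≠ 0 := sub_ne_zero.2 hne
    obtain ⟨v, hv⟩ : ∃ v, (r g₀ - 1) *ᵥ v ≠ 0 := by
      by_contra h
      push Not at h
      exact hN0 (Matrix.mulVec_injective.eq_iff.mp (funext fun v => by simp [h v]))
    set w := (r g₀ - 1) *ᵥ v with hwdef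
    have hN0w : (r g₀ - 1) *ᵥ w = 0 := by
      rw [hwdef, mulVec_mulVec, hsq g₀ hg₀, zero_mulVec]
    refine hline ⟨w, hv, fun d hd => ?_⟩
    have hd' := (decG p).inv_mem hd
    have hmem : d⁻¹ * (g₀ : GQ) * d⁻¹⁻¹ ∈ inG p := by
      have := conj_mem_inG (p := p) ((decG p).inv_mem hd') g₀.2
      rwa [inv_inv] at this
    set g' : inG p := ⟨_, hmem⟩ with hg'def
    have hg' : z g' = 1 := by
      obtain ⟨a, ha⟩ := hwild g₀ hg₀
      refine hz g' a ?_
      rw [← map_pow, show (g' : GQ) ^ p ^ a = d⁻¹ * (g₀ : GQ) ^ p ^ a * d⁻¹⁻¹ from conj_pow,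
        map_mul, map_mul, ← SubgroupClass.coe_pow, show r _ = 1 from ha.2, mul_one, ← map_mul,
        mul_inv_cancel, map_one]
    set N' := r g' - 1 with hN'def
    have hN'sq : N' * N' = 0 := hsq g' hg'
    have hprod : ((r g₀ - 1) * N').trace = 0 := by
      have h := hsq (g₀ * g') (by rw [map_mul, hg₀, hg', one_mul])
      have h' := trace_eq_zero_of_sq h
      rw [Subgroup.coe_mul, map_mul] at h'
      have e : (r g₀ - 1) * N' = (r g₀ * r g' - 1) - (r g₀ - 1) - N' := by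
        rw [hN'def]; noncomm_ring
      rw [e, Matrix.trace_sub, Matrix.trace_sub, h', trace_eq_zero_of_sq (hsq g₀ hg₀),
        trace_eq_zero_of_sq hN'sq, sub_zero, sub_zero]
    have h1 : (r g₀ - 1) *ᵥ (N' *ᵥ w) = 0 := by
      rw [hwdef, mulVec_mulVec, mulVec_mulVec, sandwich (hsq g₀ hg₀), Matrix.trace_mul_comm, hprod,
        zero_smul, zero_mulVec]
    obtain ⟨c, hc⟩ := exists_smul_of_mulVec_eq_zero hN0 hv h1 hN0w
    have hc0 : c = 0 := by
      have h : N' *ᵥ (N' *ᵥ w) = 0 := by rw [mulVec_mulVec, hN'sq, zero_mulVec]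
      rw [hc, mulVec_smul, hc, smul_smul] at h
      exact mul_self_eq_zero.mp ((smul_eq_zero.mp h).resolve_right hv)
    have h2 : r d⁻¹ *ᵥ ((r g₀ - 1) *ᵥ (r d *ᵥ w)) = 0 := by
      rw [hc0, zero_smul] at hc
      refine Eq.trans ?_ hc
      rw [mulVec_mulVec, mulVec_mulVec]
      congr 1
      rw [hN'def, show (g' : GQ) = d⁻¹ * (g₀ : GQ) * d by rw [hg'def]; simp, map_mul, map_mul,
        mul_sub, sub_mul, mul_one, ← map_mul r d⁻¹ d, inv_mul_cancel, map_one]
    have h3 : (r g₀ - 1) *ᵥ (r d *ᵥ w) = 0 := by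
      have h := congrArg (fun u => r d *ᵥ u) h2
      simpa only [mulVec_mulVec, ← mul_assoc, ← map_mul, mul_inv_cancel, map_one, one_mul,
        mulVec_zero] using h
    exact exists_smul_of_mulVec_eq_zero hN0 hv h3 hN0w
  have hzeq : ∀ g h : inG p, z g = z h → r g = r h := fun g h e => by
    have h1 : z (h⁻¹ * g) = 1 := by
      have : z (h⁻¹) * z h = 1 := by rw [← map_mul, inv_mul_cancel, map_one]
      rw [map_mul, e, this]
    have h2 := hz1 _ h1
    rw [Subgroup.coe_mul, Subgroup.coe_inv, map_mul] at h2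
    calc r g = r h * (r (h : GQ)⁻¹ * r g) := by
          rw [← mul_assoc, ← map_mul, mul_inv_cancel, map_one, one_mul]
      _ = r h := by rw [h2, mul_one]
  have hcomm : ∀ g h : inG p, r g * r h = r h * r g := fun g h => by
    have e := hzeq (g * h) (h * g) (by rw [map_mul, map_mul, mul_comm])
    rwa [Subgroup.coe_mul, Subgroup.coe_mul, map_mul, map_mul] at e
  have hconj : ∀ g : inG p, r φ * r g = r g ^ p * r φ := fun g => by
    have hmem : φ * (g : GQ) * φ⁻¹ ∈ inG p := by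
      have := conj_mem_inG (p := p) ((decG p).inv_mem hφ) g.2
      rwa [inv_inv] at this
    have e := hzeq ⟨_, hmem⟩ (g ^ p) (by rw [hfr φ hφ hfrob g ⟨_, hmem⟩ rfl, map_pow])
    rw [SubgroupClass.coe_pow, map_pow] at e
    rw [← e, ← map_mul, ← map_mul, inv_mul_cancel_right]
  -- a regular element of inertia
  obtain ⟨α₀, β₀, ht₀, hd₀⟩ := hsplit φ
  obtain ⟨w₀, hw₀, hw₀'⟩ := exists_eigenvector ht₀ hd₀
  obtain ⟨g₁, hg₁⟩ : ∃ g₁ : inG p, ∀ c : k, r g₁ ≠ c • 1 := by
    by_contra hall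
    push Not at hall
    refine hnoline w₀ hw₀ ⟨α₀, hw₀'⟩ fun g hg => ?_
    obtain ⟨c, hc⟩ := hall ⟨g, hg⟩
    exact ⟨c, by rw [show r g = c • 1 from hc, smul_mulVec, one_mulVec]⟩
  obtain ⟨α, β, ht, hd⟩ := hsplit g₁
  have hαβ : α ≠ β := by
    rintro rfl
    have hα : α ≠ 0 := fun h0 => det_ne_zero (r := r) (g₁ : GQ) (by rw [hd, h0, zero_mul])
    set N := α⁻¹ • (r g₁ - α • 1) with hN
    have hNsq : N * N = 0 := by
      have h := mul_self_eq (r g₁)
      rw [ht, hd] at h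
      rw [hN, smul_mul_assoc, mul_smul_comm, sub_mul, mul_sub, mul_sub, h, smul_mul_assoc,
        mul_smul_comm, smul_mul_assoc, mul_smul_comm, one_mul, mul_one, one_mul]
      module
    have e : r g₁ = α • (1 + N) := by
      rw [smul_add, hN, smul_smul, mul_inv_cancel₀ hα, one_smul]; abel
    obtain ⟨m, hm, hpm, hzm⟩ := hzroot g₁
    have h1 := hz1 (g₁ ^ m) (by rw [map_pow, hzm])
    rw [SubgroupClass.coe_pow, map_pow, e, _root_.smul_pow, pow_one_add hNsq, smul_add,
      smul_smul] at h1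
    have h2 := congrArg (fun X => X * N) h1
    simp only [add_mul, smul_mul_assoc, one_mul, hNsq, smul_zero, add_zero] at h2
    have hN0 : N ≠ 0 := fun h0 => hg₁ α (by rw [e, h0, add_zero])
    have hαm : α ^ m = 1 := smul_left_injective k hN0 (by simpa using h2)
    rw [hαm, one_smul, one_mul, add_eq_left, smul_eq_zero,
      or_iff_left hN0, CharP.cast_eq_zero_iff k p] at h1
    exact hpm h1
  obtain ⟨w₁, hw₁, hw₁'⟩ := exists_eigenvector ht hd
  obtain ⟨w₂, hw₂, hw₂'⟩ :=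
    exists_eigenvector (A := r g₁) (α := β) (β := α) (by rw [ht, add_comm]) (by rw [hd, mul_comm])
  set P : M2 k := Matrix.of fun i j => if j = 0 then w₁ i else w₂ i with hPdef
  have hP0 : ∀ x, P *ᵥ x = x 0 • w₁ + x 1 • w₂ := fun x => funext fun i => by
    simp [hPdef, Matrix.mulVec, dotProduct, Fin.sum_univ_two, mul_comm]
  have hdet : P.det ≠ 0 := fun h0 => by
    obtain ⟨x, hx, hPx⟩ := Matrix.exists_mulVec_eq_zero_iff.mpr h0
    rw [hP0] at hPx
    have h := congrArg (fun u => r g₁ *ᵥ u - β • u) hPx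
    simp only [mulVec_add, mulVec_smul, hw₁', hw₂', mulVec_zero, smul_zero, sub_zero, smul_add,
      smul_comm β (x 0), smul_comm β (x 1)] at h
    rw [add_sub_add_right_eq_sub, ← smul_sub, ← sub_smul, smul_smul, smul_eq_zero,
      or_iff_left hw₁, mul_eq_zero, or_iff_left (sub_ne_zero.2 hαβ)] at h
    rw [h, zero_smul, zero_add, smul_eq_zero, or_iff_left hw₂] at hPx
    exact hx (funext fun i => by fin_cases i <;> assumption)
  set Pinv := P⁻¹ with hPidef
  have hPP : P * Pinv = 1 := mul_nonsing_inv _ hdet.isUnit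
  have hPP' : Pinv * P = 1 := nonsing_inv_mul _ hdet.isUnit
  have hmul : ∀ X Y : M2 k, Pinv * (X * Y) * P = (Pinv * X * P) * (Pinv * Y * P) := fun X Y => by
    simp only [mul_assoc, ← mul_assoc P Pinv, hPP, one_mul]
  have hD : Pinv * r g₁ * P = !![α, 0; 0, β] := by
    have hP1 : P *ᵥ ![1, 0] = w₁ := by rw [hP0]; simp
    have hP2 : P *ᵥ ![0, 1] = w₂ := by rw [hP0]; simp
    have e1 : (Pinv * r g₁ * P) *ᵥ ![1, 0] = α • ![1, 0] := by
      rw [← mulVec_mulVec, hP1, ← mulVec_mulVec, hw₁', mulVec_smul, ← hP1, mulVec_mulVec, hPP',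
        one_mulVec]
    have e2 : (Pinv * r g₁ * P) *ᵥ ![0, 1] = β • ![0, 1] := by
      rw [← mulVec_mulVec, hP2, ← mulVec_mulVec, hw₂', mulVec_smul, ← hP2, mulVec_mulVec, hPP',
        one_mulVec]
    have a := congrFun e1
    have b := congrFun e2
    simp [Matrix.mulVec, dotProduct, Fin.sum_univ_two] at a b
    ext i j
    fin_cases i <;> fin_cases j <;>
      simp [a.1, a.2, b.1, b.2]
  set x : inG p → k := fun g => (Pinv * r g * P) 0 0
  set y : inG p → k := fun g => (Pinv * r g * P) 1 1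
  have hdiag : ∀ g : inG p, Pinv * r g * P = !![x g, 0; 0, y g] := fun g =>
    eq_diag_of_commute hαβ (by rw [← hD, ← hmul, ← hmul, hcomm])
  have hpow : ∀ (g : inG p) (n : ℕ), Pinv * r g ^ n * P = !![x g ^ n, 0; 0, y g ^ n] := by
    intro g n
    induction n with
    | zero => rw [pow_zero, mul_one, hPP']; ext i j; fin_cases i <;> fin_cases j <;> simp
    | succ n ih =>
      rw [pow_succ, hmul, ih, hdiag]
      ext i j
      fin_cases i <;> fin_cases j <;> simp [Matrix.mul_apply, Fin.sum_univ_two, pow_succ]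
  set Φ := Pinv * r φ * P with hΦdef
  have hΦ : ∀ g : inG p, Φ * !![x g, 0; 0, y g] = !![x g ^ p, 0; 0, y g ^ p] * Φ := fun g => by
    rw [← hdiag, ← hpow, hΦdef, ← hmul, ← hmul, hconj]
  -- neither axis is stable
  have hback : ∀ (X : M2 k) (e : Fin 2 → k) (c : k), (Pinv * X * P) *ᵥ e = c • e →
      X *ᵥ (P *ᵥ e) = c • (P *ᵥ e) := fun X e c h => by
    have h' := congrArg (fun u => P *ᵥ u) h
    simpa only [mulVec_mulVec, ← mul_assoc, hPP, one_mul, mulVec_smul] using h'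
  have hne : ∀ e : Fin 2 → k, e ≠ 0 → P *ᵥ e ≠ 0 := fun e he h0 => he (by
    have := congrArg (fun u => Pinv *ᵥ u) h0
    simpa only [mulVec_mulVec, hPP', one_mulVec, mulVec_zero] using this)
  have hΦ01 : Φ 0 1 ≠ 0 := fun h0 => hnoline (P *ᵥ ![0, 1]) (hne _ (by simp))
    ⟨Φ 1 1, hback _ _ _ (funext fun i => by
      fin_cases i <;> simp [← hΦdef, Matrix.mulVec, dotProduct, Fin.sum_univ_two, h0])⟩
    fun g hg => ⟨y ⟨g, hg⟩, hback _ _ _ (by
      rw [hdiag ⟨g, hg⟩]
      funext i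
      fin_cases i <;> simp [Matrix.mulVec, dotProduct, Fin.sum_univ_two])⟩
  have hΦ10 : Φ 1 0 ≠ 0 := fun h0 => hnoline (P *ᵥ ![1, 0]) (hne _ (by simp))
    ⟨Φ 0 0, hback _ _ _ (funext fun i => by
      fin_cases i <;> simp [← hΦdef, Matrix.mulVec, dotProduct, Fin.sum_univ_two, h0])⟩
    fun g hg => ⟨x ⟨g, hg⟩, hback _ _ _ (by
      rw [hdiag ⟨g, hg⟩]
      funext i
      fin_cases i <;> simp [Matrix.mulVec, dotProduct, Fin.sum_univ_two])⟩
  have hyx : ∀ g, y g = x g ^ p ∧ x g = y g ^ p := fun g => by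
    have h01 := congrFun (congrFun (hΦ g) 0) 1
    have h10 := congrFun (congrFun (hΦ g) 1) 0
    simp [Matrix.mul_apply, Fin.sum_univ_two] at h01 h10
    exact ⟨mul_left_cancel₀ hΦ01 (by linear_combination h01),
      mul_left_cancel₀ hΦ10 (by linear_combination h10)⟩
  have hx0 : ∀ g, x g ≠ 0 := fun g h0 => by
    have h := congrArg Matrix.det (hdiag g)
    rw [det_mul, det_mul, det_fin_two_of, h0, zero_mul, zero_mul, sub_self, mul_right_comm,
      ← det_mul, hPP', det_one, one_mul] at h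
    exact det_ne_zero (r := r) (g : GQ) h
  have hxe : ∀ g, x g ^ e₀ p = 1 := fun g => by
    have h : x g ^ p ^ 2 = x g := by rw [sq, pow_mul, ← (hyx g).1, ← (hyx g).2]
    refine mul_left_cancel₀ (hx0 g) ?_
    rw [mul_one, ← pow_succ', e₀, Nat.sub_add_cancel (Nat.one_le_pow _ _ hp.out.pos), h]
  refine ⟨P, Pinv, x ⟨τ, hτ⟩, hPP, hPP', fun g hg => ?_, hxe _, by
    rw [show r τ = r (⟨τ, hτ⟩ : inG p) from rfl, hdiag, (hyx _).1]⟩
  refine eq_one_of_mem_tame p (r.comp (inG p).subtype) hH hnorm (fun h hh => hh.2) (fun g => ?_) hg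
  show r g ^ e₀ p = 1
  have h : P * (Pinv * r g ^ e₀ p * P) * Pinv = P * 1 * Pinv := by
    rw [hpow, (hyx g).1, ← pow_mul, mul_comm, pow_mul, hxe, one_pow]
    congr 2
    ext i j
    fin_cases i <;> fin_cases j <;> simp
  simpa [mul_assoc, hPP, ← mul_assoc P Pinv] using h

end Fermat.Agent.CFT.Flat
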