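import Fermat.Agent.CFT.Flat.Local
import Fermat.Agent.CFT.Flat.DualOrder
import Fermat.Agent.CFT.Flat.NormalForm

/-!
# The local bound at `p` for flat tangent classes
-/

set_option autoImplicit false
set_option linter.style.haveILetI false
set_option linter.unusedSectionVars false

noncomputable section

namespace Fermat.Agent.CFT.Flat

open Fermat.Agent.Arith Fermat.Agent.Deform Fermat.Agent.CFT.Tangent
open Module Matrix

variable {p : ℕ} [hp : Fact p.Prime] {k : Type} [Field k] [Finite k] [CharP k p] {r : GQ →* M2 k}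

section Conj

variable (P Q : M2 k)

/-- The conjugate of a representation. -/
def conjRep (r : GQ →* M2 k) (h : P * Q = 1) (h' : Q * P = 1) : GQ →* M2 k where
  toFun g := Q * r g * P
  map_one' := by rw [map_one, mul_one, h']
  map_mul' a b := by rw [map_mul]; simp only [mul_assoc, ← mul_assoc P Q, h, one_mul]

open scoped Classical in
/-- The conjugate of a function, restricted to the decomposition group. -/
def conjOn (p : ℕ) [Fact p.Prime] : (GQ → M2 k) →ₗ[k] (GQ → M2 k) where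
  toFun b g := if g ∈ decG p then Q * b g * P else 0
  map_add' a b := funext fun g => by
    simp only [Pi.add_apply]
    split_ifs
    · rw [mul_add, add_mul]
    · rw [add_zero]
  map_smul' c b := funext fun g => by
    simp only [Pi.smul_apply, RingHom.id_apply]
    split_ifs
    · rw [mul_smul_comm, smul_mul_assoc]
    · rw [smul_zero]

theorem conjOn_of_mem {b : GQ → M2 k} {g : GQ} (hg : g ∈ decG p) :
    conjOn P Q p b g = Q * b g * P := if_pos hg

theorem conjOn_of_notMem {b : GQ → M2 k} {g : GQ} (hg : g ∉ decG p) :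
    conjOn P Q p b g = 0 := if_neg hg

theorem conj_mul (h : P * Q = 1) (X Y : M2 k) : Q * (X * Y) * P = (Q * X * P) * (Q * Y * P) := by
  simp only [mul_assoc, ← mul_assoc P Q, h, one_mul]

theorem conj_trace (h : P * Q = 1) (X : M2 k) : (Q * X * P).trace = X.trace := by
  rw [Matrix.trace_mul_comm, ← mul_assoc, h, one_mul]

theorem conj_det (h : P * Q = 1) (X : M2 k) : (Q * X * P).det = X.det := by
  have e := congrArg Matrix.det h
  rw [det_mul, det_one] at e
  rw [det_mul, det_mul, mul_comm Q.det, mul_assoc, mul_comm Q.det, e, mul_one]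

theorem conj_cancel (h : P * Q = 1) (X : M2 k) : P * (Q * X * P) * Q = X := by
  simp only [mul_assoc, h, mul_one, ← mul_assoc P Q, one_mul]

end Conj

variable [Algebra (ZMod p) k]

/-- Inertia at an upper triangular special decomposition group kills one of the two quadratics. -/
theorem piece_of_special {r' : GQ →* M2 k} (hr : GaloisFactorsThroughFiniteLevel r')
    (hup : ∀ g ∈ decG p, r' g 1 0 = 0) {τ : GQ} (hτ : τ ∈ inG p)
    (hgen : ∀ g ∈ inG p, ∃ i : ℕ, (τ ^ i)⁻¹ * g ∈ tame p)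
    (h1 : r' τ 0 0 = 1 ∨ r' τ 1 1 = 1) {g : GQ} (hg : g ∈ inG p) :
    (r' g - 1) * (r' g - (r' g).det • 1) = 0 := by
  obtain ⟨L, _, _, hL⟩ := exists_normal_level hr
  have hI := inG_le_decG p
  have hchar : ∀ i : Fin 2, (∀ a ∈ decG p, ∀ b ∈ decG p, r' (a * b) i i = r' a i i * r' b i i) := by
    intro i a ha b hb
    rw [map_mul, Matrix.mul_apply, Fin.sum_univ_two]
    fin_cases i <;> simp [hup a ha, hup b hb]
  have hval : ∀ i : Fin 2, r' τ i i = 1 → r' g i i = 1 := by
    intro i hi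
    obtain ⟨n, hn⟩ := hgen g hg
    have ht := (char_tame (χ := fun x => r' x i i) (hchar i) (by simp) L
      fun x hx _ => by simp [hL x hx]).1 _ hn
    have hpow : ∀ n : ℕ, r' (τ ^ n) i i = 1 := by
      intro n
      induction n with
      | zero => simp
      | succ n ih => rw [pow_succ, hchar i _ ((decG p).pow_mem (hI hτ) n) _ (hI hτ), ih, hi, one_mul]
    rw [← mul_inv_cancel_left (τ ^ n) g,
      hchar i _ ((decG p).pow_mem (hI hτ) n) _ (mem_decG_of_mem_tame hn), hpow, one_mul]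
    exact ht
  have hd : (r' g).det = r' g 0 0 * r' g 1 1 := by
    rw [det_fin_two, hup g (hI hg), mul_zero, sub_zero]
  rcases h1 with h | h <;> have hv := hval _ h <;>
  · ext i j
    fin_cases i <;> fin_cases j <;>
      simp [Matrix.mul_apply, Fin.sum_univ_two, hd, hv, hup g (hI hg)] <;> ring

/-- An embedding of a finite field into the residue field. -/
theorem nonempty_iota : Nonempty (k →+* Res p) := by
  haveI : IsAlgClosed (Res p) := residueField_isAlgClosed _
  letI : Algebra (ZMod p) (Res p) := ZMod.algebra _ p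
  haveI : Module.Finite (ZMod p) k := Module.Finite.of_finite
  haveI : Algebra.IsAlgebraic (ZMod p) k := Algebra.IsAlgebraic.of_finite _ _
  exact ⟨(IsAlgClosed.lift (R := ZMod p) (S := k) (M := Res p)).toRingHom⟩

/-- The lower left entry when the inertia quotient is unramified. -/
theorem lowerLeft_eq {T R B C : M2 k} (h2 : (2 : k) ≠ 0) (hT : T 1 0 = 0) (hR : R 1 0 = 0)
    (hT0 : T 0 0 = -1) (hT1 : T 1 1 = 1) (hR0 : R 0 0 ≠ 0)
    (h : (T + 1) * R * (B * T) + (T + 1) * (C * R) * (T - 1) + B * T * R * (T - 1) = 0) :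
    C 1 0 = B 1 0 / 2 * (1 - R 1 1 / R 0 0) := by
  have h1 := congrFun (congrFun h 1) 0
  simp [Matrix.mul_apply, Fin.sum_univ_two, hT, hR, hT0, hT1] at h1
  field_simp
  have h4 : (2 : k) * 2 ≠ 0 := mul_ne_zero h2 h2
  refine mul_left_cancel₀ h2 ?_
  linear_combination (-1 : k) * h1

/-- The entries after the change to the other stable line. -/
theorem switch_entries (h2 : (2 : k) ≠ 0) (R : M2 k) (hR : R 1 0 = 0) (u : k) :
    (!![0, -1 / 2; 1, u / 2] * R * !![u, 1; -2, 0]) 1 0 = u * R 0 0 - 2 * R 0 1 - u * R 1 1 ∧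
      (!![0, -1 / 2; 1, u / 2] * R * !![u, 1; -2, 0]) 0 0 = R 1 1 ∧
      (!![0, -1 / 2; 1, u / 2] * R * !![u, 1; -2, 0]) 1 1 = R 0 0 := by
  refine ⟨?_, ?_, ?_⟩ <;>
    simp only [Matrix.mul_apply, Fin.sum_univ_two] <;>
    simp [hR] <;> field_simp
  all_goals ring

/-- The classes to be counted: values on the decomposition group in a frame. -/
def flatClasses (p : ℕ) [Fact p.Prime] (r : GQ →* M2 k) (P Q : M2 k)
    (V : Submodule k (GQ → M2 k)) : Submodule k (GQ → M2 k) :=
  (V ⊔ LinearMap.range (cobdLin r)).map (conjOn P Q p)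

variable {V : Submodule k (GQ → M2 k)}

/-- The classes satisfy the hypotheses of the count. -/
theorem isLocalClass_flatClasses {P Q : M2 k} (h : P * Q = 1) (h' : Q * P = 1)
    (hcoc : ∀ b ∈ V, IsAdCocycle r b) (htr : ∀ b ∈ V, ∀ σ, (b σ).trace = 0)
    {L : IntermediateField ℚ QBar} [FiniteDimensional ℚ L] [Normal ℚ L]
    (hL : ∀ σ : GQ, (∀ x ∈ L, σ x = x) → r σ = 1 ∧ ∀ b ∈ V, b σ = 0)
    (hH : ∀ b ∈ V, ∃ H : Subgroup GQ, IsLevel p H ∧ H ≤ tame p ∧ IsBdd p H ∧
      ∀ g ∈ H, r g = 1 ∧ b g = 0)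
    {c : GQ → M2 k} (hc : c ∈ flatClasses p r P Q V) : IsLocalClass p (conjRep P Q r h h') c := by
  obtain ⟨u, hu, rfl⟩ := hc
  obtain ⟨b, hb, _, ⟨X, rfl⟩, rfl⟩ := Submodule.mem_sup.mp hu
  have hcob : ∀ g, r g = 1 → cobdLin r X g = 0 := fun g hg => by
    have hg' : r g⁻¹ = 1 := by have := Tangent.map_inv_mul r g; rwa [hg, mul_one] at this
    rw [cobdLin_apply, hg, hg', one_mul, mul_one, sub_self]
  have hcu := (hcoc b hb).add (isAdCocycle_cobdLin r X)
  refine ⟨fun g hg g' hg' => ?_, fun g => ?_, fun g hg => conjOn_of_notMem P Q hg, ?_, ?_⟩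
  · rw [conjOn_of_mem P Q ((decG p).mul_mem hg hg'), conjOn_of_mem P Q hg, conjOn_of_mem P Q hg',
      hcu g g', mul_add, add_mul, conj_mul P Q h, conj_mul P Q h]
    rfl
  · by_cases hg : g ∈ decG p
    · rw [conjOn_of_mem P Q hg, conj_trace P Q h, Pi.add_apply, Matrix.trace_add, htr b hb,
        trace_cobdLin, add_zero]
    · rw [conjOn_of_notMem P Q hg, Matrix.trace_zero]
  · obtain ⟨H, hl, hle, hbdd, hz⟩ := hH b hb
    refine ⟨H, hl, hle, hbdd, fun g hg => ?_⟩
    rw [conjOn_of_mem P Q (mem_decG_of_mem_tame (hle hg)), Pi.add_apply, (hz g hg).2,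
      hcob g (hz g hg).1, add_zero, mul_zero, zero_mul]
  · refine ⟨L, inferInstance, inferInstance, fun g hg hgD => ?_⟩
    obtain ⟨h1, h2⟩ := hL g ((IntermediateField.mem_fixingSubgroup_iff _ _).mp hg)
    rw [conjOn_of_mem P Q hgD, Pi.add_apply, h2 b hb, hcob g h1, add_zero, mul_zero, zero_mul]

/-- Classes modulo coboundaries inject into the classes on the decomposition group. -/
theorem finrank_le_of_flatClasses {P Q : M2 k} (h : P * Q = 1) (h2 : (2 : k) ≠ 0)
    [Module.Finite k V] (hle : finrank k (flatClasses p r P Q V) ≤ 4) :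
    finrank k V ≤ finrank k (V ⊓ cobdOn r (decG p) : Submodule k (GQ → M2 k)) +
      finrank k (fixedOn r (decG p)) + 1 := by
  set M := flatClasses p r P Q V
  let κ : M2 k →ₗ[k] (GQ → M2 k) := (conjOn P Q p).comp (cobdLin r)
  have hκM : LinearMap.range κ ≤ M := by
    rw [LinearMap.range_comp]
    exact Submodule.map_mono le_sup_right
  haveI : Module.Finite k M := by
    haveI : Module.Finite k (V ⊔ LinearMap.range (cobdLin r) : Submodule k (GQ → M2 k)) :=
      Submodule.finiteDimensional_sup _ _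
    exact Module.Finite.map _ _
  -- the coboundaries on the decomposition group
  have hker : finrank k (LinearMap.ker κ) ≤ finrank k (fixedOn r (decG p)) + 1 := by
    have hsub : LinearMap.ker κ ≤ fixedOn r (decG p) ⊔ (k ∙ (1 : M2 k)) := fun X hX => by
      rw [show X = (X - (X.trace / 2) • 1) + (X.trace / 2) • 1 by abel]
      refine Submodule.add_mem_sup ⟨?_, fun s hs => ?_⟩
        (Submodule.smul_mem _ _ (Submodule.mem_span_singleton_self _))
      · rw [Matrix.trace_sub, Matrix.trace_smul, Matrix.trace_one, Fintype.card_fin, smul_eq_mul]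
        push_cast
        field_simp
        ring
      · have hz : Q * cobdLin r X s * P = 0 := by
          rw [← conjOn_of_mem P Q hs]
          exact congrFun (LinearMap.mem_ker.mp hX) s
        have hz' : cobdLin r X s = 0 := by rw [← conj_cancel P Q h (cobdLin r X s), hz]; simp
        rw [cobdLin_apply, sub_eq_zero] at hz'
        rw [mul_sub, sub_mul, hz', mul_smul_comm, mul_one, smul_mul_assoc, Tangent.map_mul_inv]
    exact (Submodule.finrank_mono hsub).trans ((Submodule.finrank_add_le_finrank_add_finrank _ _).trans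
      (Nat.add_le_add_left (finrank_span_singleton (one_ne_zero (α := M2 k))).le _))
  have hrank := κ.finrank_range_add_finrank_ker
  have h4 : finrank k (M2 k) = 4 := by simp [Module.finrank_matrix]
  -- the classes modulo the coboundaries
  let C : Submodule k M := (LinearMap.range κ).comap M.subtype
  have hC : finrank k C = finrank k (LinearMap.range κ) :=
    (Submodule.comapSubtypeEquivOfLe hκM).finrank_eq
  let f : V →ₗ[k] M ⧸ C := C.mkQ.comp (LinearMap.codRestrict M ((conjOn P Q p).comp V.subtype)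
    fun b => ⟨b.1, Submodule.mem_sup_left b.2, rfl⟩)
  have hq := C.finrank_quotient_add_finrank
  have hf := f.finrank_range_add_finrank_ker
  have hfr := Submodule.finrank_le (LinearMap.range f)
  haveI : Module.Finite k (V ⊓ cobdOn r (decG p) : Submodule k (GQ → M2 k)) :=
    Submodule.finiteDimensional_of_le inf_le_left
  have hfk : finrank k (LinearMap.ker f) ≤
      finrank k (V ⊓ cobdOn r (decG p) : Submodule k (GQ → M2 k)) := by
    rw [(Submodule.equivSubtypeMap V (LinearMap.ker f)).finrank_eq]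
    refine Submodule.finrank_mono ?_
    rintro _ ⟨b, hb, rfl⟩
    obtain ⟨X, hX⟩ := (Submodule.Quotient.mk_eq_zero C).mp (LinearMap.mem_ker.mp hb)
    obtain ⟨Y, hY, hY'⟩ := cobdLin_mem_cobdOn (r := r) h2 (decG p) X
    refine ⟨b.2, Y, hY, fun s hs => ?_⟩
    have e : Q * cobdLin r X s * P = Q * b.1 s * P := by
      rw [← conjOn_of_mem P Q hs, ← conjOn_of_mem P Q hs]
      exact congrFun hX s
    show b.1 s = _
    rw [← hY' s hs, ← conj_cancel P Q h (b.1 s), ← e, conj_cancel P Q h]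
  omega

set_option maxHeartbeats 1000000 in
/-- The count of the classes on the decomposition group. -/
theorem finrank_flatClasses_le (hp2 : p ≠ 2) (hr : GaloisFactorsThroughFiniteLevel r)
    (hcyc : ∀ (σ : GQ) (n : ℕ), (∀ μ : QBar, μ ^ p = 1 → σ μ = μ ^ n) → (r σ).det = (n : k))
    (hsplit : ∀ g, ∃ α β : k, (r g).trace = α + β ∧ (r g).det = α * β)
    [Module.Finite k V] (hcoc : ∀ b ∈ V, IsAdCocycle r b) (hlev : ∀ b ∈ V, IsFiniteLevel b)
    (htr : ∀ b ∈ V, ∀ σ, (b σ).trace = 0) (hV : V ≠ ⊥)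
    (hb : ∀ b ∈ V, b ≠ 0 → ∃ (ρ : GaloisRepAdic (DualNumber k))
      (B : Basis (Fin 2) (DualNumber k) ρ.V), ρ.IsFlatAt p ∧
        ∀ σ, matOf ρ B σ = (1 + epsM (b σ)) * inlM (r σ)) :
    ∃ P Q : M2 k, P * Q = 1 ∧ finrank k (flatClasses p r P Q V) ≤ 4 := by
  obtain ⟨ι⟩ := nonempty_iota (p := p) (k := k)
  obtain ⟨τ, hτ, hτprim, hgen⟩ := exists_tame_generator p
  have h2 : (2 : k) ≠ 0 := by
    intro h0
    have : p ∣ 2 := (CharP.cast_eq_zero_iff k p 2).1 (by exact_mod_cast h0)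
    exact hp2 ((Nat.prime_dvd_prime_iff_eq hp.out Nat.prime_two).1 this)
  obtain ⟨L, hLf, hLn, hL⟩ := exists_common_level hr V hlev
  obtain ⟨b₀, hb₀, hb₀0⟩ := Submodule.exists_mem_ne_zero_of_ne_bot hV
  -- lifts with orders
  have hlift : ∀ b ∈ V, b ≠ 0 → ∃ U : GQ →* M2 (DualNumber k),
      Nonempty (FiniteFlat.GalOrder p (MatMod U)) ∧ ∀ σ, U σ = (1 + epsM (b σ)) * inlM (r σ) :=
    fun b hbV hb0 => by
      obtain ⟨ρ, B, hf, hm⟩ := hb b hbV hb0
      exact ⟨_, nonempty_galOrder B hf, hm⟩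
  have hH : ∀ b ∈ V, ∃ H : Subgroup GQ, IsLevel p H ∧ H ≤ tame p ∧ IsBdd p H ∧
      ∀ g ∈ H, r g = 1 ∧ b g = 0 := by
    intro b hbV
    by_cases hb0 : b = 0
    · obtain ⟨U, ⟨O⟩, hU⟩ := hlift b₀ hb₀ hb₀0
      obtain ⟨H, h1, h2', h3, h4⟩ := exists_bdd_level O
      exact ⟨H, h1, h2', h3, fun g hg => ⟨(eq_of_lift_eq_one hU (h4 g hg)).1, by rw [hb0]; rfl⟩⟩
    · obtain ⟨U, ⟨O⟩, hU⟩ := hlift b hbV hb0
      obtain ⟨H, h1, h2', h3, h4⟩ := exists_bdd_level O
      exact ⟨H, h1, h2', h3, fun g hg => eq_of_lift_eq_one hU (h4 g hg)⟩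
  have hcount : ∀ (P Q : M2 k), P * Q = 1 →
      (∀ T : AddSubgroup (GQ → M2 k), T = (flatClasses p r P Q V).toAddSubgroup → Finite T →
        Nat.card T ≤ Nat.card k ^ 4) →
      finrank k (flatClasses p r P Q V) ≤ 4 := by
    intro P Q _ hT
    haveI : Module.Finite k (V ⊔ LinearMap.range (cobdLin r) : Submodule k (GQ → M2 k)) :=
      Submodule.finiteDimensional_sup _ _
    haveI : Module.Finite k (flatClasses p r P Q V) := Module.Finite.map _ _
    haveI : Finite (flatClasses p r P Q V) := Module.finite_of_finite k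
    have h := hT _ rfl ‹Finite (flatClasses p r P Q V)›
    rw [show Nat.card (flatClasses p r P Q V).toAddSubgroup =
        Nat.card (flatClasses p r P Q V) from rfl,
      Module.natCard_eq_pow_finrank (K := k) (V := flatClasses p r P Q V)] at h
    exact (Nat.pow_le_pow_iff_right Finite.one_lt_card).mp h
  have hrfin : ∀ (P Q : M2 k) (h : P * Q = 1) (h' : Q * P = 1),
      GaloisFactorsThroughFiniteLevel (conjRep P Q r h h') := fun P Q h h' => by
    obtain ⟨L₀, hL₀, hL₀'⟩ := hr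
    exact ⟨L₀, hL₀, fun σ hσ => show Q * r σ * P = 1 by rw [hL₀' σ hσ, mul_one, h']⟩
  have hcyc' : ∀ (P Q : M2 k) (h : P * Q = 1) (h' : Q * P = 1) (σ : GQ) (n : ℕ),
      (∀ μ : QBar, μ ^ p = 1 → σ μ = μ ^ n) → (conjRep P Q r h h' σ).det = (n : k) :=
    fun P Q h h' σ n hn => by rw [← hcyc σ n hn]; exact conj_det P Q h _
  rcases exists_line_or_torus hr hsplit hτ with ⟨P₀, Q₀, hP₀, hQ₀, hup₀⟩ |
    ⟨P, Q, l, hP, hQ, htame, hl, hdiag⟩
  swap
  · refine ⟨P, Q, hP, hcount P Q hP fun T hT hfin => ?_⟩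
    subst hT
    exact natCard_le_torus hp2 (hcyc' P Q hP hQ) _
      (fun c hc => isLocalClass_flatClasses hP hQ hcoc htr hL hH hc) ι hτ hτprim hgen
      (fun g hg => show Q * r g * P = 1 by rw [htame g hg, mul_one, hQ]) hl hdiag
  have hτD := inG_le_decG p hτ
  have ha1 : (r τ).det ≠ 1 := det_tame_ne_one hp2 hcyc ι hτ hτprim
  -- the shape in the special case
  have hspecial : ∀ (P Q : M2 k) (h : P * Q = 1) (h' : Q * P = 1),
      (∀ g ∈ decG p, (Q * r g * P) 1 0 = 0) →
      (Q * r τ * P) 0 0 / (Q * r τ * P) 1 1 = (r τ).det →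
      (Q * r τ * P) 1 1 / (Q * r τ * P) 0 0 = (r τ).det →
      (r τ).det = -1 ∧ (((Q * r τ * P) 0 0 = 1 ∧ (Q * r τ * P) 1 1 = -1) ∨
        ((Q * r τ * P) 0 0 = -1 ∧ (Q * r τ * P) 1 1 = 1)) ∧
      (∀ g ∈ inG p, (r g - 1) * (r g - (r g).det • 1) = 0) := by
    intro P Q h h' hup e1 e2
    have hd : (Q * r τ * P) 0 0 * (Q * r τ * P) 1 1 = (r τ).det := by
      rw [← conj_det P Q h (r τ), det_fin_two, hup τ hτD, mul_zero, sub_zero]
    set x := (Q * r τ * P) 0 0 with hx
    set y := (Q * r τ * P) 1 1 with hy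
    have hne := det_map_ne_zero r τ
    obtain ⟨hx0, hy0⟩ : x ≠ 0 ∧ y ≠ 0 := mul_ne_zero_iff.mp (by rw [hd]; exact hne)
    have hsq : (r τ).det * (r τ).det = 1 := by
      nth_rewrite 1 [← e1]
      rw [← e2]
      field_simp
    have ha : (r τ).det = -1 := (mul_self_eq_one_iff.mp hsq).resolve_left ha1
    rw [ha, div_eq_iff hy0] at e1
    rw [ha] at hd
    have hx1 : x * x = 1 := by rw [e1] at hd ⊢; linear_combination (-1 : k) * hd
    have hshape : (x = 1 ∧ y = -1) ∨ (x = -1 ∧ y = 1) := by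
      rcases mul_self_eq_one_iff.mp hx1 with h1 | h1
      · exact Or.inl ⟨h1, by rw [h1] at e1; linear_combination e1⟩
      · exact Or.inr ⟨h1, by rw [h1] at e1; linear_combination e1⟩
    refine ⟨ha, hshape, fun g hg => ?_⟩
    have hpi := piece_of_special (r' := conjRep P Q r h h') (hrfin P Q h h') hup hτ hgen
      (hshape.imp (fun e => e.1) fun e => e.2) hg
    have e : ((r g) - 1) * (r g - (r g).det • 1) =
        P * ((Q * r g * P - 1) * (Q * r g * P - (Q * r g * P).det • 1)) * Q := by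
      rw [conj_det P Q h,
        show Q * r g * P - 1 = Q * (r g - 1) * P by rw [mul_sub, sub_mul, mul_one, h'],
        show Q * r g * P - (r g).det • 1 = Q * (r g - (r g).det • 1) * P by
          rw [mul_sub, sub_mul, mul_smul_comm, mul_one, smul_mul_assoc, h'],
        ← conj_mul P Q h, conj_cancel P Q h]
    rw [e]
    show P * ((conjRep P Q r h h' g - 1) *
      (conjRep P Q r h h' g - (conjRep P Q r h h' g).det • 1)) * Q = 0
    rw [hpi, mul_zero, zero_mul]
  -- a frame whose first line carries the determinant in the special case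
  obtain ⟨P, Q, hP, hQ, hup, hgood⟩ : ∃ (P Q : M2 k), P * Q = 1 ∧ Q * P = 1 ∧
      (∀ g ∈ decG p, (Q * r g * P) 1 0 = 0) ∧
      ((Q * r τ * P) 0 0 / (Q * r τ * P) 1 1 = (r τ).det →
        (Q * r τ * P) 1 1 / (Q * r τ * P) 0 0 = (r τ).det →
        (Q * r τ * P) 0 0 = -1 ∧ (Q * r τ * P) 1 1 = 1) := by
    by_cases hsw : (Q₀ * r τ * P₀) 0 0 / (Q₀ * r τ * P₀) 1 1 = (r τ).det ∧
        (Q₀ * r τ * P₀) 1 1 / (Q₀ * r τ * P₀) 0 0 = (r τ).det ∧ (Q₀ * r τ * P₀) 0 0 = 1
    swap
    · refine ⟨P₀, Q₀, hP₀, hQ₀, hup₀, fun e1 e2 => ?_⟩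
      exact ((hspecial P₀ Q₀ hP₀ hQ₀ hup₀ e1 e2).2.1).resolve_left fun e => hsw ⟨e1, e2, e.1⟩
    obtain ⟨e1, e2, e3⟩ := hsw
    obtain ⟨ha, hshape, hpiece⟩ := hspecial P₀ Q₀ hP₀ hQ₀ hup₀ e1 e2
    have hy : (Q₀ * r τ * P₀) 1 1 = -1 := by
      rcases hshape with e | e
      · exact e.2
      · exact absurd (e3.symm.trans e.1) (fun e' => h2 (by linear_combination e'))
    obtain ⟨U, ⟨O⟩, hU⟩ := hlift b₀ hb₀ hb₀0
    set u := (Q₀ * r τ * P₀) 0 1 with hu
    let Z : M2 k := !![u, 1; -2, 0]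
    let Zi : M2 k := !![0, -1 / 2; 1, u / 2]
    have hZ : Z * Zi = 1 := by
      ext i j
      fin_cases i <;> fin_cases j <;> simp [Z, Zi, Matrix.mul_apply, Fin.sum_univ_two] <;>
        field_simp
      all_goals ring
    have hZ' : Zi * Z = 1 := mul_eq_one_comm.mp hZ
    have hgroup : ∀ X : M2 k, (Zi * Q₀) * X * (P₀ * Z) = Zi * (Q₀ * X * P₀) * Z := fun X => by
      simp only [mul_assoc]
    refine ⟨P₀ * Z, Zi * Q₀, by rw [mul_assoc, ← mul_assoc Z, hZ, one_mul, hP₀],
      by rw [mul_assoc, ← mul_assoc Q₀, hQ₀, one_mul, hZ'], fun g hg => ?_, fun _ _ => ?_⟩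
    · have hrel := (connected_relations hU O hcyc hpiece hτ hg).1
      rw [ha, neg_smul, one_smul, sub_neg_eq_add] at hrel
      have h' : Q₀ * ((r τ + 1) * r g * (r τ - 1)) * P₀ = 0 := by rw [hrel, mul_zero, zero_mul]
      rw [conj_mul P₀ Q₀ hP₀, conj_mul P₀ Q₀ hP₀, mul_add Q₀, add_mul, mul_sub Q₀, sub_mul,
        mul_one, hQ₀] at h'
      have hT10 := hup₀ τ hτD
      have hR10 := hup₀ g hg
      rw [hgroup, (switch_entries h2 _ hR10 u).1]
      generalize hT : Q₀ * r τ * P₀ = T at h' hu hy e3 hT10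
      generalize hR : Q₀ * r g * P₀ = R at h' hR10 ⊢
      have h01 := congrFun (congrFun h' 0) 1
      simp [Matrix.mul_apply, Fin.sum_univ_two, hR10, e3, hy, ← hu] at h01
      exact (mul_right_inj' h2).mp (by rw [mul_zero]; linear_combination h01)
    · rw [hgroup]
      exact ⟨(switch_entries h2 _ (hup₀ τ hτD) u).2.1.trans hy,
        (switch_entries h2 _ (hup₀ τ hτD) u).2.2.trans e3⟩
  refine ⟨P, Q, hP, hcount P Q hP fun T hT hfin => ?_⟩
  subst hT
  refine natCard_le_borel hp2 (hrfin P Q hP hQ) (hcyc' P Q hP hQ) hup _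
    (fun c hc => isLocalClass_flatClasses hP hQ hcoc htr hL hH hc) ι hτ hτprim hgen
    fun e1 e2 c hc => ?_
  change (Q * r τ * P) 0 0 / (Q * r τ * P) 1 1 = (Q * r τ * P).det at e1
  change (Q * r τ * P) 1 1 / (Q * r τ * P) 0 0 = (Q * r τ * P).det at e2
  rw [conj_det P Q hP] at e1 e2
  obtain ⟨hT0, hT1⟩ := hgood e1 e2
  obtain ⟨ha, -, hpiece⟩ := hspecial P Q hP hQ hup e1 e2
  obtain ⟨u, hu, rfl⟩ := hc
  obtain ⟨b, hbV, _, ⟨X, rfl⟩, rfl⟩ := Submodule.mem_sup.mp hu
  have hR0 : ∀ g ∈ decG p, (Q * r g * P) 0 0 ≠ 0 := fun g hg h0 => det_map_ne_zero r g (by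
    rw [← conj_det P Q hP, det_fin_two, hup g hg, h0, zero_mul, mul_zero, sub_zero])
  have hcob : ∀ g ∈ decG p, (Q * cobdLin r X g * P) 1 0 =
      -(Q * X * P) 1 0 * (1 - (Q * r g * P) 1 1 / (Q * r g * P) 0 0) := by
    intro g hg
    have e : (Q * cobdLin r X g * P + Q * X * P) * (Q * r g * P) =
        (Q * r g * P) * (Q * X * P) := by
      rw [cobdLin_apply, mul_sub, sub_mul, sub_add_cancel, ← conj_mul P Q hP, ← conj_mul P Q hP,
        mul_assoc (r g * X), Tangent.map_inv_mul, mul_one]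
    have e10 := congrFun (congrFun e 1) 0
    simp [Matrix.mul_apply (M := _ + _), Matrix.mul_apply (M := Q * r g * P), Fin.sum_univ_two,
      hup g hg] at e10
    field_simp [hR0 g hg]
    linear_combination e10
  obtain ⟨x, hx⟩ : ∃ x : k, ∀ g ∈ decG p,
      (Q * b g * P) 1 0 = x * (1 - (Q * r g * P) 1 1 / (Q * r g * P) 0 0) := by
    by_cases hb0 : b = 0
    · exact ⟨0, fun g _ => by simp [hb0]⟩
    obtain ⟨U, ⟨O⟩, hU⟩ := hlift b hbV hb0
    refine ⟨(Q * b τ * P) 1 0 / 2, fun g hg => ?_⟩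
    have hrel := (connected_relations hU O hcyc hpiece hτ hg).2
    rw [ha, neg_smul, one_smul, sub_neg_eq_add] at hrel
    refine lowerLeft_eq h2 (hup τ hτD) (hup g hg) hT0 hT1 (hR0 g hg) ?_
    have h' := congrArg (fun Y => Q * Y * P) hrel
    simp only [mul_zero, zero_mul, mul_add, add_mul, conj_mul P Q hP, mul_sub, sub_mul, mul_one,
      hQ] at h'
    simp only [add_mul, mul_sub, mul_one, one_mul, mul_assoc] at h' ⊢
    linear_combination (norm := abel) h'
  refine ⟨x - (Q * X * P) 1 0, fun g hg => ?_⟩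
  show conjOn P Q p (b + cobdLin r X) g 1 0 = _
  rw [conjOn_of_mem P Q hg, Pi.add_apply, mul_add, add_mul, Matrix.add_apply, hx g hg, hcob g hg]
  show _ = _ * (1 - (Q * r g * P) 1 1 / (Q * r g * P) 0 0)
  ring

omit [Algebra (ZMod p) k] in
/-- **The bound at `p` for flat classes.** -/
theorem finrank_le_flat (hp2 : p ≠ 2) (hr : GaloisFactorsThroughFiniteLevel r)
    (hcyc : ∀ (σ : GQ) (n : ℕ), (∀ μ : QBar, μ ^ p = 1 → σ μ = μ ^ n) → (r σ).det = (n : k))
    (hsplit : ∀ g, ∃ α β : k, (r g).trace = α + β ∧ (r g).det = α * β)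
    (V : Submodule k (GQ → M2 k)) [Module.Finite k V]
    (hcoc : ∀ b ∈ V, IsAdCocycle r b) (hlev : ∀ b ∈ V, IsFiniteLevel b)
    (htr : ∀ b ∈ V, ∀ σ, (b σ).trace = 0)
    (hb : ∀ b ∈ V, b ≠ 0 → ∃ (ρ : GaloisRepAdic (DualNumber k))
      (B : Basis (Fin 2) (DualNumber k) ρ.V), ρ.IsFlatAt p ∧
        ∀ σ, matOf ρ B σ = (1 + epsM (b σ)) * inlM (r σ)) :
    finrank k V ≤ finrank k (V ⊓ cobdOn r ((padicPlace p).decompositionSubgroup ℚ) :
        Submodule k (GQ → M2 k)) +
      finrank k (fixedOn r ((padicPlace p).decompositionSubgroup ℚ)) + 1 := by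
  rcases eq_or_ne V ⊥ with rfl | hV
  · simp [finrank_bot]
  letI : Algebra (ZMod p) k := ZMod.algebra k p
  have h2 : (2 : k) ≠ 0 := by
    intro h0
    have : p ∣ 2 := (CharP.cast_eq_zero_iff k p 2).1 (by exact_mod_cast h0)
    exact hp2 ((Nat.prime_dvd_prime_iff_eq hp.out Nat.prime_two).1 this)
  obtain ⟨P, Q, hP, hle⟩ := finrank_flatClasses_le hp2 hr hcyc hsplit hcoc hlev htr hV hb
  exact finrank_le_of_flatClasses hP h2 hle

end Fermat.Agent.CFT.Flat
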