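import Fermat.Agent.CFT.Flat.Lattice
import Fermat.Agent.Mazur.Eisenstein.Connected

/-!
# Points of an order congruent to the origin at `padicPlace p`
-/

set_option autoImplicit false
set_option linter.style.haveILetI false
set_option linter.unusedSectionVars false

noncomputable section

namespace Fermat.Agent.CFT.Flat

open Fermat.Agent.Arith Fermat.Agent.FiniteFlat Fermat.Agent.Mazur.Eisenstein

variable {p : ℕ} [hp : Fact p.Prime] {M : Type} [AddCommGroup M] [DistribMulAction GQ M]
  [Fintype M] (O : GalOrder p M)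

theorem smul_mem_conn {d : GQ} (hd : d ∈ decG p) {m : M} (hm : m ∈ conn O) :
    d • m ∈ conn O := fun f hf => by
  have h0 : f 0 = d (f 0) := by
    conv_lhs => rw [← smul_zero (A := M) d, O.equivariant f hf]
  rw [O.equivariant f hf, h0, ← map_sub, nrm_map p hd]
  exact hm f hf

include O in
/-- If inertia is admissible for the cyclotomic character, it acts through it on the translates of
`τ v - v`. -/
theorem smul_translate_eq (hkill : ∀ m : M, p • m = 0)
    (hop : ∀ g ∈ inG p, ∀ c : ℕ, (∀ μ : QBar, μ ^ p = 1 → g μ = μ ^ c) → ∀ m : M,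
      ∃ n, (⇑(pieceOp M g (c : ℤ)))^[n] m = 0)
    {σ : GQ} (hσ : σ ∈ inG p) {c : ℕ} (hc : ∀ μ : QBar, μ ^ p = 1 → σ μ = μ ^ c)
    {τ : GQ} (hτ : τ ∈ inG p) {d : GQ} (hd : d ∈ decG p) (v : M) :
    σ • (d • (τ • v - v)) = c • (d • (τ • v - v)) := by
  have hexp : Monoid.exponent (Multiplicative M) ∣ p :=
    Monoid.exponent_dvd_of_forall_pow_eq_one fun x => Multiplicative.toAdd.injective (hkill x.toAdd)
  have hstab : ∀ g : inG p, ∀ x ∈ conn O, g • x ∈ conn O := fun g x hx =>
    smul_mem_conn O (inG_le_decG p g.2) hx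
  refine inertia_smul_of_congruent (A := padicPlace p) (Local.padicPlace_liesOverPrime p) hp.out O
    ((cyclotomicHom p).comp (inG p).subtype) (conn O) hstab ?_
    (fun f hf x hx => (mem_nonunits_iff p).mpr (hx f hf)) hσ (fun ζ hζ => hc ζ ?_)
    (smul_mem_conn O hd (smul_sub_mem_conn hτ v))
  · letI := subAction (conn O) hstab
    refine ⟨fun b => ⟨1, Subtype.ext (by rw [pow_one]; exact hkill b.1)⟩, fun g b => ?_⟩
    obtain ⟨n, hn⟩ := hop g g.2 _ (fun μ hμ => cyclotomicHom_spec (g : GQ) hμ) b.1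
    refine ⟨n, Subtype.ext ?_⟩
    refine Eq.trans ?_ hn
    exact Function.Semiconj.iterate_right (f := Subtype.val) (fun x => rfl) n b
  · obtain ⟨t, ht⟩ := hexp
    rw [ht, pow_mul, hζ, one_pow]

end Fermat.Agent.CFT.Flat
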