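import Fermat.Agent.CFT.Flat.Digits
import Fermat.Agent.CFT.Flat.Lifting

/-!
# The ramification bound for Galois orders killed by `p`
-/

set_option autoImplicit false
set_option linter.style.haveILetI false
set_option linter.unusedSectionVars false

noncomputable section

namespace Fermat.Agent.CFT.Flat

open Fermat.Agent.Arith Fermat.Agent.FiniteFlat Polynomial
open scoped AddMonoidAlgebra

variable (p : ℕ) [hp : Fact p.Prime]

/-- The smallest distance of `x` to another conjugate under inertia. -/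
def gap (x : QBar) : ℝ :=
  if h : ((orb p x).erase x).Nonempty then ((orb p x).erase x).inf' h fun r => nrm p (x - r)
  else nrm p x

/-- The product of the distances to the other conjugates, times the smallest one. -/
def brk (x : QBar) : ℝ := (∏ r ∈ (orb p x).erase x, nrm p (x - r)) * gap p x

variable (M : Type) [AddCommGroup M] [DistribMulAction GQ M]

/-- Inertia fixing a module pointwise. -/
def fixM : Subgroup GQ := inG p ⊓ ⨅ m : M, MulAction.stabilizer GQ m

theorem mem_fixM {g : GQ} : g ∈ fixM p M ↔ g ∈ inG p ∧ ∀ m : M, g • m = m := by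
  simp [fixM, Subgroup.mem_inf, Subgroup.mem_iInf, MulAction.mem_stabilizer_iff]

variable {p M}

theorem gap_le {x r : QBar} (hr : r ∈ (orb p x).erase x) : gap p x ≤ nrm p (x - r) := by
  rw [gap, dif_pos ⟨r, hr⟩]
  exact Finset.inf'_le _ hr

theorem exists_gap_eq {x : QBar} (h : ((orb p x).erase x).Nonempty) :
    ∃ r ∈ (orb p x).erase x, gap p x = nrm p (x - r) := by
  rw [gap, dif_pos h]
  exact Finset.exists_mem_eq_inf' h _

theorem dist_pos {x r : QBar} (hr : r ∈ (orb p x).erase x) : 0 < nrm p (x - r) :=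
  nrm_pos p (sub_ne_zero.mpr (Finset.mem_erase.mp hr).1.symm)

theorem brk_pos {x : QBar} (h : ((orb p x).erase x).Nonempty) : 0 < brk p x := by
  obtain ⟨r, hr, he⟩ := exists_gap_eq h
  exact mul_pos (Finset.prod_pos fun r hr => dist_pos hr) (he ▸ dist_pos hr)

theorem isLevel_fixM [Finite M] (O : GalOrder p M) : IsLevel p (fixM p M) := by
  classical
  haveI := Fintype.ofFinite M
  set L : IntermediateField ℚ QBar := IntermediateField.adjoin ℚ
    (Set.range fun x : Module.Free.ChooseBasisIndex (Zl p) O.H × M =>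
      ((O.basis x.1 : O.H) : M → QBar) x.2) with hL
  refine ⟨inf_le_left, L, IntermediateField.finiteDimensional_adjoin
    fun x _ => Algebra.IsIntegral.isIntegral x, fun g hg => (mem_fixM p M).mpr ⟨hg.1, fun m => ?_⟩⟩
  have hfix := (IntermediateField.mem_fixingSubgroup_iff _ _).mp hg.2
  refine O.separates _ _ fun f hf => ?_
  rw [O.equivariant f hf]
  have := congrArg (fun g : O.H => (g : M → QBar) m) (O.basis.sum_repr ⟨f, hf⟩)
  simp only [AddSubmonoidClass.coe_finsetSum, Finset.sum_apply, SetLike.val_smul,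
    Pi.smul_apply, zl_smul] at this
  rw [← this, map_sum]
  refine Finset.sum_congr rfl fun i _ => ?_
  rw [map_mul, map_ratCast, hfix _ (IntermediateField.subset_adjoin _ _ ⟨(i, m), rfl⟩)]

theorem fixed_apply_of_mem_fixM (O : GalOrder p M) {g : GQ} (hg : g ∈ fixM p M) {f : M → QBar}
    (hf : f ∈ O.H) (m : M) : g (f m) = f m := by
  rw [← O.equivariant f hf, ((mem_fixM p M).mp hg).2]

/-- The elements of `ℤ_(p)` as inertia-fixed integers. -/
def zlInt (p : ℕ) [Fact p.Prime] : Zl p →+* intI p :=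
  ((algebraMap ℚ QBar).comp (Zl p).subtype).codRestrict (intI p) fun c =>
    ⟨fun g _ => g.commutes _, by
      show nrm p (algebraMap ℚ QBar (c : ℚ)) ≤ 1
      rw [eq_ratCast]; exact nrm_zl_le_one p c⟩

theorem coe_zlInt (c : Zl p) : ((zlInt p c : intI p) : QBar) = ((c : ℚ) : QBar) :=
  eq_ratCast (algebraMap ℚ QBar) (c : ℚ)

/-- A root of a binomial is the nearest one. -/
theorem exists_near_root {e : ℕ} (he : 0 < e) (hpe : ¬ p ∣ e) {π₀ : QBar}
    (hπ₀ : π₀ ^ e = (p : QBar)) {y : QBar} (hy : nrm p (y ^ e - p) < (p : ℝ)⁻¹) :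
    ∃ ζ : QBar, ζ ^ e = 1 ∧ nrm p (y - ζ * π₀) < nrm p π₀ := by
  classical
  haveI : NeZero e := ⟨he.ne'⟩
  haveI : NeZero (e : QBar) := ⟨Nat.cast_ne_zero.mpr he.ne'⟩
  obtain ⟨w, hw⟩ := HasEnoughRootsOfUnity.exists_primitiveRoot QBar e
  have hprod := congrArg (eval y) (X_pow_sub_C_eq_prod hw he hπ₀)
  rw [eval_sub, eval_pow, eval_X, eval_C, eval_prod] at hprod
  simp only [eval_sub, eval_X, eval_C] at hprod
  obtain ⟨j, hj, hmin⟩ := (Finset.range e).exists_min_image
    (fun i => nrm p (y - w ^ i * π₀)) ⟨0, Finset.mem_range.mpr he⟩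
  refine ⟨w ^ j, by rw [← pow_mul, mul_comm, pow_mul, hw.pow_eq_one, one_pow], ?_⟩
  have hπn : nrm p π₀ ^ e = (p : ℝ)⁻¹ := by rw [← nrm_pow, hπ₀, nrm_natCast_self]
  have hfar : ∀ i ∈ (Finset.range e).erase j, nrm p π₀ ≤ nrm p (y - w ^ i * π₀) := by
    intro i hi
    obtain ⟨hij, hi'⟩ := Finset.mem_erase.mp hi
    have hsep : nrm p (w ^ i * π₀ - w ^ j * π₀) = nrm p π₀ := by
      have hwi : ∀ i, nrm p (w ^ i) = 1 := fun i =>
        nrm_root p he (by rw [← pow_mul, mul_comm, pow_mul, hw.pow_eq_one, one_pow])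
      have hne : ¬ nrm p (w ^ i - w ^ j) < 1 := by
        intro hlt
        have hj0 : w ^ j ≠ 0 := pow_ne_zero _ (hw.ne_zero he.ne')
        have h1 := root_eq_one_of_sub_one_mem_nonunits (Local.padicPlace_liesOverPrime p) hp.out
          (m := e) (ζ := w ^ i / w ^ j) (by
            rw [div_pow, ← pow_mul, ← pow_mul, mul_comm i, mul_comm j, pow_mul, pow_mul,
              hw.pow_eq_one, one_pow, one_pow, div_one]) hpe ((mem_nonunits_iff p).mpr (by
            rw [div_sub_one hj0, nrm_div, hwi j, div_one]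
            exact hlt))
        exact hij (hw.pow_inj (Finset.mem_range.mp hi') (Finset.mem_range.mp hj)
          ((div_eq_one_iff_eq hj0).mp h1))
      rw [← sub_mul, nrm_mul]
      refine le_antisymm (mul_le_of_le_one_left (nrm_nonneg p _) ?_)
        (le_mul_of_one_le_left (nrm_nonneg p _) (not_lt.mp hne))
      exact nrm_sub_le_of_le p (hwi i).le (hwi j).le
    by_contra hlt
    rw [not_le] at hlt
    have h2 := nrm_sub_lt_of_lt p ((hmin i hi').trans_lt hlt) hlt
    rw [sub_sub_sub_cancel_left, hsep] at h2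
    exact lt_irrefl _ h2
  by_contra hge
  rw [not_lt] at hge
  have : (p : ℝ)⁻¹ ≤ nrm p (y ^ e - p) := by
    rw [hprod, nrm_prod, ← hπn]
    refine (le_of_eq ?_).trans (Finset.prod_le_prod (s := Finset.range e)
      (fun _ _ => nrm_nonneg p π₀) fun i hi => ?_)
    · simp
    · rcases eq_or_ne i j with rfl | hij
      · exact hge
      · exact hfar i (Finset.mem_erase.mpr ⟨hij, hi⟩)
  exact absurd this (not_le.mpr hy)

/-- Inertia acts on the radical `π₀` through roots of unity fixed by inertia. -/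
theorem fixer_conj {e : ℕ} (he : 0 < e) (hpe : ¬ p ∣ e) {π₀ : QBar} (hπ₀ : π₀ ^ e = (p : QBar))
    {g h : GQ} (_hh : h ∈ inG p) (hg : g ∈ fixer p π₀) : g (h π₀) = h π₀ := by
  obtain ⟨hgI, hgx⟩ := (mem_fixer p).mp hg
  have hπ0 : π₀ ≠ 0 := fun h0 => hp.out.ne_zero (by
    have := hπ₀
    rw [h0, zero_pow he.ne'] at this
    exact_mod_cast this.symm)
  have hroot : (h π₀ / π₀) ^ e = 1 := by
    rw [div_pow, ← map_pow, hπ₀, map_natCast, div_self (Nat.cast_ne_zero.mpr hp.out.ne_zero)]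
  have h1 := inG_fix_root p hgI hroot hpe
  rwa [map_div₀, hgx, div_left_inj' hπ0] at h1

theorem conj_fixed_aux {H : Subgroup GQ} {e : ℕ} (_O : GalOrder p M) (he : 0 < e) (hpe : ¬ p ∣ e)
    {π₀ π : QBar} (hπ₀ : π₀ ^ e = (p : QBar)) (hH : fixM p M ⊓ fixer p π₀ = H)
    (u : IsUnif (p := p) H π) {g h : GQ} (hh : h ∈ inG p) (hg : g ∈ H) : g (h π) = h π := by
  subst hH
  have hmem : h⁻¹ * g * h ∈ fixM p M ⊓ fixer p π₀ := by
    obtain ⟨hgI, hgM⟩ := (mem_fixM p M).mp hg.1
    have hI : h⁻¹ * g * h ∈ inG p := (inG p).mul_mem ((inG p).mul_mem ((inG p).inv_mem hh) hgI) hh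
    refine ⟨(mem_fixM p M).mpr ⟨hI, fun m => ?_⟩, (mem_fixer p).mpr ⟨hI, ?_⟩⟩
    · rw [mul_smul, mul_smul, hgM, inv_smul_smul]
    · rw [AlgEquiv.mul_apply, AlgEquiv.mul_apply, fixer_conj he hpe hπ₀ hh hg.2,
        ← AlgEquiv.mul_apply, inv_mul_cancel, AlgEquiv.one_apply]
  have := congrArg h (u.fixed _ hmem)
  rwa [← AlgEquiv.mul_apply, ← mul_assoc, ← mul_assoc, mul_inv_cancel, one_mul,
    AlgEquiv.mul_apply] at this

/-- The root of a perturbed Eisenstein polynomial has the absolute value of the uniformiser. -/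
theorem nrm_root_aux {H : Subgroup GQ} {π : QBar} (u : IsUnif (p := p) H π) {a b : ℕ} (ha : 1 ≤ a)
    (hb : b < H.relIndex (inG p)) {ρ : ℝ} (hρ : ρ = ((p : ℝ)⁻¹) ^ a * nrm p π ^ b)
    (hρp : ρ < (p : ℝ)⁻¹) {G' : (intI p)[X]}
    (hG' : ∀ z : QBar, aeval z G' = aeval z u.poly + (p : QBar) ^ a * z ^ b) {x : QBar}
    (hx : aeval x G' = 0) : nrm p x = nrm p π := by
  classical
  set n := H.relIndex (inG p)
  set q := nrm p π
  have hn0 : 0 < n := Nat.pos_of_ne_zero u.level.relIndex_ne_zero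
  have hcoef : ∀ i, i < n → nrm p ((u.poly.coeff i : intI p) : QBar) ≤ (p : ℝ)⁻¹ := fun i hi => by
    rw [IsUnif.coe_coeff_poly]
    exact nrm_coeff_orbPoly_le u.lt_one (by rwa [u.card_orb_eq])
  have hconst : nrm p ((u.poly.coeff 0 : intI p) : QBar) = (p : ℝ)⁻¹ := by
    rw [IsUnif.coe_coeff_poly, coeff_zero_eq_eval_zero, orbPoly, eval_prod, nrm_prod]
    rw [Finset.prod_eq_pow_card (b := q) fun r hr => by
      rw [eval_sub, eval_X, eval_C, zero_sub, nrm_neg, nrm_of_mem_orb hr], u.card_orb_eq]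
    exact u.pow_eq
  have hpow : x ^ n =
      -((∑ i ∈ Finset.range n, ((u.poly.coeff i : intI p) : QBar) * x ^ i) +
        (p : QBar) ^ a * x ^ b) := by
    have h := (hG' x).symm.trans hx
    rw [aeval_def, eval₂_eq_sum_range, u.natDegree_poly, Finset.sum_range_succ,
      show u.poly.coeff n = 1 by rw [← u.monic_poly.coeff_natDegree, u.natDegree_poly],
      map_one, one_mul] at h
    rw [show (∑ i ∈ Finset.range n, ((u.poly.coeff i : intI p) : QBar) * x ^ i) =
      ∑ i ∈ Finset.range n, algebraMap (intI p) QBar (u.poly.coeff i) * x ^ i from rfl]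
    linear_combination h
  have hpa : nrm p ((p : QBar) ^ a) ≤ (p : ℝ)⁻¹ := by
    rw [nrm_pow, nrm_natCast_self]
    exact pow_le_of_le_one (inv_cast_pos p).le (inv_cast_lt_one p).le (by omega)
  have hx1 : nrm p x < 1 := by
    by_contra h
    rw [not_lt] at h
    have h2 : nrm p x ^ n ≤ (p : ℝ)⁻¹ * nrm p x ^ (n - 1) := by
      rw [← Flat.nrm_pow, hpow, nrm_neg]
      have hle : ∀ i, i < n → nrm p x ^ i ≤ nrm p x ^ (n - 1) := fun i hi =>
        pow_le_pow_right₀ h (by omega)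
      refine nrm_add_le_of_le p (nrm_sum_le p _ _ (mul_nonneg (inv_cast_pos p).le
        (pow_nonneg (nrm_nonneg p x) _)) fun i hi => ?_) ?_
      · rw [nrm_mul, Flat.nrm_pow]
        exact mul_le_mul (hcoef i (Finset.mem_range.mp hi)) (hle i (Finset.mem_range.mp hi))
          (pow_nonneg (nrm_nonneg p x) _) (inv_cast_pos p).le
      · rw [nrm_mul, Flat.nrm_pow p x b]
        exact mul_le_mul hpa (hle b hb) (pow_nonneg (nrm_nonneg p x) _) (inv_cast_pos p).le
    have h3 : (p : ℝ)⁻¹ * nrm p x ^ (n - 1) < nrm p x ^ n := by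
      refine lt_of_lt_of_le (mul_lt_of_lt_one_left (pow_pos (zero_lt_one.trans_le h) _)
        (inv_cast_lt_one p)) (pow_le_pow_right₀ h (Nat.sub_le n 1))
    exact absurd h2 (not_le.mpr h3)
  -- the constant term dominates
  have hsmall : nrm p ((∑ i ∈ (Finset.range n).erase 0,
      ((u.poly.coeff i : intI p) : QBar) * x ^ i) + (p : QBar) ^ a * x ^ b) < (p : ℝ)⁻¹ := by
    refine nrm_add_lt_of_lt p (Finset.sum_induction _ (fun y => nrm p y < (p : ℝ)⁻¹)
      (fun _ _ h1 h2 => nrm_add_lt_of_lt p h1 h2) (by simpa using inv_cast_pos p) fun i hi => ?_) ?_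
    · obtain ⟨hi0, hin⟩ := Finset.mem_erase.mp hi
      rw [nrm_mul, Flat.nrm_pow]
      exact (mul_le_mul_of_nonneg_right (hcoef i (Finset.mem_range.mp hin))
        (pow_nonneg (nrm_nonneg p x) _)).trans_lt
          (mul_lt_of_lt_one_right (inv_cast_pos p) (pow_lt_one₀ (nrm_nonneg p x) hx1 hi0))
    · rcases Nat.eq_zero_or_pos b with rfl | hb0
      · rw [pow_zero, mul_one, Flat.nrm_pow, nrm_natCast_self]
        rw [hρ, pow_zero, mul_one] at hρp
        exact hρp
      · rw [nrm_mul, Flat.nrm_pow p x b]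
        exact (mul_le_mul_of_nonneg_right hpa (pow_nonneg (nrm_nonneg p x) _)).trans_lt
          (mul_lt_of_lt_one_right (inv_cast_pos p) (pow_lt_one₀ (nrm_nonneg p x) hx1 hb0.ne'))
  refine (pow_left_inj₀ (nrm_nonneg p x) (nrm_nonneg p π) hn0.ne').mp ?_
  rw [u.pow_eq, ← Flat.nrm_pow, hpow, nrm_neg,
    ← Finset.add_sum_erase _ _ (Finset.mem_range.mpr hn0), pow_zero, mul_one, add_assoc,
    nrm_add_eq_of_lt p (by rwa [hconst]), hconst]

/-- Newton polygon contradiction: the value of the Eisenstein polynomial misses a gap. -/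
theorem final_aux {H : Subgroup GQ} {π x : QBar} (u : IsUnif (p := p) H π)
    (hne : ((orb p π).erase π).Nonempty)
    (hconj : ∀ g ∈ H, ∀ r ∈ orb p π, g r = r) (hxfix : ∀ g ∈ H, g x = x)
    (hxG : nrm p (aeval x u.poly) = brk p π / nrm p π) : False := by
  classical
  set S := orb p π
  set q := nrm p π
  obtain ⟨r₀, hr₀, hmin⟩ := S.exists_min_image (fun r => nrm p (x - r)) ⟨π, self_mem_orb π⟩
  set w := nrm p (x - r₀) with hw
  obtain ⟨g₀, hg₀, hg₀r⟩ := mem_orb.mp hr₀
  have hG : nrm p (aeval x u.poly) = w * ∏ r ∈ S.erase r₀, nrm p (x - r) := by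
    rw [u.aeval_poly, orbPoly, eval_prod, nrm_prod, ← Finset.mul_prod_erase _ _ hr₀]
    simp [hw, eval_sub]
  have himg : S.erase r₀ = (S.erase π).image g₀ := by
    rw [Finset.image_erase g₀.injective, image_orb π hg₀, hg₀r]
  rw [himg, Finset.prod_image fun a _ b _ h => g₀.injective h] at hG
  have hterm : ∀ r ∈ S.erase π, nrm p (x - g₀ r) = max w (nrm p (π - r)) := by
    intro r hr
    have hgr : g₀ r ∈ S := map_mem_orb (Finset.mem_erase.mp hr).2 hg₀
    have hd : nrm p (r₀ - g₀ r) = nrm p (π - r) := by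
      rw [← hg₀r, ← map_sub, nrm_map_of_mem_inG p hg₀]
    have hle : nrm p (x - g₀ r) ≤ max w (nrm p (π - r)) := by
      rw [← hd, ← sub_add_sub_cancel x r₀ (g₀ r)]
      exact nrm_add_le p _ _
    refine le_antisymm hle (max_le (hmin _ hgr) ?_)
    rw [← hd, ← sub_sub_sub_cancel_left (g₀ r) r₀ x]
    exact (nrm_sub_le p _ _).trans (max_le le_rfl (hmin _ hgr))
  rw [Finset.prod_congr rfl hterm] at hG
  obtain ⟨r₁, hr₁, hgap⟩ := exists_gap_eq hne
  set δ := gap p π
  have hδ : 0 < δ := hgap ▸ dist_pos hr₁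
  set Pr := ∏ r ∈ S.erase π, nrm p (π - r)
  have hPr : 0 < Pr := Finset.prod_pos fun r hr => dist_pos hr
  rw [hxG, show brk p π = Pr * δ from rfl] at hG
  rcases le_or_gt w δ with hle | hgt
  · rw [Finset.prod_congr rfl fun r hr => max_eq_right (hle.trans (gap_le hr))] at hG
    change Pr * δ / q = w * Pr at hG
    have hw' : w = δ / q := mul_right_cancel₀ hPr.ne' (by rw [← hG]; ring)
    have : δ < δ / q := (lt_div_iff₀ u.pos).mpr (mul_lt_of_lt_one_right hδ u.lt_one)
    exact absurd (hw' ▸ hle) (not_le.mpr this)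
  · -- values of fixed elements jump by at least the uniformiser
    have hw0 : 0 < w := hδ.trans hgt
    have hwq : δ ≤ w * q := by
      have hne1 : π - r₁ ≠ 0 := fun h0 => (dist_pos hr₁).ne' (by rw [h0, nrm_zero])
      have hne0 : x - r₀ ≠ 0 := fun h0 => hw0.ne' (by rw [hw, h0, nrm_zero])
      obtain ⟨i, hi⟩ := u.exists_zpow hne1 fun g hg => by
        rw [map_sub, u.fixed g hg, hconj g hg r₁ (Finset.mem_erase.mp hr₁).2]
      obtain ⟨j, hj⟩ := u.exists_zpow hne0 fun g hg => by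
        rw [map_sub, hxfix g hg, hconj g hg r₀ hr₀]
      rw [hgap, hi, hw, hj] at hgt ⊢
      rw [← zpow_add_one₀ u.pos.ne', zpow_le_zpow_iff_right_of_lt_one₀ u.pos u.lt_one]
      have := (zpow_lt_zpow_iff_right_of_lt_one₀ u.pos u.lt_one).mp hgt
      omega
    have hprod : Pr * (w / δ) ≤ ∏ r ∈ S.erase π, max w (nrm p (π - r)) := by
      rw [show Pr = nrm p (π - r₁) * ∏ r ∈ (S.erase π).erase r₁, nrm p (π - r) from
        (Finset.mul_prod_erase _ _ hr₁).symm, ← hgap, mul_comm, ← mul_assoc, div_mul_cancel₀ _ hδ.ne',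
        ← Finset.mul_prod_erase _ _ hr₁]
      exact mul_le_mul (le_max_left _ _) (Finset.prod_le_prod (fun r _ => nrm_nonneg p _)
        fun r _ => le_max_right _ _) (Finset.prod_nonneg fun r _ => nrm_nonneg p _)
        (hw0.le.trans (le_max_left _ _))
    have h2 : w * (Pr * (w / δ)) ≤ Pr * δ / q := hG ▸ mul_le_mul_of_nonneg_left hprod hw0.le
    have h3 : Pr * δ / q < w * (Pr * (w / δ)) := by
      rw [show w * (Pr * (w / δ)) = Pr * (w * w) / δ by ring, div_lt_div_iff₀ u.pos hδ]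
      rw [mul_assoc, mul_assoc, mul_lt_mul_iff_right₀ hPr]
      calc δ * δ ≤ (w * q) * (w * q) := mul_le_mul hwq hwq hδ.le (mul_nonneg hw0.le u.pos.le)
        _ = (w * w * q) * q := by ring
        _ < w * w * q := mul_lt_of_lt_one_right (mul_pos (mul_pos hw0 hw0) u.pos) u.lt_one
    exact absurd h2 (not_le.mpr h3)

variable [Fintype M]

/-- The ramification bound. -/
theorem fontaine (O : GalOrder p M) (hkill : ∀ m : M, p • m = 0) {e : ℕ} (he : 0 < e)
    (hpe : ¬ p ∣ e) {π₀ : QBar} (hπ₀ : π₀ ^ e = (p : QBar)) {π : QBar}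
    (u : IsUnif (p := p) (fixM p M ⊓ fixer p π₀) π) (hne : ((orb p π).erase π).Nonempty) :
    ¬ ((p : ℝ) * (brk p π / nrm p π)) ^ (p - 1) < (p : ℝ)⁻¹ := by
  classical
  intro hlt
  set H := fixM p M ⊓ fixer p π₀
  set n := H.relIndex (inG p)
  set q := nrm p π
  set ρ := brk p π / q
  have hp0 : (0 : ℝ) < p := zero_lt_one.trans (one_lt_cast p)
  have hρ0 : 0 < ρ := div_pos (brk_pos hne) u.pos
  have hr1 : (p : ℝ) * ρ < 1 := lt_one_of_pow_lt hlt
  have hρp : ρ < (p : ℝ)⁻¹ := by rwa [← one_div, lt_div_iff₀' hp0]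
  have hρ1 : ρ ≤ 1 := (hρp.trans (inv_cast_lt_one p)).le
  -- `ρ` is the absolute value of a monomial
  have hdistz : ∀ r ∈ (orb p π).erase π, ∃ k : ℤ, nrm p (π - r) = q ^ k := fun r hr => by
    refine u.exists_zpow (sub_ne_zero.mpr (Finset.mem_erase.mp hr).1.symm) fun g hg => ?_
    rw [map_sub, u.fixed g hg]
    congr 1
    obtain ⟨h, hh, rfl⟩ := mem_orb.mp (Finset.mem_erase.mp hr).2
    -- conjugates are fixed as the orbit consists of functions of fixed elements
    exact conj_fixed_aux O he hpe hπ₀ rfl u hh hg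
  obtain ⟨A, hA⟩ : ∃ A : ℤ, brk p π = q ^ A := by
    obtain ⟨r₁, hr₁, hgap⟩ := exists_gap_eq hne
    obtain ⟨k₁, hk₁⟩ := hdistz r₁ hr₁
    obtain ⟨k₂, hk₂⟩ : ∃ k : ℤ, ∏ r ∈ (orb p π).erase π, nrm p (π - r) = q ^ k := by
      refine Finset.prod_induction (fun r => nrm p (π - r)) (fun x => ∃ k : ℤ, x = q ^ k)
        ?_ ⟨0, (zpow_zero q).symm⟩ hdistz
      rintro _ _ ⟨a, rfl⟩ ⟨b, rfl⟩
      exact ⟨a + b, (zpow_add₀ u.pos.ne' a b).symm⟩
    exact ⟨k₂ + k₁, by rw [brk, hgap, hk₂, hk₁, zpow_add₀ u.pos.ne']⟩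
  have hρA : ρ = q ^ (A - 1) := by
    show brk p π / q = _
    rw [hA, zpow_sub_one₀ u.pos.ne', div_eq_mul_inv]
  have hAn : (n : ℤ) < A - 1 := by
    rw [hρA, ← u.pow_eq, ← zpow_natCast] at hρp
    exact (zpow_lt_zpow_iff_right_of_lt_one₀ u.pos u.lt_one).mp hρp
  have hn0 : 0 < n := Nat.pos_of_ne_zero u.level.relIndex_ne_zero
  obtain ⟨v, hv⟩ : ∃ v : ℕ, A - 1 = v := Int.eq_ofNat_of_zero_le (by omega)
  set a := v / n with hadef
  set b := v % n with hbdef
  have hab : v = a * n + b := (Nat.div_add_mod' v n).symm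
  have hbn : b < n := Nat.mod_lt v hn0
  have ha2 : 1 ≤ a := Nat.one_le_div_iff hn0 |>.mpr (by omega)
  have hρab : ρ = ((p : ℝ)⁻¹) ^ a * q ^ b := by
    rw [hρA, hv, zpow_natCast, hab, pow_add, mul_comm a n, pow_mul, u.pow_eq]
  -- the perturbed polynomial
  have hpint : (p : QBar) ∈ intI p := ⟨fun g _ => map_natCast g p, nrm_natCast_le_one p p⟩
  set G := u.poly
  set G' : (intI p)[X] := G + C (⟨_, hpint⟩ ^ a) * X ^ b
  have hGdeg : G.natDegree = n := u.natDegree_poly
  have hpert : (C ((⟨_, hpint⟩ : intI p) ^ a) * X ^ b).degree < G.degree := by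
    rw [degree_eq_natDegree u.monic_poly.ne_zero, hGdeg]
    exact (degree_C_mul_X_pow_le _ _).trans_lt (by exact_mod_cast hbn)
  have hG'mon : G'.Monic := u.monic_poly.add_of_left hpert
  have hG'deg : G'.natDegree = n := by
    rw [natDegree_eq_of_degree_eq (degree_add_eq_left_of_degree_lt hpert), hGdeg]
  obtain ⟨x, hx⟩ : ∃ x : QBar, aeval x G' = 0 := by
    refine IsAlgClosed.exists_aeval_eq_zero_of_injective QBar Subtype.val_injective G' ?_
    rw [degree_eq_natDegree hG'mon.ne_zero, hG'deg]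
    exact_mod_cast hn0.ne'
  have hGx : ∀ z : QBar, aeval z G' = aeval z G + (p : QBar) ^ a * z ^ b := fun z => by
    show aeval z (G + C (⟨_, hpint⟩ ^ a) * X ^ b) = _
    rw [map_add, map_mul, aeval_C, aeval_X_pow, map_pow]
    rfl
  -- its root has the absolute value of `π`
  have hxq : nrm p x = q := nrm_root_aux u ha2 hbn hρab hρp hGx hx
  have hxG : nrm p (aeval x G) = ρ := by
    rw [eq_neg_of_add_eq_zero_left ((hGx x).symm.trans hx), nrm_neg, nrm_mul, nrm_pow, nrm_pow,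
      nrm_natCast_self, hxq, hρab]
  have hπG : aeval π G = 0 := by rw [u.aeval_poly, eval_orbPoly]
  have htrans : ∀ P : (intI p)[X], nrm p (aeval π P) ≤ ρ → nrm p (aeval x P) ≤ ρ := fun P hP => by
    refine (u.transfer P hxq rfl).trans (max_le hP (max_le hxG.le ?_))
    rw [hπG, nrm_zero]; exact hρ0.le
  have htrans' : ∀ (P : (intI p)[X]) (c : ℝ), ρ ≤ c → nrm p (aeval x P) ≤ c →
      nrm p (aeval π P) ≤ c := fun P c hc hP => by
    refine (u.transfer P rfl hxq).trans (max_le hP (max_le ?_ (hxG.le.trans hc)))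
    rw [hπG, nrm_zero]; exact hρ0.le.trans hc
  have hx1 : nrm p x ≤ 1 := hxq.le.trans u.lt_one.le
  -- approximate points
  choose P hP using fun (i : Module.Free.ChooseBasisIndex (Zl p) O.H) (m : M) =>
    u.exists_approx (y := ((O.basis i : O.H) : M → QBar) m)
      (fun g hg => fixed_apply_of_mem_fixM O hg.1 (O.basis i).2 m)
      (nrm_apply_le_one O (O.basis i).2 m) hρ0
  let φ : M → (O.H →ₗ[Zl p] QBar) := fun m => O.basis.constr (Zl p) fun i => aeval x (P i m)
  have hkey : ∀ (m : M) (h : M → QBar) (hh : h ∈ O.H), ∃ Q : (intI p)[X],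
      nrm p (h m - aeval π Q) ≤ ρ ∧ φ m ⟨h, hh⟩ = aeval x Q := by
    intro m h hh
    refine ⟨∑ i, C (zlInt p (O.basis.repr ⟨h, hh⟩ i)) * P i m, ?_, ?_⟩
    · have := congrArg (fun g : O.H => (g : M → QBar) m) (O.basis.sum_repr ⟨h, hh⟩)
      simp only [AddSubmonoidClass.coe_finsetSum, Finset.sum_apply, SetLike.val_smul,
        Pi.smul_apply, zl_smul] at this
      rw [← this, map_sum, ← Finset.sum_sub_distrib]
      refine nrm_sum_le p _ _ hρ0.le fun i _ => ?_
      rw [map_mul, aeval_C, show algebraMap (intI p) QBar (zlInt p (O.basis.repr ⟨h, hh⟩ i)) =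
        (((O.basis.repr ⟨h, hh⟩ i : Zl p) : ℚ) : QBar) from coe_zlInt _, ← mul_sub, nrm_mul]
      exact (mul_le_of_le_one_left (nrm_nonneg p _) (nrm_zl_le_one p _)).trans (hP i m)
    · simp only [φ, Module.Basis.constr_apply_fintype, Module.Basis.equivFun_apply, zl_smul,
        map_sum, map_mul, aeval_C]
      refine Finset.sum_congr rfl fun i _ => ?_
      rw [show algebraMap (intI p) QBar (zlInt p (O.basis.repr ⟨h, hh⟩ i)) =
        (((O.basis.repr ⟨h, hh⟩ i : Zl p) : ℚ) : QBar) from coe_zlInt _]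
  have hlift : ∀ m : M, ∃ m' : M, ∀ h ∈ O.H, ∃ Q : (intI p)[X],
      nrm p (h m - aeval π Q) ≤ ρ ∧ nrm p (h m' - aeval x Q) ≤ (p : ℝ) * ρ := by
    intro m
    obtain ⟨U, hU⟩ := exists_measure O (φ m)
    have hU1 : Le O U 1 := fun h hh => by
      obtain ⟨Q, -, hQ⟩ := hkey m h hh
      rw [hU h hh, hQ]
      exact nrm_aeval_le_one Q hx1
    have hD : Defect O U ρ := fun a ha b hb => by
      obtain ⟨Qa, hQa, hQa'⟩ := hkey m a ha
      obtain ⟨Qb, hQb, hQb'⟩ := hkey m b hb
      obtain ⟨Q, hQ, hQ'⟩ := hkey m (a * b) (O.H.mul_mem ha hb)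
      rw [hU _ ha, hU _ hb, hU _ (O.H.mul_mem ha hb), hQ', hQa', hQb', ← map_mul, ← map_sub]
      refine htrans _ ?_
      rw [map_sub, map_mul, show aeval π Q - aeval π Qa * aeval π Qb =
        -((a * b) m - aeval π Q) + ((a m - aeval π Qa) * b m +
          aeval π Qa * (b m - aeval π Qb)) by rw [Pi.mul_apply]; ring]
      refine nrm_add_le_of_le p ((nrm_neg p _).trans_le hQ) (nrm_add_le_of_le p ?_ ?_) <;>
        rw [nrm_mul]
      · exact (mul_le_of_le_one_right (nrm_nonneg p _) (nrm_apply_le_one O hb m)).trans hQa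
      · exact (mul_le_of_le_one_left (nrm_nonneg p _)
          (nrm_aeval_le_one Qa u.lt_one.le)).trans hQb
    have h1 : nrm p (ev 1 U - 1) ≤ ρ := by
      obtain ⟨Q, hQ, hQ'⟩ := hkey m 1 O.H.one_mem
      rw [hU 1 O.H.one_mem, hQ', ← map_one (aeval (R := intI p) x), ← map_sub]
      refine htrans _ ?_
      rw [map_sub, map_one, nrm_sub_comm]
      exact hQ
    obtain ⟨m', hm'⟩ := exists_point_near hkill hU1 hD h1 hρ0 hlt
    refine ⟨m', fun h hh => ?_⟩
    obtain ⟨Q, hQ, hQ'⟩ := hkey m h hh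
    exact ⟨Q, hQ, by rw [← hQ', ← hU h hh]; exact hm' h hh⟩
  choose F hF using hlift
  have hρr : ρ ≤ (p : ℝ) * ρ := le_mul_of_one_le_left hρ0.le (one_lt_cast p).le
  have hFinj : Function.Injective F := fun m₁ m₂ h12 => eq_of_near hkill hlt fun h hh => by
    obtain ⟨Q₁, hQ₁, hQ₁'⟩ := hF m₁ h hh
    obtain ⟨Q₂, hQ₂, hQ₂'⟩ := hF m₂ h hh
    rw [h12] at hQ₁'
    rw [show h m₁ - h m₂ = (h m₁ - aeval π Q₁) + (aeval π (Q₁ - Q₂) - (h m₂ - aeval π Q₂)) by
      rw [map_sub]; ring]
    refine nrm_add_le_of_le p (hQ₁.trans hρr) (nrm_sub_le_of_le p ?_ (hQ₂.trans hρr))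
    refine htrans' _ _ hρr ?_
    rw [map_sub, show aeval x Q₁ - aeval x Q₂ =
      (h (F m₂) - aeval x Q₂) - (h (F m₂) - aeval x Q₁) by ring]
    exact nrm_sub_le_of_le p hQ₂' hQ₁'
  have hFsurj := Finite.surjective_of_injective hFinj
  -- the stabiliser of the new root lies in `H`
  have hstab : fixer p x ≤ H := by
    intro τ hτ
    obtain ⟨hτI, hτx⟩ := (mem_fixer p).mp hτ
    refine ⟨(mem_fixM p M).mpr ⟨hτI, fun m' => ?_⟩, (mem_fixer p).mpr ⟨hτI, ?_⟩⟩
    · obtain ⟨m, rfl⟩ := hFsurj m'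
      refine eq_of_near (O := O) hkill hlt fun h hh => ?_
      obtain ⟨Q, -, hQ⟩ := hF m h hh
      rw [O.equivariant h hh, show τ (h (F m)) - h (F m) =
        τ (h (F m) - aeval x Q) - (h (F m) - aeval x Q) by
          rw [map_sub, map_aeval_intI hτI, hτx]; ring]
      exact nrm_sub_le_of_le p ((nrm_map_of_mem_inG p hτI _).trans_le hQ) hQ
    · obtain ⟨Q, hQ⟩ := u.exists_approx (y := π₀)
        (fun g hg => ((mem_fixer p).mp hg.2).2) (by
          rw [← pow_le_one_iff_of_nonneg (nrm_nonneg p π₀) he.ne', ← nrm_pow, hπ₀]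
          exact nrm_natCast_le_one p p) hρ0
      have hQe : nrm p (aeval x Q ^ e - (p : QBar)) ≤ ρ := by
        rw [← map_pow, show (p : QBar) = aeval x (C (⟨_, hpint⟩ : intI p)) by rw [aeval_C]; rfl,
          ← map_sub]
        refine htrans _ ?_
        rw [map_sub, map_pow, aeval_C, show algebraMap (intI p) QBar ⟨_, hpint⟩ = (p : QBar) from
          rfl, ← hπ₀, nrm_sub_comm]
        obtain ⟨c, hc⟩ := sub_dvd_pow_sub_pow π₀ (aeval π Q) e
        rw [← geom_sum₂_mul, nrm_mul]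
        refine (mul_le_of_le_one_left (nrm_nonneg p _)
          (nrm_sum_le p _ _ zero_le_one fun i _ => ?_)).trans hQ
        rw [nrm_mul, nrm_pow, nrm_pow]
        refine mul_le_one₀ (pow_le_one₀ (nrm_nonneg p _) ?_) (pow_nonneg (nrm_nonneg p _) _)
          (pow_le_one₀ (nrm_nonneg p _) (nrm_aeval_le_one Q u.lt_one.le))
        rw [← pow_le_one_iff_of_nonneg (nrm_nonneg p π₀) he.ne', ← nrm_pow, hπ₀]
        exact nrm_natCast_le_one p p
      obtain ⟨ζ, hζ, hnear⟩ := exists_near_root he hpe hπ₀ (hQe.trans_lt hρp)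
      have hζτ := inG_fix_root p hτI hζ hpe
      have hτnear : nrm p (aeval x Q - ζ * τ π₀) < nrm p π₀ := by
        rw [show aeval x Q - ζ * τ π₀ = τ (aeval x Q - ζ * π₀) by
          rw [map_sub, map_mul, map_aeval_intI hτI, hτx, hζτ], nrm_map_of_mem_inG p hτI]
        exact hnear
      have h3 := nrm_sub_lt_of_lt p hτnear hnear
      rw [sub_sub_sub_cancel_left, ← mul_sub, nrm_mul, nrm_root p he hζ, one_mul] at h3
      have hπ0 : π₀ ≠ 0 := fun h0 => hp.out.ne_zero (by
        have := hπ₀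
        rw [h0, zero_pow he.ne'] at this
        exact_mod_cast this.symm)
      have h4 := root_eq_one_of_sub_one_mem_nonunits (Local.padicPlace_liesOverPrime p) hp.out
        (m := e) (ζ := τ π₀ / π₀) (by
          rw [div_pow, ← map_pow, hπ₀, map_natCast,
            div_self (Nat.cast_ne_zero.mpr hp.out.ne_zero)]) hpe
        ((mem_nonunits_iff p).mpr (by
          rw [div_sub_one hπ0, nrm_div, nrm_sub_comm, div_lt_one (nrm_pos p hπ0)]
          exact h3))
      exact (div_eq_one_iff_eq hπ0).mp h4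
  have hcard : (orb p x).card ≤ n := by
    refine (Finset.card_le_card (t := (G'.aroots QBar).toFinset) fun y hy => ?_).trans
      ((Multiset.toFinset_card_le _).trans ((card_roots' _).trans ?_))
    · obtain ⟨g, hg, rfl⟩ := mem_orb.mp hy
      rw [Multiset.mem_toFinset, mem_aroots]
      exact ⟨hG'mon.ne_zero, by rw [← map_aeval_intI hg, hx, map_zero]⟩
    · rw [Polynomial.natDegree_map_eq_of_injective Subtype.val_injective, hG'deg]
  have hxfix : ∀ g ∈ H, g x = x := by
    have hmul := Subgroup.relIndex_mul_relIndex (fixer p x) H (inG p) hstab u.level.le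
    rw [card_orb] at hcard
    have h1 : (fixer p x).relIndex H = 1 := by
      have hne0 : (fixer p x).relIndex H ≠ 0 := fun h0 => by
        rw [h0, zero_mul] at hmul
        exact (isLevel_fixer x).relIndex_ne_zero hmul.symm
      by_contra hne1
      have : 2 * n ≤ (fixer p x).relIndex H * n :=
        Nat.mul_le_mul_right n (by omega)
      rw [hmul] at this
      omega
    exact fun g hg => ((mem_fixer p).mp (Subgroup.relIndex_eq_one.mp h1 hg)).2
  exact final_aux u hne (fun g hg r hr => by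
    obtain ⟨h, hh, rfl⟩ := mem_orb.mp hr
    exact conj_fixed_aux O he hpe hπ₀ rfl u hh hg) hxfix hxG

end Fermat.Agent.CFT.Flat
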