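import Fermat.Agent.CFT.Flat.Norm
import Fermat.Agent.CFT.Local.Unramified

/-!
# Ramification at `padicPlace p` in terms of subgroups of inertia of finite level
-/

set_option autoImplicit false
set_option linter.style.haveILetI false
set_option linter.unusedSectionVars false

noncomputable section

namespace Fermat.Agent.CFT.Flat

open Fermat.Agent.Arith Polynomial

variable (p : ℕ) [hp : Fact p.Prime]

/-- Elements of inertia fixing `x`. -/
def fixer (x : QBar) : Subgroup GQ := inG p ⊓ MulAction.stabilizer GQ x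

theorem mem_fixer {x : QBar} {g : GQ} : g ∈ fixer p x ↔ g ∈ inG p ∧ g x = x := by
  rw [fixer, Subgroup.mem_inf, MulAction.mem_stabilizer_iff]
  rfl

/-- A subgroup of inertia of finite level. -/
structure IsLevel (H : Subgroup GQ) : Prop where
  le : H ≤ inG p
  field : ∃ L : IntermediateField ℚ QBar, FiniteDimensional ℚ L ∧ inG p ⊓ L.fixingSubgroup ≤ H

variable {p}

theorem isLevel_inG : IsLevel p (inG p) := ⟨le_rfl, ⊥, inferInstance, inf_le_left⟩

theorem IsLevel.inf {H H' : Subgroup GQ} (h : IsLevel p H) (h' : IsLevel p H') :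
    IsLevel p (H ⊓ H') := by
  obtain ⟨L, hL, hle⟩ := h.field
  obtain ⟨L', hL', hle'⟩ := h'.field
  refine ⟨inf_le_of_left_le h.le, L ⊔ L', inferInstance, le_inf ?_ ?_⟩
  · exact (inf_le_inf_left _ (IntermediateField.fixingSubgroup_antitone le_sup_left)).trans hle
  · exact (inf_le_inf_left _ (IntermediateField.fixingSubgroup_antitone le_sup_right)).trans hle'

theorem IsLevel.of_le {H H' : Subgroup GQ} (h : IsLevel p H) (hle : H ≤ H')
    (hH' : H' ≤ inG p) : IsLevel p H' := by
  obtain ⟨L, hL, hL'⟩ := h.field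
  exact ⟨hH', L, hL, hL'.trans hle⟩

theorem isLevel_fixer (x : QBar) : IsLevel p (fixer p x) := by
  refine ⟨inf_le_left, IntermediateField.adjoin ℚ {x},
    IntermediateField.adjoin.finiteDimensional (Algebra.IsIntegral.isIntegral x), ?_⟩
  intro g hg
  exact (mem_fixer p).mpr ⟨hg.1, (IntermediateField.mem_fixingSubgroup_iff _ _).mp hg.2 x
    (IntermediateField.mem_adjoin_simple_self ℚ x)⟩

/-- A finite normal field of level at most `H` containing a given element. -/
theorem IsLevel.exists_field {H : Subgroup GQ} (h : IsLevel p H) (x : QBar) :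
    ∃ L : IntermediateField ℚ QBar, FiniteDimensional ℚ L ∧ Normal ℚ L ∧ x ∈ L ∧
      inG p ⊓ L.fixingSubgroup ≤ H := by
  obtain ⟨L, hL, hle⟩ := h.field
  haveI := IntermediateField.adjoin.finiteDimensional (K := ℚ)
    (Algebra.IsIntegral.isIntegral (R := ℚ) x)
  haveI : Normal ℚ QBar := IsAlgClosure.normal ℚ QBar
  set L' := L ⊔ IntermediateField.adjoin ℚ {x}
  refine ⟨IntermediateField.normalClosure ℚ L' QBar, inferInstance,
    normalClosure.normal ℚ L' QBar, ?_, ?_⟩
  · exact IntermediateField.le_normalClosure L' ((le_sup_right : _ ≤ L')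
      (IntermediateField.mem_adjoin_simple_self ℚ x))
  · exact (inf_le_inf_left _ (IntermediateField.fixingSubgroup_antitone
      ((le_sup_left : L ≤ L').trans (IntermediateField.le_normalClosure L')))).trans hle

section Local

variable (p) (L : IntermediateField ℚ QBar) [FiniteDimensional ℚ L] [Normal ℚ L]

theorem map_inG :
    (inG p).map (AlgEquiv.restrictNormalHom L) =
      (Local.inertia (Local.localField p L)).map (Local.toGlobal p L) := by
  ext g
  constructor
  · rintro ⟨h, hh, rfl⟩
    obtain ⟨σ, hσ, hσg⟩ := Local.exists_mem_inertia_of_inertia p L hh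
    exact ⟨σ, hσ, hσg⟩
  · rintro ⟨σ, hσ, rfl⟩
    obtain ⟨h, hh, hhg⟩ := Local.exists_inertia_of_mem_inertia p L hσ
    exact ⟨h, hh, hhg⟩

/-- The subgroup of local inertia attached to a subgroup of inertia. -/
def localGrp (H : Subgroup GQ) :
    Subgroup (Local.localField p L ≃ₐ[ℚ_[p]] Local.localField p L) :=
  (H.map (AlgEquiv.restrictNormalHom L)).comap (Local.toGlobal p L)

variable {H : Subgroup GQ} (hHI : H ≤ inG p) (hL : inG p ⊓ L.fixingSubgroup ≤ H)

include hHI in
theorem localGrp_le : localGrp p L H ≤ Local.inertia (Local.localField p L) := by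
  intro σ hσ
  have h1 : Local.toGlobal p L σ ∈ (inG p).map (AlgEquiv.restrictNormalHom L) :=
    Subgroup.map_mono hHI hσ
  rw [map_inG] at h1
  obtain ⟨σ', hσ', he⟩ := h1
  exact (Local.toGlobal_injective p L he) ▸ hσ'

include hHI hL in
theorem relIndex_localGrp :
    (localGrp p L H).relIndex (Local.inertia (Local.localField p L)) = H.relIndex (inG p) := by
  rw [localGrp, Subgroup.relIndex_comap, ← map_inG, ← Subgroup.relIndex_comap,
    ← Subgroup.inf_relIndex_right, ← Subgroup.inf_relIndex_right H (inG p)]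
  congr 1
  refine le_antisymm ?_ (inf_le_inf_right _ (Subgroup.le_comap_map _ _))
  rintro g ⟨⟨h, hh, hgh⟩, hg⟩
  refine ⟨?_, hg⟩
  have hk : h⁻¹ * g ∈ inG p ⊓ L.fixingSubgroup := by
    refine ⟨(inG p).mul_mem ((inG p).inv_mem (hHI hh)) hg, ?_⟩
    show h⁻¹ * g ∈ L.fixingSubgroup
    rw [IntermediateField.mem_fixingSubgroup_iff]
    intro x hx
    have hker : AlgEquiv.restrictNormalHom L (h⁻¹ * g) = 1 := by
      rw [map_mul, map_inv, hgh, inv_mul_cancel]
    have := AlgEquiv.restrictNormal_commutes (h⁻¹ * g) L ⟨x, hx⟩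
    rw [show (h⁻¹ * g).restrictNormal L = AlgEquiv.restrictNormalHom L (h⁻¹ * g) from rfl,
      hker] at this
    exact this.symm
  simpa using H.mul_mem hh (hL hk)

include hHI in
theorem card_localGrp_mul :
    Nat.card (localGrp p L H) *
      (localGrp p L H).relIndex (Local.inertia (Local.localField p L)) =
      Nat.card (Local.inertia (Local.localField p L)) := by
  rw [Subgroup.relIndex, ← Nat.card_congr (Subgroup.subgroupOfEquivOfLe
    (localGrp_le p L hHI)).toEquiv]
  exact Subgroup.card_mul_index _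

/-- The ramification index of a Galois completion is the order of inertia. -/
theorem finrank_localField :
    Module.finrank ℚ_[p] (Local.localField p L) =
      Local.resDeg (Local.localField p L) * Nat.card (Local.inertia (Local.localField p L)) := by
  set E := Local.localField p L
  haveI : IsGalois ℚ_[p] E := ⟨⟩
  set I := Local.inertia E
  haveI : Finite (E ≃ₐ[ℚ_[p]] E) := inferInstance
  have hfr : Module.finrank (ZMod p) (Local.ResField E) = Local.resDeg E := by
    have h := Module.natCard_eq_pow_finrank (K := ZMod p) (V := Local.ResField E)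
    rw [Local.card_resField, Nat.card_zmod] at h
    exact (Nat.pow_right_injective hp.out.two_le h).symm
  haveI : FiniteDimensional (ZMod p) (Local.ResField E) := Module.Finite.of_finite
  have hle : I.index ≤ Local.resDeg E := by
    rw [← hfr, ← IsGalois.card_aut_eq_finrank (ZMod p) (Local.ResField E)]
    exact Nat.card_le_card_of_injective (QuotientGroup.kerLift (Local.resAut E))
      (QuotientGroup.kerLift_injective _)
  have hG : Module.finrank ℚ_[p] E = Nat.card I * I.index := by
    rw [Subgroup.card_mul_index, IsGalois.card_aut_eq_finrank]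
  -- the inertia field is unramified
  have hfI := Local.resDeg_fixedIn_of_le I le_rfl
  have hmul := Local.finrank_fixedIn_mul I
  rw [hG, mul_comm (Nat.card I)] at hmul
  have hfix : Module.finrank ℚ_[p] (Local.fixedIn I) = I.index :=
    mul_right_cancel₀ Nat.card_pos.ne' hmul
  have hge : Local.resDeg E ≤ I.index := by
    set K := Local.fixedIn I
    have hp0 : (p : K) ≠ 0 := Nat.cast_ne_zero.mpr hp.out.ne_zero
    have h1 : Local.ordQFun K (Units.mk0 (p : K) hp0) = (Module.finrank ℚ_[p] K : ℤ) :=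
      congrArg Multiplicative.toAdd (Local.ordQ_natCast_self K)
    rw [Local.ordQFun_eq, hfI] at h1
    have hdvd : (Local.resDeg E : ℤ) ∣ (Module.finrank ℚ_[p] K : ℤ) := ⟨_, h1.symm⟩
    rw [← hfix]
    exact Nat.le_of_dvd Module.finrank_pos (Int.natCast_dvd_natCast.mp hdvd)
  rw [hG, le_antisymm hle hge, mul_comm]

/-- Absolute values of elements of a given order. -/
theorem norm_pow_relIndex {n : ℕ} (hn : Nat.card (localGrp p L H) * n =
      Nat.card (Local.inertia (Local.localField p L)))
    (y : (Local.localField p L)ˣ) {k : ℤ}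
    (hk : Local.ordZ _ y = Nat.card (localGrp p L H) * k) :
    ‖(y : Local.localField p L)‖ ^ n = ((p : ℝ)⁻¹) ^ k := by
  have hd := finrank_localField p L
  have hnorm := Local.norm_pow_eq_ordZ (Local.localField p L) y
  rw [hd, hk] at hnorm
  set f := Local.resDeg (Local.localField p L)
  set c := Nat.card (localGrp p L H)
  have hp0 : (0 : ℝ) < p := zero_lt_one.trans (one_lt_cast p)
  refine (pow_left_inj₀ (pow_nonneg (norm_nonneg _) n) (zpow_nonneg (inv_cast_pos p).le k)
    (Nat.mul_ne_zero (Local.resDeg_pos (Local.localField p L)).ne' (Nat.card_pos (α := localGrp p L H)).ne')).mp ?_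
  rw [← pow_mul, show n * (f * c) = f * (c * n) by ring, hn, hnorm, inv_zpow', ← zpow_natCast,
    ← zpow_mul]
  congr 1
  push_cast
  ring

end Local

/-- Values of elements fixed by a subgroup of index `n` in inertia. -/
theorem IsLevel.nrm_pow_relIndex {H : Subgroup GQ} (h : IsLevel p H) {x : QBar} (hx : x ≠ 0)
    (hfix : ∀ g ∈ H, g x = x) : ∃ k : ℤ, nrm p x ^ H.relIndex (inG p) = ((p : ℝ)⁻¹) ^ k := by
  obtain ⟨L, hLf, hLn, hxL, hle⟩ := h.exists_field x
  obtain ⟨y, hy⟩ : ∃ y : (Local.localField p L)ˣ,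
      (y : Local.localField p L) = Local.localEmb p L ⟨x, hxL⟩ :=
    ⟨Units.mk0 _ ((_root_.map_ne_zero _).mpr fun h0 => hx (congrArg Subtype.val h0)), rfl⟩
  have hyfix : y ∈ Local.fixedUnits (localGrp p L H) := by
    rintro ⟨σ, g, hg, hgσ⟩
    refine Units.ext ?_
    show σ (y : Local.localField p L) = (y : Local.localField p L)
    rw [hy, ← Local.localEmb_toGlobal, ← hgσ]
    congr 1
    exact Subtype.ext ((AlgEquiv.restrictNormal_commutes g L ⟨x, hxL⟩).trans (hfix g hg))
  obtain ⟨k, hk⟩ := Local.card_inf_inertia_dvd_ordZ (H := localGrp p L H) hyfix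
  rw [inf_eq_left.mpr (localGrp_le p L h.le)] at hk
  refine ⟨k, ?_⟩
  have hn := card_localGrp_mul p L h.le
  rw [relIndex_localGrp p L h.le hle] at hn
  have hnorm := norm_pow_relIndex p L hn y hk
  rwa [hy, Local.norm_localEmb] at hnorm

theorem IsLevel.relIndex_ne_zero {H : Subgroup GQ} (h : IsLevel p H) :
    H.relIndex (inG p) ≠ 0 := by
  obtain ⟨L, hLf, hLn, -, hle⟩ := h.exists_field 0
  intro h0
  have hn := card_localGrp_mul p L h.le
  rw [relIndex_localGrp p L h.le hle, h0, mul_zero] at hn
  exact Nat.card_pos.ne hn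

/-- Uniformisers. -/
theorem IsLevel.exists_uniformizer {H : Subgroup GQ} (h : IsLevel p H) :
    ∃ π : QBar, (∀ g ∈ H, g π = π) ∧ nrm p π ^ H.relIndex (inG p) = (p : ℝ)⁻¹ := by
  obtain ⟨L, hLf, hLn, -, hle⟩ := h.exists_field 0
  set E := Local.localField p L
  set He := localGrp p L H
  set K := Local.fixedIn He
  haveI : IsGalois ℚ L := ⟨⟩
  haveI : IsGalois ℚ_[p] E := ⟨⟩
  -- a uniformiser of the fixed field
  obtain ⟨π₁, hπ₁⟩ := Local.ord_surjective K (Multiplicative.ofAdd 1)
  have hord : Local.ordZ E (Units.map (Local.fixedIncl He).toRingHom.toMonoidHom π₁) =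
      Nat.card He * 1 := by
    have h1 := Local.resDeg_mul_ordZ_fixedIn He π₁
    rw [Local.resDeg_fixedIn_of_le He (localGrp_le p L h.le),
      show Local.ordZ K π₁ = 1 by rw [Local.ordZ, hπ₁]; rfl] at h1
    refine mul_left_cancel₀ (Int.natCast_ne_zero.mpr (Local.resDeg_pos E).ne') (h1.trans ?_)
    ring
  have hn := card_localGrp_mul p L h.le
  rw [relIndex_localGrp p L h.le hle] at hn
  have hnorm := norm_pow_relIndex p L hn _ hord
  rw [zpow_one] at hnorm
  change ‖(π₁ : K)‖ ^ _ = _ at hnorm
  -- approximate it in the fixed field of `H` in `L`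
  set Hb := H.map (AlgEquiv.restrictNormalHom L)
  set L₂ := IntermediateField.lift (IntermediateField.fixedField Hb)
  haveI : FiniteDimensional ℚ L₂ :=
    (IntermediateField.liftAlgEquiv (IntermediateField.fixedField Hb)).toLinearEquiv.finiteDimensional
  have hmem : ((π₁ : K) : PadicAlgCl p) ∈ Local.localField p L₂ := by
    let K₂ : IntermediateField ℚ_[p] E :=
      IntermediateField.restrict (Local.localField_mono p (IntermediateField.lift_le _) :
        Local.localField p L₂ ≤ E)
    have hfixle : K₂.fixingSubgroup ≤ He := by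
      intro σ hσ
      rw [IntermediateField.mem_fixingSubgroup_iff] at hσ
      show Local.toGlobal p L σ ∈ Hb
      rw [← IntermediateField.fixingSubgroup_fixedField Hb, IntermediateField.mem_fixingSubgroup_iff]
      intro z hz
      apply (Local.localEmb p L).injective
      rw [Local.localEmb_toGlobal]
      refine hσ _ ((IntermediateField.mem_restrict _ _).mpr ?_)
      exact Local.padicEmbedding_mem_localField p L₂
        ⟨(z : QBar), (IntermediateField.mem_lift z).mpr hz⟩
    have hK₂ : IntermediateField.fixedField He ≤ K₂ := by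
      rw [← IsGalois.fixedField_fixingSubgroup K₂]
      exact IntermediateField.fixedField_antitone hfixle
    have h2 : Local.fixedIncl He (π₁ : K) ∈ IntermediateField.fixedField He := by
      rw [IntermediateField.mem_fixedField_iff]
      exact fun σ hσ => Local.fixedIncl_fixed He _ hσ
    exact (IntermediateField.mem_restrict _ (Local.fixedIncl He (π₁ : K))).mp (hK₂ h2)
  have hpos : 0 < ‖((π₁ : K) : PadicAlgCl p)‖ :=
    norm_pos_iff.mpr fun h0 => π₁.ne_zero (Subtype.ext h0)
  obtain ⟨y, hy⟩ := Local.localEmb_dense p L₂ ⟨_, hmem⟩ hpos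
  refine ⟨(y : QBar), fun g hg => ?_, ?_⟩
  · obtain ⟨z, hz, hzy⟩ := y.2
    rw [← hzy]
    have := AlgEquiv.restrictNormal_commutes g L z
    refine this.symm.trans ?_
    exact congrArg Subtype.val
      ((IntermediateField.mem_fixedField_iff _ _).mp hz _ ⟨g, hg, rfl⟩)
  · have h2 : nrm p (y : QBar) = ‖((π₁ : K) : PadicAlgCl p)‖ := by
      have hlt : ‖((π₁ : K) : PadicAlgCl p) - padicEmbedding p (y : QBar)‖ <
          ‖((π₁ : K) : PadicAlgCl p)‖ := hy
      rw [nrm, show padicEmbedding p (y : QBar) = ((π₁ : K) : PadicAlgCl p) +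
        -(((π₁ : K) : PadicAlgCl p) - padicEmbedding p (y : QBar)) by ring,
        IsUltrametricDist.norm_add_eq_max_of_norm_ne_norm (by rw [norm_neg]; exact hlt.ne'),
        norm_neg, max_eq_left hlt.le]
    rw [h2]
    exact hnorm

/-! ### Orbits under inertia -/

variable (p) in
/-- The conjugates of `x` under inertia. -/
def orb (x : QBar) : Finset QBar :=
  Set.Finite.toFinset (s := MulAction.orbit (inG p) x) (by
    refine ((minpoly ℚ x).rootSet_finite QBar).subset ?_
    rintro _ ⟨g, rfl⟩
    rw [Polynomial.mem_rootSet]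
    refine ⟨minpoly.ne_zero (Algebra.IsIntegral.isIntegral x), ?_⟩
    show Polynomial.aeval (((g : GQ) : QBar →ₐ[ℚ] QBar) x) (minpoly ℚ x) = 0
    rw [Polynomial.aeval_algHom_apply, minpoly.aeval, map_zero])

theorem mem_orb {x y : QBar} : y ∈ orb p x ↔ ∃ g ∈ inG p, g x = y := by
  rw [orb, Set.Finite.mem_toFinset]
  constructor
  · rintro ⟨⟨g, hg⟩, rfl⟩; exact ⟨g, hg, rfl⟩
  · rintro ⟨g, hg, rfl⟩; exact ⟨⟨g, hg⟩, rfl⟩

theorem self_mem_orb (x : QBar) : x ∈ orb p x :=
  mem_orb.mpr ⟨1, one_mem _, rfl⟩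

theorem card_orb (x : QBar) : (orb p x).card = (fixer p x).relIndex (inG p) := by
  rw [orb, ← Set.ncard_eq_toFinset_card _ _, Subgroup.relIndex, ← MulAction.index_stabilizer]
  congr 1
  ext g
  rw [MulAction.mem_stabilizer_iff, Subgroup.mem_subgroupOf, mem_fixer]
  exact ⟨fun h => ⟨g.2, h⟩, fun h => h.2⟩

theorem map_mem_orb {x y : QBar} (hy : y ∈ orb p x) {g : GQ} (hg : g ∈ inG p) :
    g y ∈ orb p x := by
  obtain ⟨h, hh, rfl⟩ := mem_orb.mp hy
  exact mem_orb.mpr ⟨g * h, (inG p).mul_mem hg hh, rfl⟩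

theorem image_orb (x : QBar) {g : GQ} (hg : g ∈ inG p) : (orb p x).image g = orb p x := by
  ext y
  rw [Finset.mem_image]
  constructor
  · rintro ⟨z, hz, rfl⟩; exact map_mem_orb hz hg
  · intro hy
    refine ⟨g⁻¹ y, map_mem_orb hy ((inG p).inv_mem hg), ?_⟩
    rw [← AlgEquiv.mul_apply, mul_inv_cancel, AlgEquiv.one_apply]

theorem nrm_of_mem_orb {x y : QBar} (hy : y ∈ orb p x) : nrm p y = nrm p x := by
  obtain ⟨g, hg, rfl⟩ := mem_orb.mp hy
  exact nrm_map_of_mem_inG p hg x

/-- The product of `X - r` over the conjugates under inertia. -/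
def orbPoly (x : QBar) : QBar[X] := ∏ r ∈ orb p x, (X - C r)

theorem monic_orbPoly (x : QBar) : (orbPoly (p := p) x).Monic :=
  monic_prod_of_monic _ _ fun r _ => monic_X_sub_C r

theorem natDegree_orbPoly (x : QBar) : (orbPoly (p := p) x).natDegree = (orb p x).card := by
  rw [orbPoly, natDegree_prod_of_monic _ _ fun r _ => monic_X_sub_C r]
  simp

theorem eval_orbPoly (x : QBar) : (orbPoly (p := p) x).eval x = 0 := by
  rw [orbPoly, eval_prod]
  exact Finset.prod_eq_zero (self_mem_orb x) (by simp)

theorem map_orbPoly (x : QBar) {g : GQ} (hg : g ∈ inG p) :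
    (orbPoly (p := p) x).map (g : QBar →+* QBar) = orbPoly (p := p) x := by
  classical
  rw [orbPoly, Polynomial.map_prod]
  simp only [Polynomial.map_sub, map_X, map_C]
  conv_rhs => rw [← image_orb x hg]
  rw [Finset.prod_image fun a _ b _ h => g.injective h]
  rfl

theorem coeff_orbPoly_fixed (x : QBar) {g : GQ} (hg : g ∈ inG p) (i : ℕ) :
    g ((orbPoly (p := p) x).coeff i) = (orbPoly (p := p) x).coeff i := by
  conv_rhs => rw [← map_orbPoly x hg]
  rw [coeff_map]
  rfl

theorem nrm_coeff_prod_X_sub_C {s : Finset QBar} (hs : ∀ r ∈ s, nrm p r < 1) :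
    ∀ i, i < s.card → nrm p ((∏ r ∈ s, (X - C r)).coeff i) < 1 := by
  classical
  induction s using Finset.induction_on with
  | empty => simp
  | insert a s ha ih =>
    have ih' := ih fun r hr => hs r (Finset.mem_insert_of_mem hr)
    have hdeg : (∏ r ∈ s, (X - C r)).natDegree = s.card := by
      rw [natDegree_prod_of_monic _ _ fun r _ => monic_X_sub_C r]; simp
    have hmon : (∏ r ∈ s, (X - C r)).Monic := monic_prod_of_monic _ _ fun r _ => monic_X_sub_C r
    have hall : ∀ i, nrm p ((∏ r ∈ s, (X - C r)).coeff i) ≤ 1 := by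
      intro i
      rcases lt_trichotomy i s.card with h | h | h
      · exact (ih' i h).le
      · rw [h, ← hdeg, hmon.coeff_natDegree, nrm_one]
      · rw [coeff_eq_zero_of_natDegree_lt (hdeg.symm ▸ h), nrm_zero]
        exact zero_le_one
    intro i hi
    rw [Finset.prod_insert ha, sub_mul, coeff_sub, coeff_C_mul]
    refine nrm_sub_lt_of_lt p ?_ ?_
    · cases i with
      | zero => simp
      | succ i =>
        rw [coeff_X_mul]
        exact ih' i (by rw [Finset.card_insert_of_notMem ha] at hi; omega)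
    · rw [nrm_mul]
      exact (mul_le_of_le_one_right (nrm_nonneg p _) (hall i)).trans_lt
        (hs a (Finset.mem_insert_self a s))

/-- Elements fixed by inertia with absolute value below one are divisible by `p`. -/
theorem nrm_le_inv_of_fixed {x : QBar} (hfix : ∀ g ∈ inG p, g x = x) (hx : nrm p x < 1) :
    nrm p x ≤ (p : ℝ)⁻¹ := by
  rcases eq_or_ne x 0 with rfl | h0
  · rw [nrm_zero]; exact (inv_cast_pos p).le
  obtain ⟨k, hk⟩ := isLevel_inG.nrm_pow_relIndex h0 hfix
  rw [Subgroup.relIndex_self, pow_one] at hk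
  have hk1 : 1 ≤ k := by
    by_contra hcon
    rw [not_le, Int.lt_iff_add_one_le, ← le_sub_iff_add_le, sub_self] at hcon
    rw [hk] at hx
    exact absurd hx (not_lt.mpr (one_le_zpow_of_nonpos₀ (inv_cast_pos p)
      (inv_cast_lt_one p).le hcon))
  rw [hk]
  exact (zpow_le_zpow_right_of_le_one₀ (inv_cast_pos p) (inv_cast_lt_one p).le hk1).trans
    (zpow_one _).le

theorem nrm_coeff_orbPoly_le {x : QBar} (hx : nrm p x < 1) {i : ℕ} (hi : i < (orb p x).card) :
    nrm p ((orbPoly (p := p) x).coeff i) ≤ (p : ℝ)⁻¹ :=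
  nrm_le_inv_of_fixed (fun _ hg => coeff_orbPoly_fixed x hg i)
    (nrm_coeff_prod_X_sub_C (fun _r hr => (nrm_of_mem_orb hr).trans_lt hx) i hi)

end Fermat.Agent.CFT.Flat
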