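import Fermat.Agent.CFT.Flat.Norm

/-!
# Measures integral on a Galois order

For a Galois order `O` on a finite module `M` killed by `p`, elements of the group algebra
`ℚ̄[M]` are paired with the functions of the order.  Congruence and lifting of points follow from
extracting `p`-th roots of unity in this algebra.
-/

set_option autoImplicit false
set_option linter.style.haveILetI false
set_option linter.unusedSectionVars false

noncomputable section

namespace Fermat.Agent.CFT.Flat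

open Fermat.Agent.Arith Fermat.Agent.FiniteFlat AddMonoidAlgebra
open scoped AddMonoidAlgebra

variable {M : Type} [AddCommGroup M] [Fintype M]

/-- The pairing of a measure with a function. -/
def ev (h : M → QBar) : QBar[M] →ₗ[QBar] QBar where
  toFun μ := ∑ m, μ.coeff m * h m
  map_add' μ ν := by simp [add_mul, Finset.sum_add_distrib]
  map_smul' c μ := by simp [Finset.mul_sum, mul_assoc]

theorem ev_apply (h : M → QBar) (μ : QBar[M]) : ev h μ = ∑ m, μ.coeff m * h m := rfl

@[simp]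
theorem ev_single (h : M → QBar) (m : M) (c : QBar) :
    ev h (AddMonoidAlgebra.single m c) = c * h m := by
  classical
  rw [ev_apply, Finset.sum_eq_single m] <;> simp +contextual [Finsupp.single_eq_of_ne]

theorem ev_one (h : M → QBar) : ev h (1 : QBar[M]) = h 0 := by
  rw [AddMonoidAlgebra.one_def, ev_single, one_mul]

theorem ev_add_fun (h h' : M → QBar) (μ : QBar[M]) : ev (h + h') μ = ev h μ + ev h' μ := by
  simp [ev_apply, mul_add, Finset.sum_add_distrib]

theorem ev_smul_fun (c : QBar) (h : M → QBar) (μ : QBar[M]) : ev (c • h) μ = c * ev h μ := by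
  simp [ev_apply, Finset.mul_sum, mul_left_comm]

theorem ev_sum_fun {ι : Type*} (s : Finset ι) (h : ι → M → QBar) (μ : QBar[M]) :
    ev (∑ i ∈ s, h i) μ = ∑ i ∈ s, ev (h i) μ := by
  simp only [ev_apply, Finset.sum_apply, Finset.mul_sum]
  exact Finset.sum_comm

theorem ev_zero_fun (μ : QBar[M]) : ev (0 : M → QBar) μ = 0 := by simp [ev_apply]

theorem ev_mul {n : ℕ} {h : M → QBar} {a b : Fin n → M → QBar}
    (hab : ∀ x y, h (x + y) = ∑ i, a i x * b i y) (μ ν : QBar[M]) :
    ev h (μ * ν) = ∑ i, ev (a i) μ * ev (b i) ν := by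
  induction μ using AddMonoidAlgebra.induction_linear with
  | zero => simp
  | add x y hx hy => simp [add_mul, hx, hy, Finset.sum_add_distrib]
  | single m c =>
    induction ν using AddMonoidAlgebra.induction_linear with
    | zero => simp
    | add x y hx hy => simp [mul_add, hx, hy, Finset.sum_add_distrib]
    | single m' c' =>
      simp only [single_mul_single, ev_single, hab, Finset.mul_sum]
      exact Finset.sum_congr rfl fun i _ => by ring

variable (p : ℕ) [hp : Fact p.Prime]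

theorem nrm_zl_le_one (c : Zl p) : nrm p ((c : ℚ) : QBar) ≤ 1 := by
  have hd : ¬ p ∣ (c : ℚ).den := (hp.out.coprime_iff_not_dvd).mp (Nat.Coprime.symm c.2)
  rw [Rat.cast_def, nrm_div, nrm_natCast_eq_one p hd, div_one]
  exact nrm_intCast_le_one p _

variable {p} [DistribMulAction GQ M] (O : GalOrder p M)

theorem nrm_apply_le_one {h : M → QBar} (hh : h ∈ O.H) (m : M) : nrm p (h m) ≤ 1 := by
  obtain ⟨P, hP, hev⟩ := ((Algebra.IsIntegral.isIntegral (⟨h, hh⟩ : O.H)).map
    ((Pi.evalAlgHom (Zl p) (fun _ : M => QBar) m).comp O.H.val) : IsIntegral (Zl p) (h m))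
  replace hev : Polynomial.eval₂ (algebraMap (Zl p) QBar) (h m) P = 0 := hev
  by_contra hlt
  rw [not_le] at hlt
  rw [Polynomial.eval₂_eq_sum_range, Finset.sum_range_succ, hP.coeff_natDegree, map_one,
    one_mul, add_eq_zero_iff_eq_neg'] at hev
  have h1 := congrArg (nrm p) hev
  rw [nrm_neg, nrm_pow] at h1
  rcases Nat.eq_zero_or_pos P.natDegree with h0 | h0
  · simp [h0] at h1
  have h2 : nrm p (h m) ^ P.natDegree ≤ nrm p (h m) ^ (P.natDegree - 1) := by
    rw [h1]
    refine nrm_sum_le p _ _ (pow_nonneg (nrm_nonneg p _) _) fun i hi => ?_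
    rw [nrm_mul, nrm_pow, IsScalarTower.algebraMap_apply (Zl p) ℚ QBar, eq_ratCast]
    calc _ ≤ 1 * nrm p (h m) ^ (P.natDegree - 1) := mul_le_mul (nrm_zl_le_one p _)
          (pow_le_pow_right₀ hlt.le (by have := Finset.mem_range.mp hi; omega))
          (pow_nonneg (nrm_nonneg p _) _) zero_le_one
      _ = _ := one_mul _
  exact absurd (pow_lt_pow_right₀ hlt (Nat.sub_lt h0 one_pos)) (not_lt.mpr h2)

/-- `μ` has absolute value at most `r` on the order. -/
def Le (μ : QBar[M]) (r : ℝ) : Prop := ∀ h ∈ O.H, nrm p (ev h μ) ≤ r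

variable {O}

theorem Le.mono {μ : QBar[M]} {r s : ℝ} (h : Le O μ r) (hrs : r ≤ s) : Le O μ s :=
  fun f hf => (h f hf).trans hrs

theorem Le.nonneg {μ : QBar[M]} {r : ℝ} (h : Le O μ r) : 0 ≤ r :=
  (nrm_nonneg p _).trans (h 1 O.H.one_mem)

theorem Le.add {μ ν : QBar[M]} {r : ℝ} (h : Le O μ r) (h' : Le O ν r) : Le O (μ + ν) r :=
  fun f hf => by rw [map_add]; exact nrm_add_le_of_le p (h f hf) (h' f hf)

theorem Le.sub {μ ν : QBar[M]} {r : ℝ} (h : Le O μ r) (h' : Le O ν r) : Le O (μ - ν) r :=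
  fun f hf => by rw [map_sub]; exact nrm_sub_le_of_le p (h f hf) (h' f hf)

theorem Le.neg {μ : QBar[M]} {r : ℝ} (h : Le O μ r) : Le O (-μ) r :=
  fun f hf => by rw [map_neg, nrm_neg]; exact h f hf

theorem le_zero_measure {r : ℝ} (hr : 0 ≤ r) : Le O (0 : QBar[M]) r :=
  fun f _ => by rw [map_zero, nrm_zero]; exact hr

theorem Le.sum {ι : Type*} (s : Finset ι) {μ : ι → QBar[M]} {r : ℝ} (hr : 0 ≤ r)
    (h : ∀ i ∈ s, Le O (μ i) r) : Le O (∑ i ∈ s, μ i) r :=
  Finset.sum_induction μ (fun x => Le O x r) (fun _ _ ha hb => ha.add hb)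
    (le_zero_measure hr) h

theorem Le.smul {μ : QBar[M]} {r s : ℝ} (h : Le O μ r) {c : QBar} (hc : nrm p c ≤ s) :
    Le O (c • μ) (s * r) := fun f hf => by
  rw [map_smul, smul_eq_mul, nrm_mul]
  exact mul_le_mul hc (h f hf) (nrm_nonneg p _) ((nrm_nonneg p c).trans hc)

theorem Le.mul {μ ν : QBar[M]} {r s : ℝ} (h : Le O μ r) (h' : Le O ν s) :
    Le O (μ * ν) (r * s) := fun f hf => by
  obtain ⟨n, a, b, ha, hb, hab⟩ := O.comul f hf
  rw [ev_mul hab]
  refine nrm_sum_le p _ _ (mul_nonneg h.nonneg h'.nonneg) fun i _ => ?_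
  rw [nrm_mul]
  exact mul_le_mul (h _ (ha i)) (h' _ (hb i)) (nrm_nonneg p _) h.nonneg

theorem le_single (m : M) : Le O (AddMonoidAlgebra.single m (1 : QBar)) 1 := fun f hf => by
  rw [ev_single, one_mul]
  exact nrm_apply_le_one O hf m

theorem le_one_measure : Le O (1 : QBar[M]) 1 := le_single 0

theorem Le.mul_le_left {μ ν : QBar[M]} {r : ℝ} (h : Le O μ 1) (h' : Le O ν r) :
    Le O (μ * ν) r := (h.mul h').mono (one_mul r).le

theorem Le.pow {μ : QBar[M]} {r : ℝ} (h : Le O μ r) : ∀ k : ℕ, Le O (μ ^ k) (r ^ k)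
  | 0 => by simpa using le_one_measure
  | k + 1 => by rw [pow_succ, pow_succ]; exact (Le.pow h k).mul h

theorem Le.pow_one' {μ : QBar[M]} (h : Le O μ 1) (k : ℕ) : Le O (μ ^ k) 1 :=
  (h.pow k).mono (one_pow k).le

variable (O)

/-- The smallest bound is attained. -/
theorem exists_least_bound (μ : QBar[M]) :
    ∃ r, Le O μ r ∧ ∀ s, Le O μ s → r ≤ s := by
  classical
  haveI : Nonempty (Module.Free.ChooseBasisIndex (Zl p) O.H) := by
    by_contra hne
    rw [not_nonempty_iff] at hne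
    have := O.card_basis
    rw [Nat.card_of_isEmpty] at this
    exact Nat.card_pos.ne this
  obtain ⟨j, hj⟩ := Finite.exists_max
    fun i => nrm p (ev ((O.basis i : O.H) : M → QBar) μ)
  refine ⟨_, fun h hh => ?_, fun s hs => hs _ (O.basis j).2⟩
  have := congrArg (fun g : O.H => (g : M → QBar)) (O.basis.sum_repr ⟨h, hh⟩)
  simp only [AddSubmonoidClass.coe_finsetSum, SetLike.val_smul] at this
  rw [← this, ev_sum_fun]
  refine nrm_sum_le p _ _ (nrm_nonneg p _) fun i _ => ?_
  rw [show ((O.basis.repr ⟨h, hh⟩ i) • ((O.basis i : O.H) : M → QBar)) =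
    (((O.basis.repr ⟨h, hh⟩ i : Zl p) : ℚ) : QBar) • ((O.basis i : O.H) : M → QBar) from
      funext fun m => zl_smul _ _, ev_smul_fun, nrm_mul]
  exact (mul_le_mul (nrm_zl_le_one p _) (hj i) (nrm_nonneg p _) zero_le_one).trans (one_mul _).le

/-- The binomial remainder. -/
theorem le_pow_remainder {B Y : QBar[M]} {y : ℝ} (hB : Le O B 1) (hY : Le O Y y) (hy1 : y ≤ 1) :
    Le O ((B + Y) ^ p - B ^ p - (p : QBar) • (B ^ (p - 1) * Y))
      (max ((p : ℝ)⁻¹ * y ^ 2) (y ^ p)) := by
  obtain ⟨n, hn⟩ : ∃ n, p = n + 2 := ⟨p - 2, by have := hp.out.two_le; omega⟩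
  have hexp : (B + Y) ^ p - B ^ p - (p : QBar) • (B ^ (p - 1) * Y) =
      ∑ i ∈ Finset.range (n + 1),
        ((Nat.choose p (i + 2) : ℕ) : QBar) • (Y ^ (i + 2) * B ^ (p - (i + 2))) := by
    rw [add_comm B Y, add_pow, hn, Finset.sum_range_succ', Finset.sum_range_succ']
    simp only [Nat.choose_zero_right, Nat.cast_one, mul_one, pow_zero, one_mul, Nat.sub_zero,
      zero_add, Nat.choose_one_right, pow_one, add_sub_cancel_right]
    rw [show n + 2 - 1 = n + 1 from rfl]
    simp only [Nat.cast_smul_eq_nsmul, nsmul_eq_mul]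
    rw [mul_comm (Y * B ^ (n + 1)) ((n + 2 : ℕ) : QBar[M]), mul_comm Y (B ^ (n + 1)),
      add_sub_cancel_right]
    exact Finset.sum_congr rfl fun i _ => by ring
  rw [hexp]
  refine Le.sum _ (le_max_of_le_left (mul_nonneg (inv_cast_pos p).le (sq_nonneg y)))
    fun i hi => ?_
  have hle : Le O (Y ^ (i + 2) * B ^ (p - (i + 2))) (y ^ (i + 2)) :=
    ((hY.pow _).mul (hB.pow_one' _)).mono (mul_one _).le
  rcases Nat.lt_or_ge (i + 2) p with hlt | hge
  · refine (hle.smul (nrm_natCast_le_inv_of_dvd p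
      (hp.out.dvd_choose_self (by omega) hlt))).mono (le_max_of_le_left ?_)
    exact mul_le_mul_of_nonneg_left (pow_le_pow_of_le_one hY.nonneg hy1 (by omega))
      (inv_cast_pos p).le
  · have hip : i + 2 = p := by have := Finset.mem_range.mp hi; omega
    refine (hle.smul (nrm_natCast_le_one p _)).mono ?_
    rw [one_mul, hip]
    exact le_max_right _ _

theorem lt_one_of_pow_lt {y : ℝ} (hy : y ^ (p - 1) < (p : ℝ)⁻¹) : y < 1 := by
  by_contra h
  exact absurd ((one_le_pow₀ (not_lt.mp h)).trans hy.le) (not_le.mpr (inv_cast_lt_one p))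

theorem mul_pow_lt_self {y : ℝ} (h0 : 0 < y) (hy : y ^ (p - 1) < (p : ℝ)⁻¹) :
    (p : ℝ) * y ^ p < y := by
  have hp0 : (0 : ℝ) < p := zero_lt_one.trans (one_lt_cast p)
  have : (p : ℝ) * y ^ (p - 1) < 1 := by
    rwa [← lt_div_iff₀' hp0, one_div]
  calc (p : ℝ) * y ^ p = ((p : ℝ) * y ^ (p - 1)) * y := by
        rw [mul_assoc, ← pow_succ, Nat.sub_add_cancel hp.out.one_le]
    _ < 1 * y := mul_lt_mul_of_pos_right this h0
    _ = y := one_mul y

/-- Congruent elements with nearby `p`-th powers are close. -/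
theorem close {A B : QBar[M]} (hB : Le O B 1) {η ε y₀ : ℝ} (hη : Le O (B ^ p - 1) η)
    (hη1 : η < 1) (hε : Le O (A ^ p - B ^ p) ε) (hy₀ : Le O (A - B) y₀)
    (hy : y₀ ^ (p - 1) < (p : ℝ)⁻¹) : Le O (A - B) ((p : ℝ) * ε) := by
  have hp0 : (0 : ℝ) < p := zero_lt_one.trans (one_lt_cast p)
  obtain ⟨y, hle, hleast⟩ := exists_least_bound O (A - B)
  by_contra hcon
  have hεy : (p : ℝ) * ε < y := by
    by_contra h
    exact hcon (hle.mono (not_lt.mp h))
  have hy0 : 0 < y := (mul_nonneg hp0.le hε.nonneg).trans_lt hεy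
  have hyy : y ^ (p - 1) < (p : ℝ)⁻¹ :=
    (pow_le_pow_left₀ hle.nonneg (hleast _ hy₀) _).trans_lt hy
  have hy1 : y < 1 := lt_one_of_pow_lt hyy
  set Y := A - B with hYdef
  have hR := le_pow_remainder O hB hle hy1.le
  rw [show B + Y = A by rw [hYdef]; abel] at hR
  set R := A ^ p - B ^ p - (p : QBar) • (B ^ (p - 1) * Y) with hRdef
  clear_value Y
  have hkey : (p : QBar) • Y =
      B * (A ^ p - B ^ p) - (p : QBar) • ((B ^ p - 1) * Y) - B * R := by
    rw [hRdef, mul_sub B (A ^ p - B ^ p) _, mul_smul_comm, ← mul_assoc, ← pow_succ',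
      Nat.sub_add_cancel hp.out.one_le, sub_mul, one_mul, smul_sub]
    abel
  set z := max ε (max ((p : ℝ)⁻¹ * (η * y)) (max ((p : ℝ)⁻¹ * y ^ 2) (y ^ p))) with hz
  have hz1 : Le O ((p : QBar) • Y) z := by
    rw [hkey]
    refine ((((hB.mul_le_left hε).mono ?_).sub (((hη.mul hle).smul
      (nrm_natCast_self p).le).mono ?_))).sub ((hB.mul_le_left hR).mono ?_)
    · exact le_max_left _ _
    · exact (le_max_left _ _).trans (le_max_right _ _)
    · exact (le_max_right _ _).trans (le_max_right _ _)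
  have hz2 : Le O Y ((p : ℝ) * z) := by
    have := hz1.smul (c := (p : QBar)⁻¹) (s := (p : ℝ))
      (by rw [nrm_inv, nrm_natCast_self, inv_inv])
    rwa [smul_smul, inv_mul_cancel₀ (Nat.cast_ne_zero.mpr hp.out.ne_zero), one_smul] at this
  have hlt : (p : ℝ) * z < y := by
    rw [hz, mul_max_of_nonneg _ _ hp0.le, mul_max_of_nonneg _ _ hp0.le,
      mul_max_of_nonneg _ _ hp0.le, ← mul_assoc, mul_inv_cancel₀ hp0.ne', one_mul, ← mul_assoc,
      mul_inv_cancel₀ hp0.ne', one_mul]
    refine max_lt hεy (max_lt ?_ (max_lt ?_ (mul_pow_lt_self hy0 hyy)))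
    · exact mul_lt_of_lt_one_left hy0 hη1
    · rw [sq]; exact mul_lt_of_lt_one_left hy0 hy1
  exact absurd (hleast _ hz2) (not_le.mpr hlt)

variable {O}

/-- Two points congruent beyond `p^{-1/(p-1)}` on the order are equal. -/
theorem eq_of_near (hkill : ∀ m : M, p • m = 0) {m m' : M} {y : ℝ}
    (hy : y ^ (p - 1) < (p : ℝ)⁻¹) (h : ∀ f ∈ O.H, nrm p (f m - f m') ≤ y) : m = m' := by
  set A : QBar[M] := AddMonoidAlgebra.single m 1
  set B : QBar[M] := AddMonoidAlgebra.single m' 1
  have hpow : ∀ x : M, (AddMonoidAlgebra.single x (1 : QBar)) ^ p = 1 := fun x => by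
    rw [AddMonoidAlgebra.single_pow, one_pow, hkill]; rfl
  have hc := close O (A := A) (B := B) (le_single m') (η := 0) (ε := 0) (y₀ := y)
    (by rw [hpow, sub_self]; exact le_zero_measure le_rfl) zero_lt_one
    (by rw [hpow, hpow, sub_self]; exact le_zero_measure le_rfl)
    (fun f hf => by rw [map_sub, ev_single, ev_single, one_mul, one_mul]; exact h f hf) hy
  refine O.separates m m' fun f hf => sub_eq_zero.mp ((nrm_eq_zero p).mp ?_)
  refine le_antisymm ?_ (nrm_nonneg p _)
  have := hc f hf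
  rwa [map_sub, ev_single, ev_single, one_mul, one_mul, mul_zero] at this

/-- The connected part: points congruent to the origin at the place. -/
def conn (O : GalOrder p M) : AddSubgroup M where
  carrier := {m | ∀ f ∈ O.H, nrm p (f m - f 0) < 1}
  zero_mem' f _ := by simp
  add_mem' {x y} hx hy f hf := by
    obtain ⟨n, a, b, ha, hb, hab⟩ := O.comul f hf
    have h0 : f 0 = ∑ i, a i 0 * b i 0 := by rw [← hab, add_zero]
    rw [hab, h0, ← Finset.sum_sub_distrib]
    refine (mem_nonunits_iff p).mp (sum_mem fun i _ => (mem_nonunits_iff p).mpr ?_)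
    rw [show a i x * b i y - a i 0 * b i 0 =
      a i x * (b i y - b i 0) + (a i x - a i 0) * b i 0 by ring]
    refine nrm_add_lt_of_lt p ?_ ?_
    · rw [nrm_mul]
      exact (mul_le_of_le_one_left (nrm_nonneg p _) (nrm_apply_le_one O (ha i) x)).trans_lt
        (hy _ (hb i))
    · rw [nrm_mul]
      exact (mul_le_of_le_one_right (nrm_nonneg p _) (nrm_apply_le_one O (hb i) 0)).trans_lt
        (hx _ (ha i))
  neg_mem' {x} hx f hf := by simpa using hx _ (O.neg f hf)

/-- Inertia acts trivially modulo the connected part. -/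
theorem smul_sub_mem_conn {τ : GQ} (hτ : τ ∈ inG p) (m : M) : τ • m - m ∈ conn O := by
  intro f hf
  obtain ⟨n, a, b, ha, hb, hab⟩ := O.comul f hf
  have h1 : f (τ • m - m) = ∑ i, a i (τ • m) * b i (-m) := by rw [sub_eq_add_neg, hab]
  have h2 : f 0 = ∑ i, a i m * b i (-m) := by rw [← hab, add_neg_cancel]
  rw [h1, h2, ← Finset.sum_sub_distrib]
  refine (mem_nonunits_iff p).mp (sum_mem fun i _ => (mem_nonunits_iff p).mpr ?_)
  rw [← sub_mul, nrm_mul, O.equivariant _ (ha i)]
  exact (mul_le_of_le_one_right (nrm_nonneg p _) (nrm_apply_le_one O (hb i) _)).trans_lt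
    (nrm_sub_lt_one_of_mem_inG p hτ (nrm_apply_le_one O (ha i) m))

variable (O)

/-- Prescribed values on the order. -/
theorem exists_measure (φ : O.H →ₗ[Zl p] QBar) :
    ∃ U : QBar[M], ∀ h (hh : h ∈ O.H), ev h U = φ ⟨h, hh⟩ := by
  classical
  have hsp := O.span_basis_eq_top
  obtain ⟨ψ, hψb⟩ : ∃ ψ : (M → QBar) →ₗ[QBar] QBar,
      ∀ i, ψ ((O.basis i : O.H) : M → QBar) = φ (O.basis i) :=
    ⟨(Module.Basis.mk O.linearIndependent_basis hsp).constr QBar fun i => φ (O.basis i), fun i => by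
      rw [← Module.Basis.mk_apply O.linearIndependent_basis hsp i, Module.Basis.constr_basis]⟩
  refine ⟨∑ m, AddMonoidAlgebra.single m (ψ (Pi.single m 1)), fun h hh => ?_⟩
  have hψ : ∀ g : M → QBar, ev g (∑ m, AddMonoidAlgebra.single m (ψ (Pi.single m 1))) = ψ g := by
    intro g
    conv_rhs => rw [show g = ∑ m, g m • Pi.single m (1 : QBar) by
      funext x; simp [Finset.sum_apply, Pi.single_apply]]
    rw [map_sum, map_sum]
    exact Finset.sum_congr rfl fun m _ => by rw [ev_single, map_smul, smul_eq_mul, mul_comm]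
  rw [hψ]
  have := congrArg (fun g : O.H => (g : M → QBar)) (O.basis.sum_repr ⟨h, hh⟩)
  simp only [AddSubmonoidClass.coe_finsetSum, SetLike.val_smul] at this
  conv_rhs => rw [← O.basis.sum_repr ⟨h, hh⟩]
  conv_lhs => rw [← this]
  rw [map_sum, map_sum]
  refine Finset.sum_congr rfl fun i _ => ?_
  rw [map_smul φ, zl_smul, show ((O.basis.repr ⟨h, hh⟩ i) • ((O.basis i : O.H) : M → QBar)) =
    (((O.basis.repr ⟨h, hh⟩ i : Zl p) : ℚ) : QBar) • ((O.basis i : O.H) : M → QBar) from
      funext fun m => zl_smul _ _, map_smul, smul_eq_mul, hψb]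

end Fermat.Agent.CFT.Flat
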