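import Fermat.Agent.Arith.RootsOfUnity
import Fermat.Agent.CFT.Local.Global
import Fermat.Agent.FiniteFlat.FixedLift
import Fermat.Agent.FiniteFlat.GalOrderOps

/-!
# The absolute value of `ℚ̄` at `padicPlace p`
-/

set_option autoImplicit false
set_option linter.style.haveILetI false

noncomputable section

namespace Fermat.Agent.CFT.Flat

open Fermat.Agent.Arith
open scoped Pointwise

variable (p : ℕ) [hp : Fact p.Prime]

/-- The absolute value at the chosen place over `p`. -/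
def nrm (x : QBar) : ℝ := ‖padicEmbedding p x‖

/-- The decomposition group of the chosen place. -/
abbrev decG : Subgroup GQ := (padicPlace p).decompositionSubgroup ℚ

/-- The inertia group of the chosen place. -/
abbrev inG : Subgroup GQ := (padicPlace p).inertiaSubgroupIn ℚ

theorem nrm_nonneg (x : QBar) : 0 ≤ nrm p x := norm_nonneg _

@[simp] theorem nrm_zero : nrm p 0 = 0 := by simp [nrm]

@[simp] theorem nrm_one : nrm p 1 = 1 := by simp [nrm]

theorem nrm_eq_zero {x : QBar} : nrm p x = 0 ↔ x = 0 := by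
  simp [nrm, map_eq_zero]

theorem nrm_pos {x : QBar} (hx : x ≠ 0) : 0 < nrm p x :=
  (nrm_nonneg p x).lt_of_ne' fun h => hx ((nrm_eq_zero p).mp h)

theorem nrm_mul (x y : QBar) : nrm p (x * y) = nrm p x * nrm p y := by simp [nrm]

theorem nrm_pow (x : QBar) (n : ℕ) : nrm p (x ^ n) = nrm p x ^ n := by simp [nrm]

theorem nrm_inv (x : QBar) : nrm p x⁻¹ = (nrm p x)⁻¹ := by simp [nrm]

theorem nrm_zpow (x : QBar) (n : ℤ) : nrm p (x ^ n) = nrm p x ^ n := by
  simp [nrm, map_zpow₀, norm_zpow]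

theorem nrm_div (x y : QBar) : nrm p (x / y) = nrm p x / nrm p y := by simp [nrm]

theorem nrm_neg (x : QBar) : nrm p (-x) = nrm p x := by simp [nrm]

theorem nrm_sub_comm (x y : QBar) : nrm p (x - y) = nrm p (y - x) := by
  rw [← nrm_neg p (x - y), neg_sub]

theorem nrm_add_le (x y : QBar) : nrm p (x + y) ≤ max (nrm p x) (nrm p y) := by
  simp only [nrm, map_add]
  exact IsUltrametricDist.norm_add_le_max _ _

theorem nrm_sub_le (x y : QBar) : nrm p (x - y) ≤ max (nrm p x) (nrm p y) := by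
  rw [sub_eq_add_neg, ← nrm_neg p y]
  exact nrm_add_le p x (-y)

theorem nrm_add_le_of_le {x y : QBar} {r : ℝ} (hx : nrm p x ≤ r) (hy : nrm p y ≤ r) :
    nrm p (x + y) ≤ r := (nrm_add_le p x y).trans (max_le hx hy)

theorem nrm_sub_le_of_le {x y : QBar} {r : ℝ} (hx : nrm p x ≤ r) (hy : nrm p y ≤ r) :
    nrm p (x - y) ≤ r := (nrm_sub_le p x y).trans (max_le hx hy)

theorem nrm_add_lt_of_lt {x y : QBar} {r : ℝ} (hx : nrm p x < r) (hy : nrm p y < r) :
    nrm p (x + y) < r := (nrm_add_le p x y).trans_lt (max_lt hx hy)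

theorem nrm_sub_lt_of_lt {x y : QBar} {r : ℝ} (hx : nrm p x < r) (hy : nrm p y < r) :
    nrm p (x - y) < r := (nrm_sub_le p x y).trans_lt (max_lt hx hy)

theorem nrm_sum_le {ι : Type*} (s : Finset ι) (f : ι → QBar) {r : ℝ} (hr : 0 ≤ r)
    (h : ∀ i ∈ s, nrm p (f i) ≤ r) : nrm p (∑ i ∈ s, f i) ≤ r :=
  Finset.sum_induction f (fun x => nrm p x ≤ r) (fun _ _ ha hb => nrm_add_le_of_le p ha hb)
    (by simpa using hr) h

theorem nrm_prod {ι : Type*} (s : Finset ι) (f : ι → QBar) :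
    nrm p (∏ i ∈ s, f i) = ∏ i ∈ s, nrm p (f i) := by
  simp [nrm, map_prod]

/-- An element dominated by the other summand does not change the absolute value. -/
theorem nrm_add_eq_of_lt {x y : QBar} (h : nrm p y < nrm p x) : nrm p (x + y) = nrm p x := by
  refine le_antisymm (nrm_add_le_of_le p le_rfl h.le) (not_lt.mp fun hlt => ?_)
  have := nrm_sub_lt_of_lt p hlt h
  rw [add_sub_cancel_right] at this
  exact lt_irrefl _ this

theorem mem_place_iff {x : QBar} : x ∈ padicPlace p ↔ nrm p x ≤ 1 :=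
  Local.mem_padicPlace_iff_norm p

theorem mem_nonunits_iff {x : QBar} : x ∈ (padicPlace p).nonunits ↔ nrm p x < 1 :=
  Local.mem_nonunits_padicPlace_iff p

theorem nrm_natCast_self : nrm p (p : QBar) = (p : ℝ)⁻¹ := by
  rw [nrm, map_natCast, ← map_natCast (algebraMap ℚ_[p] (PadicAlgCl p)) p, norm_algebraMap',
    Padic.norm_p]

theorem one_lt_cast : (1 : ℝ) < p := Nat.one_lt_cast.mpr hp.out.one_lt

theorem inv_cast_pos : (0 : ℝ) < (p : ℝ)⁻¹ := inv_pos.mpr (zero_lt_one.trans (one_lt_cast p))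

theorem inv_cast_lt_one : (p : ℝ)⁻¹ < 1 := inv_lt_one_of_one_lt₀ (one_lt_cast p)

theorem nrm_natCast_le_one (n : ℕ) : nrm p (n : QBar) ≤ 1 :=
  (mem_place_iff p).mp (natCast_mem _ n)

theorem nrm_intCast_le_one (n : ℤ) : nrm p (n : QBar) ≤ 1 :=
  (mem_place_iff p).mp (intCast_mem _ n)

theorem nrm_natCast_le_inv_of_dvd {n : ℕ} (h : p ∣ n) : nrm p (n : QBar) ≤ (p : ℝ)⁻¹ := by
  obtain ⟨m, rfl⟩ := h
  rw [Nat.cast_mul, nrm_mul, nrm_natCast_self]
  exact mul_le_of_le_one_right (inv_cast_pos p).le (nrm_natCast_le_one p m)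

theorem nrm_natCast_eq_one {n : ℕ} (h : ¬ p ∣ n) : nrm p (n : QBar) = 1 :=
  le_antisymm (nrm_natCast_le_one p n) (not_lt.mp fun hlt =>
    h ((natCast_mem_nonunits_iff (Local.padicPlace_liesOverPrime p) hp.out n).mp
      ((mem_nonunits_iff p).mpr hlt)))

/-! ### The Galois action -/

theorem inG_le_decG : inG p ≤ decG p := fun _ hg =>
  MulAction.mem_stabilizer_iff.mpr (mem_inertia_iff_forall_mem.mp hg).1

theorem nrm_le_one_of_mem_decG {σ : GQ} (hσ : σ ∈ decG p) {x : QBar} (hx : nrm p x ≤ 1) :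
    nrm p (σ x) ≤ 1 :=
  (mem_place_iff p).mp
    (map_mem_of_mem_decomposition (MulAction.mem_stabilizer_iff.mp hσ) ((mem_place_iff p).mpr hx))

theorem nrm_map {σ : GQ} (hσ : σ ∈ decG p) (x : QBar) : nrm p (σ x) = nrm p x := by
  haveI : FiniteDimensional ℚ (IntermediateField.adjoin ℚ {x}) :=
    IntermediateField.adjoin.finiteDimensional (Algebra.IsIntegral.isIntegral x)
  haveI : Normal ℚ QBar := IsAlgClosure.normal ℚ QBar
  let L := IntermediateField.normalClosure ℚ (IntermediateField.adjoin ℚ {x}) QBar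
  haveI : Normal ℚ L := normalClosure.normal ℚ _ QBar
  have hx : x ∈ L := IntermediateField.le_normalClosure _
    (IntermediateField.mem_adjoin_simple_self ℚ x)
  have hc : ∀ y : L, ((AlgEquiv.restrictNormalHom L σ y : L) : QBar) = σ y :=
    fun y => AlgEquiv.restrictNormal_commutes σ L y
  obtain ⟨g, hg⟩ := (Local.mem_range_toGlobal_iff p L (AlgEquiv.restrictNormalHom L σ)).mpr
    fun y hy => by rw [hc]; exact map_mem_of_mem_decomposition hσ hy
  have h := Local.norm_algEquiv _ g (Local.localEmb p L ⟨x, hx⟩)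
  rwa [← Local.localEmb_toGlobal, hg, Local.norm_localEmb, Local.norm_localEmb, hc] at h

theorem nrm_map_of_mem_inG {σ : GQ} (hσ : σ ∈ inG p) (x : QBar) : nrm p (σ x) = nrm p x :=
  nrm_map p (inG_le_decG p hσ) x

theorem nrm_sub_lt_one_of_mem_inG {σ : GQ} (hσ : σ ∈ inG p) {x : QBar} (hx : nrm p x ≤ 1) :
    nrm p (σ x - x) < 1 :=
  (mem_nonunits_iff p).mp ((mem_inertia_iff_forall_mem.mp hσ).2 x ((mem_place_iff p).mpr hx))

theorem exists_frobenius :
    ∃ φ ∈ decG p, ∀ x, nrm p x ≤ 1 → nrm p (φ x - x ^ p) < 1 := by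
  obtain ⟨φ, hφ⟩ := exists_isFrobeniusAt (Local.padicPlace_liesOverPrime p) hp.out
  obtain ⟨h1, h2⟩ := isFrobeniusAt_iff_forall_mem.mp hφ
  exact ⟨φ, MulAction.mem_stabilizer_iff.mpr h1, fun x hx =>
    (mem_nonunits_iff p).mp (h2 x ((mem_place_iff p).mpr hx))⟩

/-! ### Roots of unity as residues -/

theorem exists_rootOfUnity {x : QBar} (hx : nrm p x = 1) :
    ∃ (ζ : QBar) (m : ℕ), 0 < m ∧ ¬ p ∣ m ∧ ζ ^ m = 1 ∧ nrm p (x - ζ) < 1 := by
  have hxA : x ∈ padicPlace p := (mem_place_iff p).mpr hx.le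
  have hz : IsLocalRing.residue (padicPlace p) ⟨x, hxA⟩ ≠ 0 := fun h => by
    rw [IsLocalRing.residue_eq_zero_iff, ← ValuationSubring.coe_mem_nonunits_iff] at h
    exact absurd hx ((mem_nonunits_iff p).mp h).ne
  obtain ⟨a, m, hm, hpm, ham, haz⟩ :=
    FiniteFlat.exists_rootOfUnity_lift (Local.padicPlace_liesOverPrime p) hp.out hz
  exact ⟨a, m, hm, hpm, ham, (mem_nonunits_iff p).mp (residue_eq_iff.mp haz.symm)⟩

theorem inG_fix_root {σ : GQ} (hσ : σ ∈ inG p) {ζ : QBar} {m : ℕ} (hζ : ζ ^ m = 1)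
    (hm : ¬ p ∣ m) : σ ζ = ζ :=
  inertia_root (Local.padicPlace_liesOverPrime p) hp.out hσ hζ hm

theorem nrm_root {ζ : QBar} {m : ℕ} (hm : 0 < m) (hζ : ζ ^ m = 1) : nrm p ζ = 1 := by
  have := congrArg (nrm p) hζ
  rw [nrm_pow, nrm_one] at this
  exact (pow_eq_one_iff_of_nonneg (nrm_nonneg p ζ) hm.ne').mp this

/-- Natural powers of a unit. -/
theorem nrm_npow_sub_one_le {w : QBar} (hw : nrm p w = 1) (i : ℕ) :
    nrm p (w ^ i - 1) ≤ nrm p (w - 1) := by
  rw [← geom_sum_mul, nrm_mul]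
  exact mul_le_of_le_one_left (nrm_nonneg p _) (nrm_sum_le p _ _ zero_le_one fun j _ => by
    rw [nrm_pow, hw, one_pow])

variable {p} in
/-- Powers of a principal unit. -/
theorem nrm_zpow_sub_one_le {w : QBar} (hw : nrm p w = 1) (a : ℤ) :
    nrm p (w ^ a - 1) ≤ nrm p (w - 1) := by
  rcases Int.eq_nat_or_neg a with ⟨i, rfl | rfl⟩
  · rw [zpow_natCast]; exact nrm_npow_sub_one_le p hw i
  · have hw0 : w ≠ 0 := fun h => by rw [h, nrm_zero] at hw; exact zero_ne_one hw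
    rw [zpow_neg, zpow_natCast, show (w ^ i)⁻¹ - 1 = -((w ^ i - 1) * (w ^ i)⁻¹) by
      rw [sub_mul, mul_inv_cancel₀ (pow_ne_zero _ hw0), one_mul, neg_sub], nrm_neg, nrm_mul,
      nrm_inv, nrm_pow, hw, one_pow, inv_one, mul_one]
    exact nrm_npow_sub_one_le p hw i

/-- Roots of unity of order prime to `p` are determined by their residues. -/
theorem root_unique {a b : QBar} (ha : ∃ m, 0 < m ∧ ¬ p ∣ m ∧ a ^ m = 1)
    (hb : ∃ m, 0 < m ∧ ¬ p ∣ m ∧ b ^ m = 1) (hlt : nrm p (a - b) < 1) : a = b := by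
  obtain ⟨⟨m, hm, hpm, ha⟩, m', hm', hpm', hb⟩ := ha, hb
  exact root_congr (Local.padicPlace_liesOverPrime p) hp.out (m := m * m')
    (by rw [pow_mul, ha, one_pow]) (by rw [mul_comm, pow_mul, hb, one_pow])
    (hp.out.not_dvd_mul hpm hpm') ((mem_nonunits_iff p).mpr hlt)

/-- A normal level of a homomorphism of finite level. -/
theorem exists_normal_level {A : Type} [MulOneClass A] {r : GQ →* A}
    (hr : GaloisFactorsThroughFiniteLevel r) : ∃ L : IntermediateField ℚ QBar,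
      FiniteDimensional ℚ L ∧ Normal ℚ L ∧ ∀ g ∈ L.fixingSubgroup, r g = 1 := by
  obtain ⟨L₀, hL₀, hL₀'⟩ := hr
  haveI : Normal ℚ QBar := IsAlgClosure.normal ℚ QBar
  exact ⟨IntermediateField.normalClosure ℚ L₀ QBar, inferInstance,
    normalClosure.normal ℚ L₀ QBar, fun g hg => hL₀' g fun x hx =>
      (IntermediateField.mem_fixingSubgroup_iff _ _).mp hg x (L₀.le_normalClosure hx)⟩

end Fermat.Agent.CFT.Flat
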